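import Fermat.Agent.LT.KapBound
import Fermat.Agent.LT.Operators

/-!
# Systems: algebra of the local and archimedean actions

The kernels used in the descent are products of one kernel per place. `Op` is an operation at one
place, `steps` composes a product kernel with a list of them, and `appP_step` says that the
operator of the result is the operation applied to the operator. `Base` builds the families of
commuting operators from these.
-/

set_option autoImplicit false
open MeasureTheory Filter Set NumberField
open scoped Classical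

namespace Fermat.LT.Sys

variable {F : Type*} [Field F] [NumberField F] {S : Set (Place F)}

section Loc

variable {v : Place F}

/-- A local kernel acts by a finite sum over the vertices. -/
lemma locAct_eq_finsum (l : LKer S v) (Φ : Pt F S → ℂ) (p : Pt F S) :
    locAct v l Φ p = ∑ᶠ y, l (p.1.1 v) y * Φ (p.1.set v y, p.2) := by
  rw [finsum_eq_sum_of_support_subset _ (s := l.row (p.1.1 v)) fun y hy =>
    Finset.mem_coe.2 (LKer.mem_row.2 (left_ne_zero_of_mul hy)), locAct]

/-- The unit kernel acts trivially. -/
lemma locAct_one (Φ : Pt F S → ℂ) (p : Pt F S) : locAct v (LKer.one S v) Φ p = Φ p := by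
  rw [locAct_eq_finsum, finsum_eq_single _ (p.1.1 v) fun y hy => by simp [Ne.symm hy]]
  simp

/-- The action of a composite local kernel is the composite action. -/
lemma locAct_comp (k l : LKer S v) (Φ : Pt F S → ℂ) (p : Pt F S) :
    locAct v (k.comp l) Φ p = locAct v k (locAct v l Φ) p := by
  set T := (k.row (p.1.1 v)).biUnion fun b => l.row b
  have h1 : locAct v (k.comp l) Φ p = ∑ c ∈ T, k.comp l (p.1.1 v) c * Φ (p.1.set v c, p.2) := by
    rw [locAct_eq_finsum]
    refine finsum_eq_sum_of_support_subset _ fun c hc => ?_
    have := left_ne_zero_of_mul hc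
    rw [LKer.comp_eq_sum] at this
    obtain ⟨b, hb, hne⟩ := Finset.exists_ne_zero_of_sum_ne_zero this
    exact Finset.mem_coe.2 (Finset.mem_biUnion.2 ⟨b, hb, LKer.mem_row.2 (right_ne_zero_of_mul hne)⟩)
  rw [h1]
  simp only [LKer.comp_eq_sum, Finset.sum_mul]
  rw [Finset.sum_comm, locAct]
  refine Finset.sum_congr rfl fun b hb => ?_
  rw [locAct, Finset.mul_sum]
  symm
  refine Finset.sum_subset_zero_on_sdiff ?_ ?_ ?_
  · intro c hc
    simp only [FinPt.set_self] at hc
    exact Finset.mem_biUnion.2 ⟨b, hb, hc⟩
  · intro c hc
    simp only [FinPt.set_self, Finset.mem_sdiff, LKer.mem_row, not_not] at hc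
    rw [hc.2, mul_zero, zero_mul]
  · intro c _
    simp [mul_assoc]

/-- Local actions at different places commute. -/
lemma locAct_comm {u : Place F} (hne : v ≠ u) (k : LKer S v) (l : LKer S u) (Φ : Pt F S → ℂ)
    (p : Pt F S) : locAct v k (locAct u l Φ) p = locAct u l (locAct v k Φ) p := by
  simp only [locAct, FinPt.set_of_ne _ hne.symm, FinPt.set_of_ne _ hne, Finset.mul_sum]
  rw [Finset.sum_comm]
  refine Finset.sum_congr rfl fun z _ => Finset.sum_congr rfl fun y _ => ?_
  rw [FinPt.set_comm p.1 hne]
  ring

/-- Equal kernels act equally. -/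
lemma locAct_congr {k l : LKer S v} (h : ∀ a b, k a b = l a b) (Φ : Pt F S → ℂ) (p : Pt F S) :
    locAct v k Φ p = locAct v l Φ p := by
  rw [LKer.ext' h]

/-- The action commutes with scalars. -/
lemma locAct_smul_fun (l : LKer S v) (c : ℂ) (Φ : Pt F S → ℂ) (p : Pt F S) :
    locAct v l (fun q => c * Φ q) p = c * locAct v l Φ p := by
  simp only [locAct, Finset.mul_sum]
  exact Finset.sum_congr rfl fun y _ => by ring

/-- The action commutes with finite sums. -/
lemma locAct_sum_fun {ι : Type*} (s : Finset ι) (l : LKer S v) (Φ : ι → Pt F S → ℂ) (p : Pt F S) :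
    locAct v l (fun q => ∑ i ∈ s, Φ i q) p = ∑ i ∈ s, locAct v l (Φ i) p := by
  simp only [locAct, Finset.mul_sum]
  exact Finset.sum_comm

/-- The local action is linear in the kernel. -/
lemma locAct_linear {k k₁ k₂ : LKer S v} (c₁ c₂ : ℂ) (h : ∀ a b, k a b = c₁ * k₁ a b + c₂ * k₂ a b)
    (Φ : Pt F S → ℂ) (p : Pt F S) :
    locAct v k Φ p = c₁ * locAct v k₁ Φ p + c₂ * locAct v k₂ Φ p := by
  set a := p.1.1 v
  set T := k.row a ∪ k₁.row a ∪ k₂.row a
  have e : ∀ m : LKer S v, m.row a ⊆ T →
      locAct v m Φ p = ∑ y ∈ T, m a y * Φ (p.1.set v y, p.2) := fun m hm =>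
    Finset.sum_subset hm fun y _ hy => by
      rw [LKer.mem_row, not_not] at hy; rw [hy, zero_mul]
  rw [e k (Finset.subset_union_left.trans Finset.subset_union_left),
    e k₁ (Finset.subset_union_right.trans Finset.subset_union_left),
    e k₂ Finset.subset_union_right, Finset.mul_sum, Finset.mul_sum, ← Finset.sum_add_distrib]
  exact Finset.sum_congr rfl fun y _ => by rw [h]; ring

end Loc

/-! ### archimedean kernels -/

/-- Two archimedean kernels are equal as functions. -/
def AEq (a b : AKer) : Prop := ∀ x y, a x y = b x y

/-- Composition respects equality as functions. -/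
lemma AEq.comp {a a' b b' : AKer} (ha : AEq a a') (hb : AEq b b') : AEq (a.comp b) (a'.comp b') :=
  fun x z => integral_congr_ae (Eventually.of_forall fun y => by
    change a x y * b y z = a' x y * b' y z
    rw [ha, hb])

/-- Associativity against a bounded continuous function. -/
lemma integral_comp_mul (a b : AKer) (x : H3) {f : H3 → ℂ} (hf : Continuous f) {C : ℝ}
    (hC : ∀ z, ‖f z‖ ≤ C) :
    ∫ z, a.comp b x z * f z ∂hmeas = ∫ y, a x y * ∫ z, b y z * f z ∂hmeas ∂hmeas := by
  have e1 : ∀ z, a.comp b x z * f z = ∫ y, a x y * b y z * f z ∂hmeas := fun z =>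
    (integral_mul_const (f z) fun y => a x y * b y z).symm
  -- exchange the two integrals
  rw [integral_congr_ae (Eventually.of_forall e1), integral_integral_swap ?_]
  · refine integral_congr_ae (Eventually.of_forall fun y => ?_)
    change ∫ z, a x y * b y z * f z ∂hmeas = a x y * ∫ z, b y z * f z ∂hmeas
    rw [← integral_const_mul]
    simp only [mul_assoc]
  · have hcont : Continuous fun p : H3 × H3 => a x p.2 * b p.2 p.1 * f p.1 :=
      ((a.continuous_right x).comp continuous_snd |>.mul
        (b.cont.comp (continuous_snd.prodMk continuous_fst))).mul (hf.comp continuous_fst)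
    -- the integrand is dominated on a ball around `x`
    set Z := {z : H3 | coshd x z ≤ 2 * |a.range| * |b.range|}
    refine Integrable.mono' (g := fun p : H3 × H3 =>
      Z.indicator (fun _ => b.bound * C) p.1 * ‖a x p.2‖) ?_ hcont.aestronglyMeasurable ?_
    · exact (AKer.integrable_indicator x _ _).mul_prod (a.integrable x).norm
    · refine Eventually.of_forall fun p => ?_
      change ‖a x p.2 * b p.2 p.1 * f p.1‖ ≤ Z.indicator (fun _ => b.bound * C) p.1 * ‖a x p.2‖
      have hC0 : 0 ≤ C := (norm_nonneg _).trans (hC x)
      rcases eq_or_ne (a x p.2 * b p.2 p.1) 0 with h | h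
      · rw [h, zero_mul, norm_zero]
        exact mul_nonneg (indicator_nonneg (fun _ _ => mul_nonneg b.bound_nonneg hC0) _)
          (norm_nonneg _)
      · rw [ne_eq, mul_eq_zero, not_or] at h
        have hz : p.1 ∈ Z := by
          refine (coshd_triangle x p.2 p.1).trans ?_
          exact mul_le_mul
            (mul_le_mul_of_nonneg_left ((not_lt.1 fun h' => h.1 (a.eq_zero _ _ h')).trans
              (le_abs_self _)) two_pos.le)
            ((not_lt.1 fun h' => h.2 (b.eq_zero _ _ h')).trans (le_abs_self _))
            (zero_le_one.trans (one_le_coshd _ _)) (by positivity)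
        rw [indicator_of_mem hz, norm_mul, norm_mul, mul_comm (b.bound * C) _, mul_assoc]
        exact mul_le_mul_of_nonneg_left (mul_le_mul (b.le_bound _ _) (hC _) (norm_nonneg _)
          b.bound_nonneg) (norm_nonneg _)

/-- Composition of kernels is associative. -/
lemma aeq_comp_assoc (a b c : AKer) : AEq ((a.comp b).comp c) (a.comp (b.comp c)) := fun x w =>
  integral_comp_mul a b x (c.continuous_left w) fun z => c.le_bound z w

/-- Composition of kernels is commutative. -/
lemma aeq_comp_comm (a b : AKer) : AEq (a.comp b) (b.comp a) := fun _ _ => AKer.comp_comm _ _ _ _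

/-- Equality as functions is reflexive. -/
lemma AEq.refl (a : AKer) : AEq a a := fun _ _ => rfl

/-- Equality as functions is transitive. -/
lemma AEq.trans {a b c : AKer} (h : AEq a b) (h' : AEq b c) : AEq a c := fun x y =>
  (h x y).trans (h' x y)

/-- Equality as functions is symmetric. -/
lemma AEq.symm {a b : AKer} (h : AEq a b) : AEq b a := fun x y => (h x y).symm

/-- Outer factors may be exchanged. -/
lemma aeq_left_comm (a b c : AKer) : AEq (a.comp (b.comp c)) (b.comp (a.comp c)) :=
  ((aeq_comp_assoc a b c).symm.trans ((aeq_comp_comm a b).comp (AEq.refl c))).trans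
    (aeq_comp_assoc b a c)

/-- The archimedean action is linear in the function. -/
lemma archAct_smul_fun (u : InfinitePlace F) (a : AKer) (c : ℂ) (Φ : Pt F S → ℂ) (p : Pt F S) :
    archAct u a (fun q => c * Φ q) p = c * archAct u a Φ p := by
  simp only [archAct, ← integral_const_mul]
  congr 1
  funext y
  ring

/-- Radial profiles: continuous test functions with compact support. -/
abbrev Rad : Type := {k : ℝ → ℝ // Continuous k ∧ HasCompactSupport k}

/-- The point-pair invariant kernel of a radial profile. -/
noncomputable def Rad.ker (k : Rad) : AKer := AKer.ofRadial k.1 k.2.1 k.2.2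

/-- The values of a radial kernel. -/
lemma Rad.ker_apply (k : Rad) (x y : H3) : k.ker x y = (k.1 (coshd x y) : ℂ) := rfl

/-- A radial kernel acts by the hyperbolic integral against its function. -/
lemma archAct_rad (u : InfinitePlace F) (k : Rad) {Φ : Pt F S → ℂ}
    (hc : ∀ ω, Continuous fun x : InfinitePlace F → H3 => Φ (ω, x)) (p : Pt F S) :
    archAct u k.ker Φ p
      = hIntegral (fun y => (k.1 (coshd (p.2 u) y) : ℂ) * Φ (p.1, Function.update p.2 u y)) := by
  rw [hIntegral_eq_integral]
  · rfl
  · exact ((k.ker.continuous_right (p.2 u)).mul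
      ((hc p.1).comp (continuous_const.update u continuous_id))).aestronglyMeasurable

/-- On an eigenfunction a radial kernel acts by its transform. -/
lemma IsArchEigen.archAct_eq {Φ : Pt F S → ℂ} (h : IsArchEigen Φ)
    (hc : ∀ ω, Continuous fun x : InfinitePlace F → H3 => Φ (ω, x)) (u : InfinitePlace F) (k : Rad)
    (p : Pt F S) : archAct u k.ker Φ p = hhat0 k.1 * Φ p := by
  rw [archAct_rad u k hc]
  convert h u k.1 k.2.1 k.2.2 p

/-! ### kernels with equal values -/

/-- Local factors equal, infinite factors equal as functions. -/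
structure PEq (P Q : PKer F S) : Prop where
  /-- The local factors are equal. -/
  loc : ∀ v, P.loc v = Q.loc v
  /-- The infinite factors agree as functions. -/
  arch : ∀ w, AEq (P.arch w) (Q.arch w)

/-- Equal product kernels have equal values. -/
lemma PEq.val {P Q : PKer F S} (h : PEq P Q) (p q : Pt F S) : P.val p q = Q.val p q := by
  simp only [PKer.val, PKer.fin, PKer.inf, h.loc, h.arch _ _ _]

/-- Equal product kernels have equal automorphic kernels. -/
lemma PEq.kap [Finite S] {P Q : PKer F S} (h : PEq P Q) (p q : Pt F S) : P.kap p q = Q.kap p q :=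
  PKer.kap_congr h.val p q

/-- Boundedness passes to equal kernels. -/
lemma PEq.bdd [Finite S] {P Q : PKer F S} (h : PEq P Q) (hP : P.Bdd) : Q.Bdd := by
  obtain ⟨C, hC⟩ := hP
  exact ⟨C, fun p q => by rw [← h.kap]; exact hC p q⟩

/-- Equality of product kernels is reflexive. -/
lemma PEq.refl (P : PKer F S) : PEq P P := ⟨fun _ => rfl, fun _ => AEq.refl _⟩

/-- Equality of product kernels is transitive. -/
lemma PEq.trans {P Q R : PKer F S} (h : PEq P Q) (h' : PEq Q R) : PEq P R :=
  ⟨fun v => (h.loc v).trans (h'.loc v), fun w => (h.arch w).trans (h'.arch w)⟩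

/-- An elementary operation: a kernel at one finite or one infinite place. -/
abbrev Op (F : Type*) [Field F] [NumberField F] (S : Set (Place F)) : Type _ :=
  (Σ v : Place F, LKer S v) ⊕ (InfinitePlace F × AKer)

/-- Compose a product kernel with an operation on the left. -/
noncomputable def step : Op F S → PKer F S → PKer F S
  | Sum.inl ⟨v, l⟩, P => P.actLoc v l
  | Sum.inr (u, a), P => P.actArch u a

/-- An operation on functions. -/
noncomputable def opAct : Op F S → (Pt F S → ℂ) → Pt F S → ℂ
  | Sum.inl ⟨v, l⟩, Φ => locAct v l Φ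
  | Sum.inr (u, a), Φ => archAct u a Φ

/-- An elementary operation is linear in the function. -/
lemma opAct_smul_fun (o : Op F S) (c : ℂ) (Φ : Pt F S → ℂ) (p : Pt F S) :
    opAct o (fun q => c * Φ q) p = c * opAct o Φ p := by
  rcases o with ⟨v, l⟩ | ⟨u, a⟩
  · exact locAct_smul_fun l c Φ p
  · exact archAct_smul_fun u a c Φ p

/-- An operation preserves boundedness. -/
lemma step_bdd [Finite S] (o : Op F S) {P : PKer F S} (hP : P.Bdd) : (step o P).Bdd := by
  rcases o with ⟨v, l⟩ | ⟨u, a⟩
  · exact hP.actLoc v l
  · exact hP.actArch u a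

/-- The operator of a composed kernel is the operation applied to the operator. -/
lemma appP_step [Finite S] {D : Set (Pt F S)} [IsFiniteMeasure (domMeasure D)] (o : Op F S)
    {P : PKer F S} (hP : P.Bdd) (φ : DomL2 D) (p : Pt F S) :
    (step o P).appP φ p = opAct o (fun q => P.appP φ q) p := by
  rcases o with ⟨v, l⟩ | ⟨u, a⟩
  · exact (PKer.locAct_appP hP v l φ p).symm
  · exact (PKer.archAct_appP hP u a φ p).symm

/-- The kernel obtained by applying a list of operations in turn. -/
noncomputable def steps (l : List (Op F S)) (P : PKer F S) : PKer F S := l.foldr step P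

/-- A list of operations preserves boundedness. -/
lemma steps_bdd [Finite S] (l : List (Op F S)) {P : PKer F S} (hP : P.Bdd) : (steps l P).Bdd := by
  induction l with
  | nil => exact hP
  | cons o l ih => exact step_bdd o ih

end Fermat.LT.Sys
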