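import Fermat.Agent.LT.Sys.Compare

/-!
# Systems: exactly one system below

By `atom_flip` the difference of the weights below and above at the form is carried by each of
infinitely many disjoint flipped sets, hence is zero: `sum_sysK` counts two systems of the form on
`K`. The cuspidal type at `v3` pairs them, so they have the same eigenvalues: `exists_unique_sys`,
from which `Descent` reads the form on `K`.
-/

set_option autoImplicit false
open MeasureTheory Filter Set NumberField
open scoped Classical ComplexConjugate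

namespace Fermat.LT.Sys

variable {K L : Type} [Field K] [NumberField K] [Field L] [NumberField L] [Algebra K L]
  {v3 : Place K} {lam : Place L → ℝ}

/-- The set coordinate takes the set value. -/
lemma setCoord_self {J : Type*} (j₀ : J) (c : ℝ) (z : J → ℝ) : setCoord j₀ c z j₀ = c := by
  classical
  exact Function.update_self ..

/-- The other coordinates are unchanged. -/
lemma setCoord_ne {J : Type*} {j₀ j : J} (h : j ≠ j₀) (c : ℝ) (z : J → ℝ) :
    setCoord j₀ c z j = z j := by
  classical
  exact Function.update_of_ne h ..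

/-- If infinitely many disjoint sub-sums of an absolutely summable family all equal `c`, then
`c = 0`. -/
lemma eq_zero_of_disjoint {I T : Type*} {a : I → ℂ} (ha : Summable fun i => ‖a i‖) {c : ℂ}
    (A : T → Set I) {N : Set T} (hN : N.Infinite)
    (hd : ∀ s ∈ N, ∀ t ∈ N, s ≠ t → Disjoint (A s) (A t))
    (h : ∀ t ∈ N, ∑' i, (A t).indicator a i = c) : c = 0 := by
  by_contra hc
  have hc0 : 0 < ‖c‖ := norm_pos_iff.2 hc
  obtain ⟨n, hn⟩ := exists_nat_gt ((∑' i, ‖a i‖) / ‖c‖)
  obtain ⟨F, hFN, hF⟩ := hN.exists_subset_card_eq n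
  have hs : ∀ t, Summable fun i => (A t).indicator (fun i => ‖a i‖) i := fun t => ha.indicator _
  have h1 : (n : ℝ) * ‖c‖ ≤ ∑ t ∈ F, ∑' i, (A t).indicator (fun i => ‖a i‖) i := by
    rw [← hF, ← nsmul_eq_mul, ← Finset.sum_const]
    refine Finset.sum_le_sum fun t ht => ?_
    rw [← h t (hFN ht)]
    refine tsum_of_norm_bounded (hs t).hasSum fun i => ?_
    exact le_of_eq (norm_indicator_eq_indicator_norm _ _)
  rw [← Summable.tsum_finsetSum fun t _ => hs t] at h1
  have h2 : ∑' i, ∑ t ∈ F, (A t).indicator (fun i => ‖a i‖) i ≤ ∑' i, ‖a i‖ := by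
    refine Summable.tsum_le_tsum (fun i => ?_) (summable_sum fun t _ => hs t) ha
    by_cases hex : ∃ t ∈ F, i ∈ A t
    · obtain ⟨t, ht, hit⟩ := hex
      rw [Finset.sum_eq_single t]
      · rw [Set.indicator_of_mem hit]
      · intro s hs' hst
        exact Set.indicator_of_notMem (fun hi => (hd s (hFN hs') t (hFN ht) hst).le_bot ⟨hi, hit⟩) _
      · intro h'; exact absurd ht h'
    · push Not at hex
      rw [Finset.sum_eq_zero fun t ht => Set.indicator_of_notMem (hex t ht) _]
      exact norm_nonneg _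
  rw [div_lt_iff₀ hc0] at hn
  linarith

/-- A cube root of one fixed by conjugation is one. -/
private lemma eq_one_of_cube_eq_one {z : ℂ} (h3 : z ^ 3 = 1) (hz : conj z = z) : z = 1 := by
  obtain ⟨r, hr⟩ : ∃ r : ℝ, (r : ℂ) = z := ⟨z.re, Complex.conj_eq_iff_re.1 hz⟩
  have hr3 : r ^ 3 = 1 := by
    rw [← hr] at h3
    exact_mod_cast h3
  have hr1 : r = 1 := by
    have h3 : (r - 1) * (r ^ 2 + r + 1) = 0 := by linear_combination hr3
    exact sub_eq_zero.1 ((mul_eq_zero.1 h3).resolve_right (by nlinarith [sq_nonneg (2 * r + 1)]))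
  rw [← hr, hr1, Complex.ofReal_one]

variable (d : DescentData K L v3 lam) (G : GeoData K L v3) [Finite (levK L v3)]
  [Finite (placesOver K L v3)] {DK : Set (Pt K (levK L v3))} {DL : Set (Pt L (placesOver K L v3))}
  {σ : L ≃ₐ[K] L} (hc : Cyc3 K L σ) [IsTotallyComplex K] [IsTotallyComplex L]
  (hS : Stable (σ : L ≃+* L) (placesOver K L v3))

section Systems

variable (ZK : EigFam singleton_sub (norm_singleton G) (extraK G) DK)
  (ZL : EigFam subset_rfl G.norm_w3 (extraL (K := K) (L := L) (v3 := v3)) DL)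

/-- The systems below with the coordinates of the given form. -/
def sysK (lam : Place L → ℝ) : Set ZK.I := {i | ∀ j, xK G ZK i j = x0 lam j}

omit [Finite (placesOver K L v3)] [IsTotallyComplex L] [IsTotallyComplex K] in
/-- A system of the form has parameter zero at the infinite places of `K`. -/
lemma eig_arch {i : ZK.I} (h : i ∈ sysK G ZK lam) (u : InfinitePlace K) (k : Rad) :
    ZK.eig i (Sum.inr (Sum.inr (u, k))) = eaZero K (u, k) := by
  obtain ⟨w, rfl⟩ := InfinitePlace.comap_surjective (K := L) (k := K) u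
  exact h (Sum.inr (w, k))

omit [IsTotallyComplex K] [IsTotallyComplex L] in
include hc in
/-- If one place over `v0` has the norm of `v0`, all places over `v0` do. -/
lemma norm_of_split {v0 : Place K} {w0 w : Place L} (hw0 : LiesOver K L w0 v0)
    (hn : pnorm w0 = pnorm v0) (hw : LiesOver K L w v0) : pnorm w = pnorm v0 := by
  rcases hc.eq_or_eq_mapPlace hw0 hw with rfl | rfl | rfl <;> simp [pnorm_mapPlace, hn]

omit [Finite (levK L v3)] [Finite (placesOver K L v3)] [IsTotallyComplex K] [IsTotallyComplex L] in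
include d hc in
/-- The eigenvalues of the form agree at all places over a place off the level. -/
lemma lam_over {v0 : Place K} (hv0 : v0 ∉ levK L v3) {w0 w : Place L} (hw0 : LiesOver K L w0 v0)
    (hw : LiesOver K L w v0) : lam w = lam w0 := by
  have hno : ∀ {u : Place L}, LiesOver K L u v0 → u ∉ placesOver K L v3 := fun hu h =>
    hv0 (by rw [hu.unique h]; exact Set.mem_insert _ _)
  rcases hc.eq_or_eq_mapPlace hw0 hw with rfl | rfl | rfl
  · rfl
  · exact d.invariant _ w0 (hno hw0)
  · rw [d.invariant _ _ (hno (hw0.mapPlace σ)), d.invariant _ w0 (hno hw0)]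

/-- The systems below with minus the eigenvalue of the form at `w0` and its other allowed
coordinates. -/
private def flipSet (lam : Place L → ℝ) (v : Place K) (w0 : Place L) : Set ZK.I :=
  {i | ∀ j : JT K L v3, Allowed v w0 j →
    (if j.elim (fun w => w.1 = w0) (fun _ => False) then xK G ZK i j = -lam w0
      else xK G ZK i j = x0 lam j)}

omit [Finite (placesOver K L v3)] [IsTotallyComplex K] [IsTotallyComplex L] in
/-- Flips over different places are disjoint. -/
private lemma disjoint_flipSet {s t : Place K} {ws wt : Place L} (hs : LiesOver K L ws s)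
    (ht : LiesOver K L wt t) (hb : below K ws ∉ levK L v3) (hl : lam ws ≠ 0) (hst : s ≠ t) :
    Disjoint (flipSet G ZK lam s ws) (flipSet G ZK lam t wt) := by
  rw [Set.disjoint_left]
  intro i hi hi'
  set j : JT K L v3 := Sum.inl ⟨ws, hb⟩
  have h1 := hi j fun _ => rfl
  rw [if_pos (show j.elim (fun w => w.1 = ws) (fun _ => False) from rfl)] at h1
  have h2 := hi' j fun e => absurd ((liesOver_iff_below.1 hs).symm.trans e) hst
  rw [if_neg (show ¬ j.elim (fun w => w.1 = wt) (fun _ => False) from fun e => hst (by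
    rw [← liesOver_iff_below.1 hs, show ws = wt from e]
    exact liesOver_iff_below.1 ht))] at h2
  rw [h1] at h2
  exact hl (by simp only [x0, j, Sum.elim_inl] at h2; linarith)

omit [IsTotallyComplex K] in
/-- The atoms of both fields split into the sums below and above. -/
private lemma atom_aAll_eq {v : Place K} {w0 : Place L}
    (y : {j : JT K L v3 // Allowed v w0 j} → ℝ) :
    atom (aAll G hS ZK ZL) (fun i (j : {j : JT K L v3 // Allowed v w0 j}) => xAll G ZK ZL i j.1) y
      = (∑' i, Set.indicator {i : ZK.I | (fun j : {j : JT K L v3 // Allowed v w0 j} =>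
          xK G ZK i j.1) = y} (aK G ZK) i)
        + ∑' i, Set.indicator {i : ZL.I | (fun j : {j : JT K L v3 // Allowed v w0 j} =>
          xL G ZL i j.1) = y} (fun i => -cL G hS ZL i) i := by
  rw [atom, Summable.tsum_sum]
  · rfl
  · refine (Summable.of_norm ((summable_aK G ZK))).indicator
      {i : ZK.I | (fun j : {j : JT K L v3 // Allowed v w0 j} => xK G ZK i j.1) = y}
        |>.congr fun i => ?_
    change Set.indicator {i : ZK.I | (fun j : {j : JT K L v3 // Allowed v w0 j} =>
        xK G ZK i j.1) = y}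
      (aK G ZK) i = _
    rfl
  · refine (Summable.of_norm (f := fun i => -cL G hS ZL i) ?_).indicator
      {i : ZL.I | (fun j : {j : JT K L v3 // Allowed v w0 j} => xL G ZL i j.1) = y}
        |>.congr fun i => rfl
    simpa [cL] using ZL.summ_amap (σ : L ≃+* L) hS

omit [Finite (placesOver K L v3)] [IsTotallyComplex K] [IsTotallyComplex L] in
include d hc in
/-- Below, the allowed coordinates of the form single out its systems. -/
private lemma xK_eq_iff_mem_sysK {v : Place K} (hv : v ∉ levK L v3) {w0 : Place L}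
    (hw : LiesOver K L w0 v) (hn : pnorm w0 = pnorm v) (hb0 : below K w0 ∉ levK L v3) (i : ZK.I) :
    (fun j : {j : JT K L v3 // Allowed v w0 j} => xK G ZK i j.1) = (fun j => x0 lam j.1) ↔
    i ∈ sysK G ZK lam := by
  refine ⟨fun hi j => ?_, fun hi => funext fun j => hi j.1⟩
  by_cases hok : Allowed v w0 j
  · exact congrFun hi ⟨j, hok⟩
  · rcases j with w | j
    · simp only [Allowed, not_forall] at hok
      obtain ⟨hb, -⟩ := hok
      have hb' := liesOver_iff_below.2 hb
      have h0 := congrFun hi ⟨Sum.inl ⟨w0, hb0⟩, fun _ => rfl⟩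
      simp only [xK, x0, Sum.elim_inl] at h0 ⊢
      rw [lam_over d hc hv hw hb', ← h0]
      have hn1 := norm_of_split hc hw hn hb'
      have hbv : below K w0 = v := liesOver_iff_below.1 hw
      simp only [bcVal, hb, hbv, hn1, if_true]
      rw [if_pos hn]
    · exact absurd trivial hok

omit [IsTotallyComplex K] in
include hc in
/-- Above, agreement with the form away from the places over `v` gives a system of the form. -/
private lemma mem_sysL_of_agree (V : Eight G.norm_w3 σ lam hS) {v : Place K} {i : ZL.I}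
    (hg : ∀ (w : Place L) (hb : below K w ∉ levK L v3), below K w ≠ v →
      xL G ZL i (Sum.inl ⟨w, hb⟩) = x0 lam (Sum.inl ⟨w, hb⟩ : JT K L v3))
    (ha : ∀ j, xL G ZL i (Sum.inr j) = x0 lam (Sum.inr j : JT K L v3)) : i ∈ sysL ZL lam := by
  set Z : Set (Place L) := ⋃ u ∈ insert v (levK L v3), placesOver K L u
  have hZ : Z.Finite :=
    ((Set.toFinite (levK L v3)).insert v).biUnion fun u _ => hc.finite_placesOver u
  have hZmem : ∀ w : Place L, w ∉ Z → below K w ∉ levK L v3 ∧ below K w ≠ v := fun w hw' => by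
    simp only [Z, Set.mem_iUnion, not_exists] at hw'
    exact ⟨fun e => hw' _ (Set.mem_insert_of_mem _ e) (liesOver_below w),
      fun e => hw' v (Set.mem_insert _ _) (liesOver_iff_below.2 e)⟩
  exact mem_sysL ZL V hZ (fun w hwZ => hg w.1 (hZmem w.1 hwZ).1 (hZmem w.1 hwZ).2) ha

omit [IsTotallyComplex K] in
include hc in
/-- Above, the allowed coordinates of the form single out its systems. -/
private lemma xL_eq_iff_mem_sysL (V : Eight G.norm_w3 σ lam hS) {v : Place K}
    {w0 : Place L} (i : ZL.I) :
    (fun j : {j : JT K L v3 // Allowed v w0 j} => xL G ZL i j.1) = (fun j => x0 lam j.1) ↔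
    i ∈ sysL ZL lam := by
  refine ⟨fun hi => mem_sysL_of_agree G hc hS ZL V (v := v)
    (fun w hb hne => congrFun hi ⟨Sum.inl ⟨w, hb⟩, fun e => absurd e hne⟩)
    (fun j => congrFun hi ⟨Sum.inr j, trivial⟩), fun hi => funext fun j => ?_⟩
  rcases j with ⟨(w | j), hj⟩
  · exact hi.1 ⟨w.1, notMem_W3 w.2⟩
  · exact hi.2 j

omit [Finite (placesOver K L v3)] [IsTotallyComplex K] [IsTotallyComplex L] in
/-- Below, the flipped point is cut out by `flipSet`. -/
private lemma xK_eq_flip_iff {v : Place K} {w0 : Place L} (hb : below K w0 ∉ levK L v3) (i : ZK.I) :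
    (fun j : {j : JT K L v3 // Allowed v w0 j} => xK G ZK i j.1)
        = setCoord ⟨Sum.inl ⟨w0, hb⟩, fun _ => rfl⟩ (-(x0 lam (Sum.inl ⟨w0, hb⟩ : JT K L v3)))
          (fun j => x0 lam j.1)
      ↔ i ∈ flipSet G ZK lam v w0 := by
  set j0 : {j : JT K L v3 // Allowed v w0 j} := ⟨Sum.inl ⟨w0, hb⟩, fun _ => rfl⟩
  simp only [flipSet, Set.mem_ofPred_eq]
  constructor
  -- read off the coordinates
  · intro hi j hj
    have h0 := congrFun hi ⟨j, hj⟩
    split_ifs with hcase
    · rcases j with w | j
      · have hw' : w = ⟨w0, hb⟩ := Subtype.ext hcase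
        subst hw'
        rw [show (⟨Sum.inl ⟨w0, hb⟩, hj⟩ : {j : JT K L v3 // Allowed v w0 j}) = j0 from rfl,
          setCoord_self] at h0
        simpa [j0, x0] using h0
      · exact absurd hcase not_false
    · rw [setCoord_ne (fun e => hcase (by
        have e' := congrArg (fun z : {j : JT K L v3 // Allowed v w0 j} => z.1) e
        simp only [j0] at e'
        rw [e']; rfl))] at h0
      exact h0
  · intro hi
    -- conversely, compare coordinate by coordinate
    funext j
    have h0 := hi j.1 j.2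
    by_cases hj : j = j0
    · subst hj
      rw [if_pos (show j0.1.elim (fun w => w.1 = w0) (fun _ => False) from rfl)] at h0
      rw [setCoord_self]
      simpa [x0, j0] using h0
    · rw [if_neg (fun hcase => hj (by
        rcases j with ⟨(w | j), hjo⟩
        · exact Subtype.ext (congrArg Sum.inl (Subtype.ext hcase))
        · exact absurd hcase not_false))] at h0
      rw [setCoord_ne hj]
      exact h0

omit [IsTotallyComplex K] in
include hc in
/-- Above, no system takes the flipped value. -/
private lemma xL_ne_flip (V : Eight G.norm_w3 σ lam hS) {v : Place K} {w0 : Place L}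
    (hw : LiesOver K L w0 v) (hb : below K w0 ∉ levK L v3) (hl : lam w0 ≠ 0) (i : ZL.I) :
    (fun j : {j : JT K L v3 // Allowed v w0 j} => xL G ZL i j.1)
      ≠ setCoord ⟨Sum.inl ⟨w0, hb⟩, fun _ => rfl⟩
        (-(x0 lam (Sum.inl ⟨w0, hb⟩ : JT K L v3))) fun j => x0 lam j.1 := by
  set j0 : {j : JT K L v3 // Allowed v w0 j} := ⟨Sum.inl ⟨w0, hb⟩, fun _ => rfl⟩
  intro hi
  have hne : ∀ (j : JT K L v3) (hj : Allowed v w0 j),
      (⟨j, hj⟩ : {j : JT K L v3 // Allowed v w0 j}) ≠ j0 → xL G ZL i j = x0 lam j :=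
    fun j hj hne => by
    have h0 := congrFun hi ⟨j, hj⟩
    rwa [setCoord_ne hne] at h0
  have hsys : i ∈ sysL ZL lam := mem_sysL_of_agree G hc hS ZL V (v := v)
    (fun w hbw hwv => hne (Sum.inl ⟨w, hbw⟩) (fun e => absurd e hwv) fun e => by
      have h1 : w = w0 := by
        have e' := congrArg (fun z : {j : JT K L v3 // Allowed v w0 j} => z.1) e
        simp only [j0, Sum.inl.injEq, Subtype.mk.injEq] at e'
        exact e'
      exact hwv (by rw [h1]; exact liesOver_iff_below.1 hw))
    fun j => hne (Sum.inr j) trivial fun e => by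
      have e' := congrArg (fun z : {j : JT K L v3 // Allowed v w0 j} => z.1) e
      simp [j0] at e'
  have h0 := congrFun hi j0
  rw [setCoord_self] at h0
  simp only [xL, j0, jL, x0, Sum.elim_inl] at h0
  rw [hsys.1] at h0
  exact hl (by simp only [egL] at h0; linarith)

end Systems

variable (hDK : IsFundamentalDomain (PG K) DK ptMeasure)
  (hDL : IsFundamentalDomain (PG L) DL ptMeasure)
  (ZK : EigFam singleton_sub (norm_singleton G) (extraK G) DK)
  (ZL : EigFam subset_rfl G.norm_w3 (extraL (K := K) (L := L) (v3 := v3)) DL)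

include d hc hDK hDL in
/-- Each flipped set below carries the difference of the weights of the systems of the form. -/
private lemma tsum_flipSet (geo : GeometricStatement K L) (V : Eight G.norm_w3 σ lam hS)
    (hfin : (sysK G ZK lam).Finite) (hfinL : (sysL ZL lam).Finite) {v : Place K}
    (hv : v ∉ levK L v3) {w0 : Place L} (hw : LiesOver K L w0 v) (hn : pnorm w0 = pnorm v)
    (hb : below K w0 ∉ levK L v3) (hl : lam w0 ≠ 0) :
    ∑' i, (flipSet G ZK lam v w0).indicator (aK G ZK) i
      = (∑ i ∈ hfin.toFinset, aK G ZK i) - ∑ i ∈ hfinL.toFinset, cL G hS ZL i := by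
  have h := atom_flip G hc hS hDK hDL ZK ZL geo hv hw hn hb (x0 lam) hl
  simp only at h
  rw [atom_aAll_eq, atom_aAll_eq] at h
  have e1 : {i : ZK.I | (fun j : {j : JT K L v3 // Allowed v w0 j} => xK G ZK i j.1)
      = fun j => x0 lam j.1} = ↑hfin.toFinset := by
    ext i
    rw [Set.mem_ofPred_eq, Finset.mem_coe, Set.Finite.mem_toFinset,
      xK_eq_iff_mem_sysK d G hc ZK hv hw hn hb]
  have e2 : {i : ZL.I | (fun j : {j : JT K L v3 // Allowed v w0 j} => xL G ZL i j.1)
      = fun j => x0 lam j.1} = ↑hfinL.toFinset := by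
    ext i
    rw [Set.mem_ofPred_eq, Finset.mem_coe, Set.Finite.mem_toFinset, xL_eq_iff_mem_sysL G hc hS ZL V]
  have e3 : {i : ZK.I | (fun j : {j : JT K L v3 // Allowed v w0 j} => xK G ZK i j.1)
      = setCoord ⟨Sum.inl ⟨w0, hb⟩, fun _ => rfl⟩ (-(x0 lam (Sum.inl ⟨w0, hb⟩)))
        fun j => x0 lam j.1}
      = flipSet G ZK lam v w0 := Set.ext fun i => xK_eq_flip_iff G ZK hb i
  have e4 : {i : ZL.I | (fun j : {j : JT K L v3 // Allowed v w0 j} => xL G ZL i j.1)
      = setCoord ⟨Sum.inl ⟨w0, hb⟩, fun _ => rfl⟩ (-(x0 lam (Sum.inl ⟨w0, hb⟩))) fun j =>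
          x0 lam j.1} = ∅ :=
    Set.eq_empty_of_forall_notMem fun i => xL_ne_flip G hc hS ZL V hw hb hl i
  rw [e1, e2, e3, e4, tsum_congr (fun i => congrFun (Set.indicator_empty _) i), tsum_zero,
    add_zero] at h
  rw [← h, ← sum_eq_tsum_indicator, ← sum_eq_tsum_indicator, Finset.sum_neg_distrib,
    ← sub_eq_add_neg]

include d hc hS hDK hDL ZL in
/-- **The systems below of the given form are finitely many, with tame products summing to two.** -/
theorem sum_sysK (geo : GeometricStatement K L) :
    ∃ hfin : (sysK G ZK lam).Finite, ∑ i ∈ hfin.toFinset, ramProd G ZK i = 2 := by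
  obtain ⟨V⟩ := exists_eight d G hc hS
  have : IsFiniteMeasure (domMeasure DK) := isFiniteMeasure_domMeasure hDK
  have hfin : (sysK G ZK lam).Finite :=
    finite_sys ZK hDK _ fun i hi u => eig_arch G ZK hi u k0
  refine ⟨hfin, ?_⟩
  obtain ⟨hfinL, hsumL⟩ := sum_sysL ZL V hDL
  set A0 : ℂ := (∑ i ∈ hfin.toFinset, aK G ZK i) - ∑ i ∈ hfinL.toFinset, cL G hS ZL i
  -- the good split places with a nonzero eigenvalue
  set N : Set (Place K) :=
    {v : Place K | ∃ w : Place L, LiesOver K L w v ∧ pnorm w = pnorm v ∧ lam w ≠ 0} \ levK L v3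
  have hN : N.Infinite := d.nonvanishing.sdiff (Set.toFinite _)
  have : Nonempty (Place L) := ⟨(exists_liesOver (L := L) v3).choose⟩
  choose! wOf hw hwn hwl using fun (v : Place K) (h : v ∈ N) => h.1
  have hwb : ∀ v ∈ N, below K (wOf v) ∉ levK L v3 := fun v hv => by
    rw [liesOver_iff_below.1 (hw v hv)]; exact hv.2
  -- the disjoint flipped sets all carry the difference, which is thus zero
  have hA0 : A0 = 0 :=
    eq_zero_of_disjoint (summable_aK G ZK) (fun v => flipSet G ZK lam v (wOf v)) hN
    (fun s hs t ht => disjoint_flipSet G ZK (hw s hs) (hw t ht) (hwb s hs) (hwl s hs))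
    fun v hv => tsum_flipSet d G hc hS hDK hDL ZK ZL geo V hfin hfinL hv.2 (hw v hv) (hwn v hv)
      (hwb v hv) (hwl v hv)
  -- the values of the weights
  set H : ℂ := hhat0 k0.1 with hH
  set n := Fintype.card (InfinitePlace K)
  have hcard : Fintype.card (InfinitePlace L) = 3 * n := by
    rw [← Fintype.card_of_bijective (pl3_bijective hc)]
    simp [n, mul_comm]
  have hKv : ∀ i ∈ hfin.toFinset, aK G ZK i = H ^ (6 * n) * ramProd G ZK i := fun i hi => by
    have hi' := hfin.mem_toFinset.1 hi
    have he : ∀ u : InfinitePlace K, (ZK.eig i (Sum.inr (Sum.inr (u, k0))) : ℂ) = H := fun u => by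
      rw [eig_arch G ZK hi' u k0, eaZero_eq]
    rw [aK, lam_eq ZK hDK fun u => eig_arch G ZK hi' u k0]
    simp only [he, Finset.prod_const, Finset.card_univ]
    ring
  have hLv : ∀ i ∈ hfinL.toFinset, cL G hS ZL i
      = H ^ (6 * n) * ∫ p, conj (ZL.Φ i (Pt.amap hS p)) * ZL.Φ i p ∂domMeasure DL := fun i hi => by
    rw [cL, lam_eq ZL hDL fun u => (hfinL.mem_toFinset.1 hi).2 (u, k0), hcard]
    ring
  -- cancelling the common archimedean factor
  have hsum : ∑ i ∈ hfin.toFinset, ramProd G ZK i = 2 * conj V.c := by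
    simp only [A0, Finset.sum_congr rfl hKv, Finset.sum_congr rfl hLv, ← Finset.mul_sum, hsumL,
      sub_eq_zero] at hA0
    exact mul_left_cancel₀ (pow_ne_zero _ hhat0_k0_ne) hA0
  -- a real cube root of one
  have hreal : conj (∑ i ∈ hfin.toFinset, ramProd G ZK i) =
      ∑ i ∈ hfin.toFinset, ramProd G ZK i := by
    simp only [map_sum, ramProd, map_prod, Complex.conj_ofReal]
  rw [hsum, map_mul, Complex.conj_conj, Complex.conj_ofNat] at hreal
  have hcr : conj V.c = V.c := (mul_left_cancel₀ two_ne_zero hreal).symm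
  rw [hsum, hcr, eq_one_of_cube_eq_one V.c_cube hcr, mul_one]

omit [Finite (placesOver K L v3)] [IsTotallyComplex L] [IsTotallyComplex K] in
/-- At the further places of the level the eigenvalues are `0` or `1`. -/
lemma eig_ram (i : ZK.I) (v : {v : Place K // v ∈ levK L v3 ∧ v ∉ ({v3} : Set (Place K))}) :
    ZK.eig i (Sum.inr (Sum.inl v)) = 0 ∨ ZK.eig i (Sum.inr (Sum.inl v)) = 1 := by
  obtain ⟨p, hp⟩ := ZK.nonzero i
  set e := ZK.eig i (Sum.inr (Sum.inl v))
  have h : ∀ q, locAct v.1 ((extraK G).ker v) (ZK.Φ i) q = (e : ℂ) * ZK.Φ i q :=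
    (ZK.data i).eig (Sum.inr (Sum.inl v))
  have hcub := isCub_cubChar (G.ram_mod3 v.1 (mem_ramSet_of_extra v))
  have h2 := locAct_comp ((extraK G).ker v) ((extraK G).ker v) (ZK.Φ i) p
  rw [show ((extraK G).ker v).comp ((extraK G).ker v) = (extraK G).ker v by
      change (ramKer v.1 v.2.1).comp (ramKer v.1 v.2.1) = ramKer v.1 v.2.1
      rw [ramKer_eq hcub v.2.1, rKer_comp], h,
    show locAct v.1 ((extraK G).ker v) (ZK.Φ i) = fun q => (e : ℂ) * ZK.Φ i q from funext h,
    locAct_smul_fun, h, ← mul_assoc] at h2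
  have h3 : (e : ℂ) = e * e := mul_right_cancel₀ hp h2
  have h4 : e * (e - 1) = 0 := by
    have h3' : e = e * e := by exact_mod_cast h3
    linear_combination -h3'
  rcases mul_eq_zero.1 h4 with h | h
  · exact Or.inl h
  · exact Or.inr (sub_eq_zero.1 h)

omit [Finite (placesOver K L v3)] [IsTotallyComplex L] [IsTotallyComplex K] in
/-- The tame product is `1` for the systems fixed at all further places of the level, else `0`. -/
lemma ramProd_cases (i : ZK.I) :
    ramProd G ZK i = 0 ∨ (ramProd G ZK i = 1 ∧ ∀ v, ZK.eig i (Sum.inr (Sum.inl v)) = 1) := by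
  have : Finite {v : Place K // v ∈ levK L v3 ∧ v ∉ ({v3} : Set (Place K))} := finite_extra
  let := Fintype.ofFinite {v : Place K // v ∈ levK L v3 ∧ v ∉ ({v3} : Set (Place K))}
  by_cases h : ∀ v, ZK.eig i (Sum.inr (Sum.inl v)) = 1
  · exact Or.inr ⟨by simp [ramProd, h], h⟩
  · push Not at h
    obtain ⟨v, hv⟩ := h
    refine Or.inl ?_
    rw [ramProd]
    exact Finset.prod_eq_zero (Finset.mem_univ v)
      (by rw [(eig_ram G ZK i v).resolve_right hv]; simp)

include d hc hS hDK hDL ZL in
/-- **Exactly one system of eigenvalues below**: some system of the form is fixed at all further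
places of the level, and every such system has the same eigenvalues. -/
theorem exists_unique_sys (geo : GeometricStatement K L) :
    ∃ i0, i0 ∈ sysK G ZK lam ∧ (∀ v, ZK.eig i0 (Sum.inr (Sum.inl v)) = 1) ∧
      ∀ i ∈ sysK G ZK lam, (∀ v, ZK.eig i (Sum.inr (Sum.inl v)) = 1) → ZK.eig i = ZK.eig i0 := by
  obtain ⟨hfin, hsum⟩ := sum_sysK d G hc hS hDK hDL ZK ZL geo
  set M := hfin.toFinset.filter fun i => ∀ v, ZK.eig i (Sum.inr (Sum.inl v)) = 1
  -- two systems are fixed at all further places of the level
  have hcard : M.card = 2 := by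
    have e : ∀ i, ramProd G ZK i = if (∀ v, ZK.eig i (Sum.inr (Sum.inl v)) = 1) then 1 else 0 :=
        fun i => by
      split_ifs with h
      · simp [ramProd, h]
      · rcases ramProd_cases G ZK i with h' | ⟨-, h'⟩
        · exact h'
        · exact absurd h' h
    rw [Finset.sum_congr rfl fun i _ => e i, Finset.sum_boole] at hsum
    exact_mod_cast hsum
  -- neither is alone: the two-dimensional type at `v3` needs a second function with its eigenvalues
  have hpartner : ∀ i ∈ M, ∃ k ∈ M, k ≠ i ∧ ZK.eig k = ZK.eig i := by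
    intro i hi
    obtain ⟨hi1, hi2⟩ := Finset.mem_filter.1 hi
    have hi1' := hfin.mem_toFinset.1 hi1
    by_contra hno
    push Not at hno
    have hsys : ∀ k, ZK.eig k = ZK.eig i → k = i := fun k hk => by
      by_contra hne
      refine hno k (Finset.mem_filter.2 ⟨hfin.mem_toFinset.2 fun j => ?_,
        fun v => by rw [hk]; exact hi2 v⟩) hne hk
      rw [← hi1' j]
      rcases j with w | ⟨w, k'⟩ <;> simp only [xK, hk]
    have hJ := (ZK.data i).joint
    refine hJ.not_line ⟨v3, rfl⟩ (fun h => ?_) fun a b => ?_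
    · obtain ⟨p, hp⟩ := ZK.nonzero i
      exact hp (congrFun h p)
    · set Ψ := mAct singleton_sub (norm_singleton G) ⟨v3, rfl⟩ a b (ZK.Φ i)
      have hΨ : EigFun singleton_sub (norm_singleton G) (extraK G) (ZK.eig i) Ψ := by
        have h := (hJ.mAct ⟨v3, rfl⟩ a b).eigFun (Y := extraK G) (ex := fun v =>
          ZK.eig i (Sum.inr (Sum.inl v)))
          fun v p => by
            show locAct v.1 _ (mAct _ _ _ a b (ZK.Φ i)) p = _
            rw [mAct, locAct_comm (fun e => v.2.2 e),
              show locAct v.1 ((extraK G).ker v) (ZK.Φ i)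
                = fun q => (ZK.eig i (Sum.inr (Sum.inl v)) : ℂ) * ZK.Φ i q from
                funext ((ZK.data i).eig (Sum.inr (Sum.inl v))), locAct_smul_fun]
        have hm : mkCoord (fun v => ZK.eig i (Sum.inl v)) (fun v => ZK.eig i (Sum.inr (Sum.inl v)))
            (fun j => ZK.eig i (Sum.inr (Sum.inr j))) = ZK.eig i := by
          funext j; rcases j with v | v | j <;> rfl
        rw [hm] at h
        exact h
      obtain ⟨s, c, hs, hΨs⟩ := ZK.expand _ Ψ hΨ fun u p => by
        rw [show archAct u k0.ker Ψ p = _ from hΨ.eig (Sum.inr (Sum.inr (u, k0))) p,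
          eig_arch G ZK hi1' u k0, eaZero_eq]
      refine ⟨∑ k ∈ s, c k, ?_⟩
      show Ψ = _
      rw [hΨs]
      funext p
      rw [Finset.sum_mul]
      exact Finset.sum_congr rfl fun k hk => by rw [hsys k (hs k hk)]
  -- so both have the same eigenvalues
  obtain ⟨i0, hi0⟩ := Finset.card_pos.1 (by omega : 0 < M.card)
  obtain ⟨k0', hk0, hkne, hkeq⟩ := hpartner i0 hi0
  have hM : M = {i0, k0'} := by
    refine (Finset.eq_of_subset_of_card_le ?_ ?_).symm
    · intro x hx
      simp only [Finset.mem_insert, Finset.mem_singleton] at hx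
      rcases hx with rfl | rfl <;> assumption
    · rw [Finset.card_pair hkne.symm, hcard]
  obtain ⟨h1, h2⟩ := Finset.mem_filter.1 hi0
  refine ⟨i0, hfin.mem_toFinset.1 h1, h2, fun i hi hv => ?_⟩
  have hiM : i ∈ M := Finset.mem_filter.2 ⟨hfin.mem_toFinset.2 hi, hv⟩
  rw [hM] at hiM
  simp only [Finset.mem_insert, Finset.mem_singleton] at hiM
  rcases hiM with rfl | rfl
  · rfl
  · exact hkeq

end Fermat.LT.Sys
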