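import Fermat.Agent.LT.Test
import Fermat.Agent.LT.LocPlace

/-!
# Systems: the field data of the descent

`geoData`: the hypotheses `DescentData` give the conditions `GeoData` on the fields under which
the geometric comparison is stated; `exists_sigma` gives the generator `σ` of `L / K`.
-/

set_option autoImplicit false
open NumberField
open scoped Classical nonZeroDivisors

namespace Fermat.LT.Sys

attribute [local instance] FractionRing.liftAlgebra

variable {K L : Type} [Field K] [NumberField K] [Field L] [NumberField L] [Algebra K L]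

/-- Only finitely many places ramify. -/
lemma finite_ramSet : (ramSet K L).Finite := by
  have : IsLocalization (Algebra.algebraMapSubmonoid (𝓞 L) (𝓞 K)⁰) (FractionRing (𝓞 L)) :=
    IsIntegralClosure.isLocalization _ (FractionRing (𝓞 K)) _ _
  have : FiniteDimensional (FractionRing (𝓞 K)) (FractionRing (𝓞 L)) :=
    .of_isLocalization (𝓞 K) (𝓞 L) (𝓞 K)⁰
  have : Algebra.IsSeparable (FractionRing (𝓞 K)) (FractionRing (𝓞 L)) := inferInstance
  have hne : differentIdeal (𝓞 K) (𝓞 L) ≠ 0 := differentIdeal_ne_bot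
  refine ((Ideal.finite_factors hne).image (below K)).subset ?_
  rintro v ⟨w, hw, h⟩
  refine ⟨w, ?_, liesOver_iff_below.1 hw⟩
  have := v.isMaximal
  simpa using pow_sub_one_dvd_differentIdeal (A := 𝓞 K) w.asIdeal 2 v.ne_bot (Ideal.dvd_iff_le.2 h)

variable {v3 : Place K} {lam : Place L → ℝ}

/-- Descent data provide a generator of a cyclic cubic Galois group. -/
lemma exists_sigma (d : DescentData K L v3 lam) : ∃ σ : L ≃ₐ[K] L, Cyc3 K L σ := by
  have := d.galois
  have hg : IsGalois K L := IsGalois.tower_top_of_isGalois ℚ K L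
  have hcard : Nat.card (L ≃ₐ[K] L) = 3 := by rw [IsGalois.card_aut_eq_finrank, d.degree]
  have : Nontrivial (L ≃ₐ[K] L) := by
    by_contra h
    have := not_nontrivial_iff_subsingleton.1 h
    rw [Nat.card_of_subsingleton 1] at hcard
    omega
  obtain ⟨σ, hσ⟩ := exists_ne (1 : L ≃ₐ[K] L)
  exact ⟨σ, hg, d.degree, hσ⟩

/-- A primitive cube root of unity forces `3 ∣ pnorm v - 1` away from `3`. -/
lemma residue_zeta3 {v : Place K} (hv : (3 : 𝓞 K) ∉ v.asIdeal) {ζ : K} (hζ : IsPrimitiveRoot ζ 3) :
    3 ∣ pnorm v - 1 := by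
  set z : 𝓞 K := ⟨ζ, hζ.isIntegral (by norm_num)⟩
  have hz : z ^ 2 + z + 1 = 0 := by
    refine RingOfIntegers.ext ?_
    change ζ ^ 2 + ζ + 1 = 0
    have h := hζ.geom_sum_eq_zero (by norm_num)
    simp only [Finset.sum_range_succ, Finset.sum_range_zero, pow_zero, pow_one, zero_add] at h
    linear_combination h
  have : Fintype (𝓞 K ⧸ v.asIdeal) := Fintype.ofFinite _
  have := v.isMaximal
  let : Field (𝓞 K ⧸ v.asIdeal) := Ideal.Quotient.field _
  set q := Ideal.Quotient.mk v.asIdeal
  have h1 : q z ^ 2 + q z + 1 = 0 := by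
    rw [← map_one q, ← map_pow, ← map_add, ← map_add, hz, map_zero]
  have h3 : q z ^ 3 = 1 := by linear_combination (q z - 1) * h1
  have hne : q z ≠ 1 := fun h => hv (Ideal.Quotient.eq_zero_iff_mem.1 (by
    rw [h] at h1
    change q 3 = 0
    rw [map_ofNat]; linear_combination h1))
  have hz0 : q z ≠ 0 := fun h => by simp [h] at h1
  have : Fact (Nat.Prime 3) := ⟨Nat.prime_three⟩
  have ho : orderOf (Units.mk0 _ hz0) = 3 :=
    orderOf_eq_prime (Units.ext (by simp [h3])) fun h => hne (congrArg Units.val h)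
  have hd := orderOf_dvd_natCard (Units.mk0 _ hz0)
  rw [ho, Nat.card_units] at hd
  rwa [pnorm, Ideal.absNorm_apply, Submodule.cardQuot_apply]

/-- The descent data give the hypotheses on the fields used by the comparison. -/
theorem geoData (d : DescentData K L v3 lam) : GeoData K L v3 := by
  obtain ⟨σ, hc⟩ := exists_sigma d
  have htri : ∀ w ∈ placesOver K L v3, ramE v3 w = 1 ∧ pnorm w = 3 := fun w hw => by
    rcases hc.trichotomy hw with ⟨-, he, hn, -⟩ | ⟨h1, -⟩
    · exact ⟨he, hn.trans d.norm_v3⟩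
    · have := d.split; omega
  have hun : v3 ∉ ramSet K L := fun h => by
    obtain ⟨w, hw⟩ := exists_liesOver (L := L) v3
    have := (hc.mem_ramSet_iff hw).1 h
    rw [(htri w hw).1] at this
    omega
  refine ⟨hc.galois, d.totallyComplexK, d.degree, d.norm_v3, d.split, fun w hw =>
    (htri w hw).2, hun, d.only3, d.zeta3, fun v hv => ?_⟩
  obtain ⟨ζ, hζ⟩ := d.zeta3
  exact residue_zeta3 (fun h => hun (d.only3 v h ▸ hv)) hζ

/-- The automorphism preserves the places over a place of `K`. -/
lemma stable_placesOver {σ : L ≃ₐ[K] L} (hc : Cyc3 K L σ) (v : Place K) :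
    Stable (σ : L ≃+* L) (placesOver K L v) := fun w => by
  refine ⟨fun h => ?_, fun h => LiesOver.mapPlace σ h⟩
  rw [← hc.mapPlace_three w]
  exact LiesOver.mapPlace σ (LiesOver.mapPlace σ h)

/-- An automorphism of `K` extends to `L`. -/
lemma exists_extend (d : DescentData K L v3 lam) (g : K ≃+* K) :
    ∃ τ : L ≃+* L, ∀ x, τ (algebraMap K L x) = algebraMap K L (g x) := by
  have := d.galois
  let g' : K ≃ₐ[ℚ] K := AlgEquiv.ofRingEquiv (f := g) fun x => by simp
  exact ⟨(g'.liftNormal L : L ≃ₐ[ℚ] L).toRingEquiv, fun x => g'.liftNormal_commutes L x⟩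

omit [NumberField K] [NumberField L] in
/-- Compatible automorphisms carry places over `v` to places over the image of `v`. -/
lemma liesOver_mapPlace {g : K ≃+* K} {τ : L ≃+* L}
    (h : ∀ x, τ (algebraMap K L x) = algebraMap K L (g x)) {v : Place K} {w : Place L}
    (hw : LiesOver K L w v) :
    LiesOver K L (mapPlace τ w) (mapPlace g v) := by
  change (mapPlace τ w).asIdeal.under (𝓞 K) = (mapPlace g v).asIdeal
  ext a
  obtain ⟨b, rfl⟩ := (RingOfIntegers.mapRingEquiv g).surjective a
  rw [mapPlace_asIdeal, Ideal.under_def, Ideal.mem_comap,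
    show algebraMap (𝓞 K) (𝓞 L) (RingOfIntegers.mapRingEquiv g b)
      = RingOfIntegers.mapRingEquiv τ (algebraMap (𝓞 K) (𝓞 L) b) from RingOfIntegers.ext (h b).symm,
    mapPlace_asIdeal]
  have e : w.asIdeal.under (𝓞 K) = v.asIdeal := hw
  rw [← e]
  rfl

/-- The level, `v3` with the ramified places, is stable under the automorphisms of `K`. -/
lemma stable_levK (d : DescentData K L v3 lam) (g : K ≃+* K) : Stable g (levK L v3) := by
  have key : ∀ (g : K ≃+* K) (v : Place K), v ∈ levK L v3 → mapPlace g v ∈ levK L v3 := by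
    intro g v hv
    rcases hv with rfl | hv
    · rw [d.v3_fixed g]; exact Set.mem_insert _ _
    · -- a ramified place goes to a ramified place, by an extension of `g` to `L`
      refine Set.mem_insert_of_mem _ ?_
      obtain ⟨w, hw, h⟩ := hv
      obtain ⟨τ, hτ⟩ := exists_extend d g
      refine ⟨mapPlace τ w, liesOver_mapPlace hτ hw, ?_⟩
      obtain ⟨σ, hc⟩ := exists_sigma d
      rw [Ideal.map_le_iff_le_comap]
      intro a ha
      obtain ⟨b, rfl⟩ := (RingOfIntegers.mapRingEquiv g).surjective a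
      rw [mapPlace_asIdeal] at ha
      rw [Ideal.mem_comap, show algebraMap (𝓞 K) (𝓞 L) (RingOfIntegers.mapRingEquiv g b)
        = RingOfIntegers.mapRingEquiv τ (algebraMap (𝓞 K) (𝓞 L) b) from
          RingOfIntegers.ext (hτ b).symm]
      have hb := h (Ideal.mem_map_of_mem _ ha)
      set e := RingOfIntegers.mapRingEquiv τ
      have hI : Ideal.map e w.asIdeal = (mapPlace τ w).asIdeal := by
        ext c
        rw [Ideal.mem_map_of_equiv]
        exact ⟨fun ⟨z, hz, hzc⟩ => hzc ▸ (mapPlace_asIdeal τ w z).2 hz,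
          fun hc => ⟨e.symm c, (mapPlace_asIdeal τ w _).1 (by rwa [e.apply_symm_apply]),
            e.apply_symm_apply c⟩⟩
      rw [← hI, ← Ideal.map_pow]
      exact Ideal.mem_map_of_mem e hb
  intro v
  refine ⟨fun h => ?_, key g v⟩
  rw [← mapPlace_symm_left g v]
  exact key g.symm _ h

end Fermat.LT.Sys
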