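import Fermat.Agent.LT.Sys.Level
import Fermat.Agent.LT.Sys.Geo
import Fermat.Agent.LT.ArchTorus

/-!
# Systems: test data from lists of coordinates

`tT l` is the test data of a list `l` of coordinates on `L`; `kerL_tT` and `kerK_tT` show that its
kernels on `L` and `K` are the base kernels composed with the operations of the list (base changed
below). So `GeometricStatement` becomes a statement on products of eigenvalues (`Compare`).
-/

set_option autoImplicit false
open NumberField Filter Set Polynomial
open scoped Classical

namespace Fermat.LT.Sys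

section General

variable {F : Type} [Field F] [NumberField F] {S : Set (Place F)}

/-- An operation respects equality of kernels as functions. -/
lemma step_congr (o : Op F S) {P Q : PKer F S} (h : PEq P Q) : PEq (step o P) (step o Q) := by
  rcases o with ⟨v, l⟩ | ⟨u, a⟩
  · refine ⟨fun x => ?_, h.arch⟩
    change Function.update P.loc v _ x = Function.update Q.loc v _ x
    rw [h.loc v, show P.loc = Q.loc from funext h.loc]
  · refine ⟨h.loc, fun x => ?_⟩
    change AEq (Function.update P.arch u _ x) (Function.update Q.arch u _ x)
    by_cases hx : x = u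
    · subst hx
      rw [Function.update_self, Function.update_self]
      exact (AEq.refl a).comp (h.arch x)
    · rw [Function.update_of_ne hx, Function.update_of_ne hx]
      exact h.arch x

/-- An operation on the left commutes with composition on the right. -/
lemma step_comp (o : Op F S) (P Q : PKer F S) : PEq ((step o P).comp Q) (step o (P.comp Q)) := by
  rcases o with ⟨v, l⟩ | ⟨u, a⟩
  · refine ⟨fun x => ?_, fun _ => AEq.refl _⟩
    change (Function.update P.loc v _ x).comp (Q.loc x)
      = Function.update (fun x => (P.loc x).comp (Q.loc x)) v _ x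
    by_cases hx : x = v
    · subst hx
      rw [Function.update_self, Function.update_self, LKer.comp_assoc]
      rfl
    · rw [Function.update_of_ne hx, Function.update_of_ne hx]
  · refine ⟨fun _ => rfl, fun x => ?_⟩
    change AEq ((Function.update P.arch u _ x).comp (Q.arch x))
      (Function.update (fun x => (P.arch x).comp (Q.arch x)) u _ x)
    by_cases hx : x = u
    · subst hx
      rw [Function.update_self, Function.update_self]
      exact aeq_comp_assoc _ _ _
    · rw [Function.update_of_ne hx, Function.update_of_ne hx]
      exact AEq.refl _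

/-- A list of operations on the left commutes with composition on the right. -/
lemma steps_comp (l : List (Op F S)) (P Q : PKer F S) :
    PEq ((steps l P).comp Q) (steps l (P.comp Q)) := by
  induction l with
  | nil => exact PEq.refl _
  | cons o l ih => exact (step_comp o _ Q).trans (step_congr o ih)

/-- A concatenated list composes one after the other. -/
lemma steps_append (l m : List (Op F S)) (P : PKer F S) : steps (l ++ m) P = steps l (steps m P) :=
  List.foldr_append

/-- A concatenated list acts one after the other. -/
lemma acts_append (l m : List (Op F S)) (Φ : Pt F S → ℂ) : acts (l ++ m) Φ = acts l (acts m Φ) :=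
  List.foldr_append

/-- A list of operations with a common eigenfunction acts by the product of the eigenvalues. -/
lemma acts_map {α : Type*} (f : α → Op F S) {Φ : Pt F S → ℂ} (c : α → ℂ) (l : List α)
    (h : ∀ a ∈ l, ∀ q, opAct (f a) Φ q = c a * Φ q) :
    acts (l.map f) Φ = fun q => (l.map c).prod * Φ q := by
  induction l with
  | nil => simp [acts]
  | cons a l ih =>
    change opAct (f a) (acts (l.map f) Φ) = _
    rw [ih fun b hb => h b (List.mem_cons_of_mem _ hb)]
    funext q
    rw [opAct_smul_fun, h a List.mem_cons_self, List.map_cons, List.prod_cons]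
    ring

/-- One kernel at each of distinct infinite places composes there once. -/
lemma steps_arch_ops (a : AKer) (l : List (InfinitePlace F)) (hl : l.Nodup) (P : PKer F S)
    (u : InfinitePlace F) :
    (steps (l.map fun u => (Sum.inr (u, a) : Op F S)) P).arch u = if u ∈ l then a.comp (P.arch u)
      else P.arch u := by
  induction l with
  | nil => simp [steps]
  | cons w l ih =>
    rw [List.nodup_cons] at hl
    change Function.update (steps (l.map _) P).arch w (a.comp ((steps (l.map _) P).arch w)) u = _
    by_cases h : u = w
    · subst h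
      rw [Function.update_self, ih hl.2, if_neg hl.1, if_pos List.mem_cons_self]
    · rw [Function.update_of_ne h, ih hl.2]
      simp [h]

/-- Operations at infinite places leave the finite factors. -/
lemma steps_arch_ops_loc (a : AKer) (l : List (InfinitePlace F)) (P : PKer F S) :
    (steps (l.map fun u => (Sum.inr (u, a) : Op F S)) P).loc = P.loc := by
  induction l with
  | nil => rfl
  | cons w l ih => exact ih

/-- Local operations at distinct places change exactly those local factors. -/
lemma steps_loc_ops {p : Place F → Prop} (r : ∀ v : {v // p v}, LKer S v.1) (l : List {v // p v})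
    (hl : l.Nodup) (P : PKer F S) :
    (∀ v : {v // p v}, (steps (l.map fun v => (Sum.inl ⟨v.1, r v⟩ : Op F S)) P).loc v.1
      = if v ∈ l then (r v).comp (P.loc v.1) else P.loc v.1) ∧
    (∀ v, ¬ p v → (steps (l.map fun v => (Sum.inl ⟨v.1, r v⟩ : Op F S)) P).loc v = P.loc v) ∧
    (steps (l.map fun v => (Sum.inl ⟨v.1, r v⟩ : Op F S)) P).arch = P.arch := by
  induction l with
  | nil => exact ⟨fun v => by simp [steps], fun v _ => rfl, rfl⟩
  | cons w l ih =>
    rw [List.nodup_cons] at hl
    obtain ⟨h1, h2, h3⟩ := ih hl.2
    refine ⟨fun v => ?_, fun v hv => ?_, h3⟩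
    · change Function.update (steps (l.map _) P).loc w.1
        ((r w).comp ((steps (l.map _) P).loc w.1)) v.1 = _
      by_cases h : v = w
      · subst h
        rw [Function.update_self, h1, if_neg hl.1, if_pos List.mem_cons_self]
      · rw [Function.update_of_ne fun e => h (Subtype.ext e), h1]
        simp [h]
    · change Function.update (steps (l.map _) P).loc w.1 _ v = _
      rw [Function.update_of_ne fun e => hv (by rw [e]; exact w.2), h2 v hv]

end General

variable {K L : Type} [Field K] [NumberField K] [Field L] [NumberField L] [Algebra K L]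
  {v3 : Place K}

/-- Coordinates of the test functions on the upper field. -/
abbrev JT (K L : Type) [Field K] [NumberField K] [Field L] [NumberField L] [Algebra K L]
    (v3 : Place K) : Type :=
  {w : Place L // below K w ∉ levK L v3} ⊕ (InfinitePlace L × Rad)

/-- A place over one outside the level is not over `v3`. -/
lemma notMem_W3 {w : Place L} (h : below K w ∉ levK L v3) : w ∉ placesOver K L v3 := fun hw =>
  h (by rw [liesOver_iff_below.1 hw]; exact Set.mem_insert _ _)

/-- No extra places on the upper field. -/
noncomputable def extraL : Extra L (placesOver K L v3) (placesOver K L v3) where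
  ker v := absurd v.2.1 v.2.2
  herm v := absurd v.2.1 v.2.2

/-- Coordinates on the upper field. -/
def jL : JT K L v3 → Coord L (placesOver K L v3) (placesOver K L v3)
  | Sum.inl w => Sum.inl ⟨w.1, notMem_W3 w.2⟩
  | Sum.inr j => Sum.inr (Sum.inr j)

/-- The polynomial of base change of `X`. -/
noncomputable def bcX (w : Place L) : ℂ[X] :=
  if pnorm w = pnorm (below K w) then X else cubicBC (pnorm (below K w)) X

/-- The operations on the lower field. -/
noncomputable def opKJ : JT K L v3 → Op K (levK L v3)
  | Sum.inl w => Sum.inl ⟨below K w.1, sphKer w.2 (bcX (K := K) w.1)⟩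
  | Sum.inr (w, k) => Sum.inr (w.comap (algebraMap K L), k.ker)

/-- The product of the variables `X` of the entries of a list at each place. -/
noncomputable def hT : List (JT K L v3) → Place L → ℂ[X]
  | [], _ => 1
  | Sum.inl w' :: l, w => if w'.1 = w then X * hT l w else hT l w
  | Sum.inr _ :: l, w => hT l w

/-- Infinite kernels of a list. -/
noncomputable def kT : List (JT K L v3) → InfinitePlace L → AKer
  | [], _ => k0.ker.comp k0.ker
  | Sum.inl _ :: l, u => kT l u
  | Sum.inr (w, k) :: l, u => if w = u then k.ker.comp (kT l u) else kT l u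

/-- Almost all polynomials of a list are one. -/
lemma hT_finite : ∀ l : List (JT K L v3), {w | hT l w ≠ 1}.Finite
  | [] => by simp [hT]
  | Sum.inl w' :: l => ((hT_finite l).insert w'.1).subset fun w hw => by
      by_cases h : w = w'.1
      · exact Or.inl h
      · exact Or.inr (by simpa [hT, Ne.symm h] using hw)
  | Sum.inr _ :: l => hT_finite l

/-- Above the level the polynomials of a list are one. -/
lemma hT_level : ∀ (l : List (JT K L v3)) (w : Place L), below K w ∈ levK L v3 → hT l w = 1
  | [], _, _ => rfl
  | Sum.inl w' :: l, w, hw => by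
      rw [hT, if_neg fun e : w'.1 = w => w'.2 (e ▸ hw), hT_level l w hw]
  | Sum.inr _ :: l, w, hw => hT_level l w hw

/-- A list avoiding a place gives the constant polynomial `1` there. -/
lemma hT_eq_one : ∀ (l : List (JT K L v3)) (w : Place L),
    (∀ w' : {w : Place L // below K w ∉ levK L v3}, Sum.inl w' ∈ l → w'.1 ≠ w) → hT l w = 1
  | [], _, _ => rfl
  | Sum.inl w' :: l, w, hw => by
      rw [hT, if_neg (hw w' List.mem_cons_self), hT_eq_one l w fun x hx =>
        hw x (List.mem_cons_of_mem _ hx)]
  | Sum.inr _ :: l, w, hw => hT_eq_one l w fun x hx => hw x (List.mem_cons_of_mem _ hx)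

/-- The test data on `L` of a list of coordinates. -/
noncomputable def tT (l : List (JT K L v3)) : TestData K L v3 where
  h := hT l
  k := kT l
  finite_h := hT_finite l
  h_level v hv w hw := hT_level l w (by rwa [liesOver_iff_below.1 hw])

variable (G : GeoData K L v3)

/-- The place `v3` has norm three. -/
lemma norm_singleton (G : GeoData K L v3) :
    ∀ v ∈ ({v3} : Set (Place K)), pnorm v = 3 := fun v hv => by
  rw [Set.mem_singleton_iff.1 hv]; exact G.norm_v3

omit [NumberField K] in
/-- `v3` lies in the level. -/
lemma singleton_sub : ({v3} : Set (Place K)) ⊆ levK L v3 :=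
  Set.singleton_subset_iff.2 (Set.mem_insert _ _)

omit [NumberField K] in
/-- The other places of the level are ramified in `L / K`. -/
lemma mem_ramSet_of_extra (v : {v : Place K // v ∈ levK L v3 ∧ v ∉ ({v3} : Set (Place K))}) :
    v.1 ∈ ramSet K L := v.2.1.resolve_left fun e => v.2.2 e

/-- The kernels `ramKer` at the tame places of the level of `K`. -/
noncomputable def extraK : Extra K (levK L v3) {v3} where
  ker v := ramKer v.1 v.2.1
  herm v := by
    rw [ramKer_eq (isCub_cubChar (G.ram_mod3 v.1 (mem_ramSet_of_extra v))) v.2.1]
    exact rKer_isHerm _ _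

variable [Finite (levK L v3)]

omit [NumberField K] in
/-- There are finitely many extra places. -/
lemma finite_extra : Finite {v : Place K // v ∈ levK L v3 ∧ v ∉ ({v3} : Set (Place K))} :=
  Finite.of_injective (fun v => (⟨v.1, v.2.1⟩ : levK L v3)) fun _ _ h =>
    Subtype.ext (congrArg (fun x : levK L v3 => x.1) h)

/-- The base kernel on `K` at the level `levK`. -/
noncomputable def AK : PKer K (levK L v3) := base singleton_sub (norm_singleton G)

/-- The fixed operations below: tame kernels and four test kernels at each infinite place. -/
noncomputable def extOps : List (Op K (levK L v3)) :=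
  haveI : Finite {v : Place K // v ∈ levK L v3 ∧ v ∉ ({v3} : Set (Place K))} := finite_extra
  letI := Fintype.ofFinite {v : Place K // v ∈ levK L v3 ∧ v ∉ ({v3} : Set (Place K))}
  let a := (Finset.univ : Finset (InfinitePlace K)).toList.map fun u =>
    (Sum.inr (u, k0.ker) : Op K (levK L v3))
  ((Finset.univ : Finset {v : Place K // v ∈ levK L v3 ∧ v ∉ ({v3} : Set (Place K))}).toList.map
      fun v =>
    (Sum.inl ⟨v.1, (extraK G).ker v⟩ : Op K (levK L v3))) ++ (a ++ (a ++ (a ++ a)))

/-- The operations of the kernel below. -/
noncomputable def opsK (l : List (JT K L v3)) : List (Op K (levK L v3)) := l.map opKJ ++ extOps G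

variable [Finite (placesOver K L v3)]

/-- The base kernel on `L` at the places over `v3`. -/
noncomputable def AL : PKer L (placesOver K L v3) := base subset_rfl G.norm_w3

variable {σ : L ≃ₐ[K] L}

omit [Finite (levK L v3)] [Finite (placesOver K L v3)] in
/-- Base change of trivial polynomials is trivial. -/
lemma bcPoly_one (t : TestData K L v3) {v : Place K} (h : ∀ w ∈ placesOver K L v, t.h w = 1) :
    t.bcPoly v = 1 :=
  finprod_mem_of_eqOn_one fun w hw => by simp [h w hw, cubicBC]

omit [Finite (levK L v3)] in
/-- The kernel above of the test data of a list is made by its operations on the base kernel. -/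
theorem kerL_tT : ∀ l : List (JT K L v3),
    PEq ((steps (l.map fun j => coordOp extraL (jL j)) (AL G)).comp (AL G)) (kerL G (tT l)) := by
  intro l
  refine (steps_comp _ _ _).trans ?_
  induction l with
  | nil =>
    refine ⟨fun w => ?_, fun u => AEq.refl _⟩
    change ((AL G).loc w).comp ((AL G).loc w) = _
    by_cases hw : w ∈ placesOver K L v3
    · rw [AL, base_loc_mem _ _ hw, eKer_comp]; exact (dif_pos hw).symm
    · rw [AL, base_loc_notMem _ _ hw, LKer.comp_one]
      exact ((dif_neg hw).trans (sphKer_one hw)).symm
  | cons j l ih =>
    refine (step_congr _ ih).trans ?_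
    rcases j with w' | ⟨u', k⟩
    · refine ⟨fun w => ?_, fun u => AEq.refl _⟩
      change Function.update (kerL G (tT l)).loc w'.1
        ((sphKer (notMem_W3 w'.2) X).comp ((kerL G (tT l)).loc w'.1)) w = _
      by_cases h : w = w'.1
      · subst h
        rw [Function.update_self]
        simp only [kerL, dif_neg (notMem_W3 w'.2), sphKer_mul, tT, hT, if_true]
      · rw [Function.update_of_ne h]
        simp only [kerL]
        split_ifs
        · rfl
        · simp [tT, hT, Ne.symm h]
    · refine ⟨fun w => rfl, fun u => ?_⟩
      change AEq (Function.update (kT l) u' (k.ker.comp (kT l u')) u) (kT (Sum.inr (u', k) :: l) u)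
      by_cases h : u = u'
      · subst h; rw [Function.update_self, kT, if_pos rfl]; exact AEq.refl _
      · rw [Function.update_of_ne h, kT, if_neg (Ne.symm h)]; exact AEq.refl _

omit [Finite (levK L v3)] [Finite (placesOver K L v3)] in
/-- Updating the test data at one place composes the kernel above with a spherical kernel. -/
theorem kerL_upd (t : TestData K L v3) {v0 : Place K} (hv0 : v0 ∉ levK L v3) {w0 : Place L}
    (hw0 : LiesOver K L w0 v0) (h1 : t.h w0 = 1) (p : ℂ[X]) :
    PEq (step (Sum.inl ⟨w0,
      sphKer (notMem_W3 (show below K w0 ∉ levK L v3 by rwa [liesOver_iff_below.1 hw0])) p⟩)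
      (kerL G t)) (kerL G (t.upd hv0 hw0 p)) := by
  have hn : w0 ∉ placesOver K L v3 := notMem_W3 (by rwa [liesOver_iff_below.1 hw0])
  refine ⟨fun w => ?_, fun u => AEq.refl _⟩
  change Function.update (kerL G t).loc w0 _ w = _
  by_cases h : w = w0
  · subst h
    rw [Function.update_self]
    simp only [kerL, dif_neg hn, TestData.upd, Function.update_self, h1, sphKer_one, LKer.comp_one]
  · rw [Function.update_of_ne h]
    simp only [kerL, TestData.upd, Function.update_of_ne h]

variable (hc : Cyc3 K L σ) [IsTotallyComplex K]
include hc

omit [Finite (levK L v3)] [Finite (placesOver K L v3)] [IsTotallyComplex K] in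
/-- The base changed polynomial of a longer list gains one factor below the new place. -/
lemma bcPoly_cons (l : List (JT K L v3)) (w' : {w : Place L // below K w ∉ levK L v3})
    (v : Place K) : (tT (Sum.inl w' :: l)).bcPoly v
      = (if below K w'.1 = v then bcX (K := K) w'.1 else 1) * (tT l).bcPoly v := by
  have hfin := hc.finite_placesOver v
  simp only [TestData.bcPoly]
  rw [show (if below K w'.1 = v then bcX (K := K) w'.1 else 1)
      = ∏ᶠ w ∈ placesOver K L v, (if w'.1 = w then bcX (K := K) w'.1 else 1) from ?_,
    ← finprod_mem_mul_distrib hfin]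
  · refine finprod_mem_congr rfl fun w hw => ?_
    change (if _ then hT (_ :: l) w else cubicBC _ (hT (_ :: l) w))
      = _ * (if _ then hT l w else cubicBC _ (hT l w))
    by_cases h : w'.1 = w
    · subst h
      rw [if_pos rfl, hT, if_pos rfl, bcX, liesOver_iff_below.1 hw]
      split_ifs
      · rfl
      · simp [cubicBC]
    · rw [if_neg h, one_mul, hT, if_neg h]
  · by_cases h : below K w'.1 = v
    · rw [if_pos h, finprod_mem_eq_finite_toFinset_prod _ hfin, Finset.prod_eq_single w'.1]
      · rw [if_pos rfl]
      · intro b _ hb; rw [if_neg hb.symm]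
      · intro hn; exact absurd (hfin.mem_toFinset.2 (liesOver_iff_below.2 h)) hn
    · rw [if_neg h]
      exact (finprod_mem_of_eqOn_one fun w hw => by
        rw [if_neg fun e : w'.1 = w => h (by rw [e]; exact liesOver_iff_below.1 hw)]; rfl).symm

/-- The kernel below of the test data of a list is made by its operations on the base kernel. -/
theorem kerK_tT (l : List (JT K L v3)) :
    PEq ((steps (opsK G l) (AK G)).comp (AK G)) (kerK G σ (tT l)) := by
  refine (steps_comp _ _ _).trans ?_
  rw [opsK, steps_append]
  induction l with
  | nil =>
    -- the fixed operations give the tame kernels and the power of the fixed test kernel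
    have : Finite {v : Place K // v ∈ levK L v3 ∧ v ∉ ({v3} : Set (Place K))} := finite_extra
    let := Fintype.ofFinite {v : Place K // v ∈ levK L v3 ∧ v ∉ ({v3} : Set (Place K))}
    set B := (AK G).comp (AK G) with hB
    change PEq (steps (extOps G) B) _
    simp only [extOps, steps_append]
    set a := (Finset.univ : Finset (InfinitePlace K)).toList.map fun u =>
      (Sum.inr (u, k0.ker) : Op K (levK L v3))
    set Q := steps a (steps a (steps a (steps a B))) with hQ
    obtain ⟨h1, h2, h3⟩ := steps_loc_ops (fun v => (extraK G).ker v)
      (Finset.univ : Finset {v : Place K // v ∈ levK L v3 ∧ v ∉ ({v3} : Set (Place K))}).toList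
      (Finset.nodup_toList _) Q
    have hQl : Q.loc = B.loc := by simp only [hQ, a, steps_arch_ops_loc]
    have hBl : ∀ v, B.loc v = ((AK G).loc v).comp ((AK G).loc v) := fun v => rfl
    have hQa : ∀ u, Q.arch u = k0.ker.comp (k0.ker.comp (k0.ker.comp (k0.ker.comp (B.arch u)))) :=
        fun u => by
      have hm : u ∈ (Finset.univ : Finset (InfinitePlace K)).toList :=
        Finset.mem_toList.2 (Finset.mem_univ u)
      simp only [hQ, a, steps_arch_ops _ _ (Finset.nodup_toList _), if_pos hm]
    refine ⟨fun v => ?_, fun u => ?_⟩
    · by_cases hv : v ∈ levK L v3 ∧ v ∉ ({v3} : Set (Place K))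
      · rw [h1 ⟨v, hv⟩, if_pos (Finset.mem_toList.2 (Finset.mem_univ _)), hQl, hBl, AK,
          base_loc_notMem _ _ hv.2, LKer.comp_one, LKer.comp_one]
        simp only [kerK, dif_neg (show v ≠ v3 from hv.2), dif_pos hv.1]
        rfl
      · rw [h2 v hv, hQl, hBl, AK]
        by_cases h3' : v = v3
        · subst h3'
          rw [base_loc_mem _ _ (Set.mem_singleton v), eKer_comp]
          simp only [kerK, dif_pos]
        · have hv' : v ∉ levK L v3 := fun h => hv ⟨h, h3'⟩
          rw [base_loc_notMem _ _ (show v ∉ ({v3} : Set (Place K)) from h3'), LKer.comp_one]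
          simp only [kerK, dif_neg h3', dif_neg hv']
          rw [bcPoly_one _ (fun w hw => rfl), sphKer_one]
    · rw [h3, hQa]
      set a := k0.ker
      change AEq (a.comp (a.comp (a.comp (a.comp (a.comp a)))))
        ((a.comp a).comp ((a.comp a).comp (a.comp a)))
      exact (((AEq.refl a).comp ((AEq.refl a).comp (aeq_comp_assoc a a (a.comp a)).symm)).trans
        (aeq_comp_assoc a a _).symm)
  | cons j l ih =>
    refine (step_congr _ ih).trans ?_
    rcases j with w' | ⟨w, k⟩
    · refine ⟨fun v => ?_, fun u => AEq.refl _⟩
      change Function.update (kerK G σ (tT l)).loc (below K w'.1)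
        ((sphKer w'.2 (bcX (K := K) w'.1)).comp ((kerK G σ (tT l)).loc (below K w'.1))) v = _
      by_cases h : v = below K w'.1
      · subst h
        have h3' : below K w'.1 ≠ v3 := fun e => w'.2 (by rw [e]; exact Set.mem_insert _ _)
        rw [Function.update_self]
        simp only [kerK, dif_neg h3', dif_neg w'.2, sphKer_mul, bcPoly_cons hc, if_true]
      · rw [Function.update_of_ne h]
        simp only [kerK]
        split_ifs with h1 h2
        · rfl
        · rfl
        · rw [bcPoly_cons hc, if_neg (Ne.symm h), one_mul]
    · refine ⟨fun v => rfl, fun u => ?_⟩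
      change AEq (Function.update (kerK G σ (tT l)).arch (w.comap (algebraMap K L))
          (k.ker.comp ((kerK G σ (tT l)).arch (w.comap (algebraMap K L)))) u)
        ((kT (Sum.inr (w, k) :: l) (plAbove L u)).comp
          ((kT (Sum.inr (w, k) :: l) (σ • plAbove L u)).comp
          (kT (Sum.inr (w, k) :: l) (σ • σ • plAbove L u))))
      -- one of the three places above the place below gets the new factor
      rw [← pl3_two hc, ← pl3_one hc, ← pl3_zero]
      have hold : ∀ u', (kerK G σ (tT l)).arch u'
          = (kT l (pl3 σ (u', 0))).comp ((kT l (pl3 σ (u', 1))).comp (kT l (pl3 σ (u', 2)))) :=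
              fun u' => by
        rw [pl3_zero, pl3_one hc, pl3_two hc]; rfl
      obtain ⟨⟨u₁, i⟩, hi⟩ := (pl3_bijective hc).2 w
      have hcm : w.comap (algebraMap K L) = u₁ := by
        rw [← hi, pl3, InfinitePlace.comap_mk]
        have e : (emb3 σ u₁ i).comp (algebraMap K L) = (emb0 L u₁).comp (algebraMap K L) := by
          ext x
          fin_cases i <;> simp [emb3]
        rw [e, emb0_comp, InfinitePlace.mk_embedding]
      have hne : ∀ (u' : InfinitePlace K) (j : Fin 3), (u', j) ≠ (u₁, i) →
          kT (Sum.inr (w, k) :: l) (pl3 σ (u', j)) = kT l (pl3 σ (u', j)) := fun u' j h => by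
        rw [kT, if_neg fun e => h ((pl3_bijective hc).1 (hi.trans e)).symm]
      rw [hcm]
      by_cases h : u = u₁
      · subst h
        have heq : kT (Sum.inr (w, k) :: l) (pl3 σ (u, i)) = k.ker.comp (kT l (pl3 σ (u, i))) := by
          rw [kT, if_pos hi.symm, hi]
        rw [Function.update_self, hold]
        fin_cases i <;> simp only [Fin.zero_eta, Fin.mk_one, Fin.reduceFinMk] at heq hne ⊢
        · rw [heq, hne u 1 (by simp), hne u 2 (by simp)]
          exact (aeq_comp_assoc _ _ _).symm
        · rw [heq, hne u 0 (by simp), hne u 2 (by simp)]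
          exact (aeq_left_comm _ _ _).trans ((AEq.refl _).comp (aeq_comp_assoc _ _ _).symm)
        · rw [heq, hne u 0 (by simp), hne u 1 (by simp)]
          exact (aeq_left_comm _ _ _).trans ((AEq.refl _).comp (aeq_left_comm _ _ _))
      · rw [Function.update_of_ne h, hold, hne u 0 (by simp [h]), hne u 1 (by simp [h]),
          hne u 2 (by simp [h])]
        exact AEq.refl _

omit [IsTotallyComplex K] [Finite (placesOver K L v3)] in
/-- Updating the test data at one place composes the kernel below with a spherical kernel. -/
theorem kerK_upd (t : TestData K L v3) {v0 : Place K} (hv0 : v0 ∉ levK L v3) {w0 : Place L}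
    (hw0 : LiesOver K L w0 v0) (hn : pnorm w0 = pnorm v0)
    (h1 : ∀ w, LiesOver K L w v0 → t.h w = 1) (p : ℂ[X]) :
    PEq (step (Sum.inl ⟨v0, sphKer hv0 p⟩) (kerK G σ t)) (kerK G σ (t.upd hv0 hw0 p)) := by
  have hne3 : v0 ≠ v3 := fun e => hv0 (by rw [e]; exact Set.mem_insert _ _)
  have hbc : ∀ v, v ≠ v0 → (t.upd hv0 hw0 p).bcPoly v = t.bcPoly v := fun v hv => by
    refine finprod_mem_congr rfl fun w hw => ?_
    simp only [TestData.upd, Function.update_of_ne fun e : w = w0 =>
      hv (LiesOver.unique (e ▸ hw) hw0)]
  have hbc0 : (t.upd hv0 hw0 p).bcPoly v0 = p := by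
    rw [TestData.bcPoly, finprod_mem_eq_finite_toFinset_prod _ (hc.finite_placesOver v0),
      Finset.prod_eq_single w0]
    · rw [if_pos hn]; simp [TestData.upd]
    · intro b hb hne
      have hb' : LiesOver K L b v0 := (hc.finite_placesOver v0).mem_toFinset.1 hb
      simp [TestData.upd, Function.update_of_ne hne, h1 b hb', cubicBC]
    · intro h; exact absurd ((hc.finite_placesOver v0).mem_toFinset.2 hw0) h
  refine ⟨fun v => ?_, fun u => AEq.refl _⟩
  change Function.update (kerK G σ t).loc v0 _ v = _
  by_cases h : v = v0
  · subst h
    rw [Function.update_self]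
    simp only [kerK, dif_neg hne3, dif_neg hv0, hbc0, bcPoly_one t h1, sphKer_one, LKer.comp_one]
  · rw [Function.update_of_ne h]
    simp only [kerK, hbc v h]

end Fermat.LT.Sys
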