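import Fermat.Agent.LT.Sys.Units
import Fermat.Agent.LT.Sys.Lists
import Fermat.Agent.LT.Mult.Main

/-!
# Systems: the systems of the given form on the upper field

`exists_eight`: the matrix units at the three places over `v3` make eight functions from the form,
which span all eigenfunctions with its eigenvalues by the multiplicity bound (`LT/Mult/Main`), and
`σ` permutes them cyclically up to a scalar `c`. As this permutation of the eight has two fixed
points, the twisted trace on the systems of the form is `2` times the conjugate of `c`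
(`sum_sysL`). This is what `Assembly` compares with the systems below.
-/

set_option autoImplicit false
open MeasureTheory Filter Set NumberField Topology IsDedekindDomain
open scoped Classical ComplexConjugate

namespace Fermat.LT.Sys

variable {K L : Type} [Field K] [NumberField K] [Field L] [NumberField L] [Algebra K L]
  {v3 : Place K} {lam : Place L → ℝ}

/-- The eigenvalues of the given form at the good places. -/
def egL (lam : Place L → ℝ) : {w : Place L // w ∉ placesOver K L v3} → ℝ := fun w => lam w.1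

/-- The archimedean eigenvalues of parameter zero. -/
noncomputable def eaZero (F : Type) [Field F] [NumberField F] : InfinitePlace F × Rad → ℝ :=
  fun j => (hhat0 j.2.1).re

/-- The parameter zero eigenvalue is the transform of the kernel. -/
lemma eaZero_eq (F : Type) [Field F] [NumberField F] (u : InfinitePlace F) (k : Rad) :
    (eaZero F (u, k) : ℂ) = hhat0 k.1 :=
  Complex.conj_eq_iff_re.1 (hhat0_real k.1)

/-- The fixed places over `v3`. -/
structure Three (σ : L ≃ₐ[K] L) (v3 : Place K) where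
  /-- The three places over `v3`, indexed by `Fin 3`. -/
  w : Fin 3 → placesOver K L v3
  /-- The three places are distinct. -/
  inj : Function.Injective w
  /-- `σ` carries each place to the next. -/
  map : ∀ i, mapPlace (σ : L ≃+* L) (w i).1 = (w (i + 1)).1

/-- A split place has its three places permuted cyclically by `σ`. -/
lemma exists_three {σ : L ≃ₐ[K] L} (hc : Cyc3 K L σ) (hsplit : (placesOver K L v3).ncard = 3) :
    Nonempty (Three σ v3) := by
  obtain ⟨a, ha⟩ := exists_liesOver (L := L) v3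
  have hm : mapPlace (σ : L ≃+* L) a ≠ a := by
    rcases hc.trichotomy ha with ⟨-, -, -, h⟩ | ⟨h, -⟩
    · exact h
    · omega
  set f : Fin 3 → placesOver K L v3 :=
    ![⟨a, ha⟩, ⟨_, ha.mapPlace σ⟩, ⟨_, (ha.mapPlace σ).mapPlace σ⟩]
  refine ⟨⟨f, ?_, fun i => ?_⟩⟩
  · have h3 := hc.mapPlace_three a
    have h2 : mapPlace (σ : L ≃+* L) (mapPlace (σ : L ≃+* L) a) ≠ a := fun e => by
      rw [e] at h3; exact hm h3
    intro i j h
    fin_cases i <;> fin_cases j <;> simp [f, Subtype.ext_iff] at h ⊢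
    all_goals first
      | exact hm h.symm
      | exact hm h
      | exact h2 h.symm
      | exact h2 h
  · fin_cases i <;> simp [f, hc.mapPlace_three a]

/-- The eight functions and the action of the automorphism. -/
structure Eight (hn : ∀ w ∈ placesOver K L v3, pnorm w = 3) (σ : L ≃ₐ[K] L) (lam : Place L → ℝ)
    [Finite (placesOver K L v3)] [IsTotallyComplex L]
    (hS : Stable (σ : L ≃+* L) (placesOver K L v3)) where
  /-- The eight functions, indexed by three indices in `Fin 2`. -/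
  f : Fin 2 × Fin 2 × Fin 2 → Pt L (placesOver K L v3) → ℂ
  /-- Each is a joint eigenfunction with the eigenvalues of `lam` and parameter zero. -/
  joint : ∀ t, Joint subset_rfl hn (egL lam) (eaZero L) (f t)
  /-- The eight functions are linearly independent. -/
  indep : LinearIndependent ℂ f
  /-- The scalar in the action of `σ`. -/
  c : ℂ
  /-- The scalar is a cube root of unity. -/
  c_cube : c ^ 3 = 1
  /-- `σ` carries each function to `c` times the one with cyclically shifted index. -/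
  map : ∀ (t : Fin 2 × Fin 2 × Fin 2) p, amapFun hS (f t) p = c * f (t.2.1, t.2.2, t.1) p
  /-- The eight span the eigenfunctions with eigenvalues `lam` outside a finite set. -/
  span : ∀ Z : Set (Place L), Z.Finite →
    ∀ Ψ, IsEigFun (placesOver K L v3) (placesOver K L v3) Z lam Ψ →
    ∃ a : Fin 2 × Fin 2 × Fin 2 → ℂ, Ψ = fun p => ∑ t, a t * f t p

omit [NumberField K] in
/-- A joint function with the eigenvalues of the form is an eigenfunction in the sense of the
multiplicity bound. -/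
lemma joint_isEigFun {hn : ∀ w ∈ placesOver K L v3, pnorm w = 3} [Finite (placesOver K L v3)]
    (Z : Set (Place L)) {Ψ : Pt L (placesOver K L v3) → ℂ}
    (h : Joint subset_rfl hn (egL lam) (eaZero L) Ψ) :
    IsEigFun (placesOver K L v3) (placesOver K L v3) Z lam Ψ :=
  ⟨h.invariant, h.continuous, h.bounded, h.archEigen (eaZero_eq L), fun _ hv => h.isCuspType hv,
    fun v hv p => by rw [heckeT_eq_locAct (fun hh => hv (Or.inl hh))];
                       exact h.good ⟨v, fun hh => hv (Or.inl hh)⟩ p⟩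

/-- The automorphism of order three acts with order three on functions. -/
lemma amapFun_three [IsTotallyComplex L] {σ : L ≃ₐ[K] L} (hc : Cyc3 K L σ)
    (hS : Stable (σ : L ≃+* L) (placesOver K L v3)) (φ : Pt L (placesOver K L v3) → ℂ) :
    amapFun hS (amapFun hS (amapFun hS φ)) = φ := by
  funext p
  simp only [amapFun]
  have hid : Stable (RingEquiv.refl L) (placesOver K L v3) := fun v => by
    rw [show mapPlace (RingEquiv.refl L) v = v from
      HeightOneSpectrum.ext (Ideal.ext fun a => mapPlace_asIdeal (RingEquiv.refl L) v a)]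
  have h2 : Stable ((σ : L ≃+* L).trans (σ : L ≃+* L)) (placesOver K L v3) := fun v => by
    rw [← hS v, ← hS (mapPlace (σ : L ≃+* L) v)]
    rw [show mapPlace ((σ : L ≃+* L).trans (σ : L ≃+* L)) v
      = mapPlace (σ : L ≃+* L) (mapPlace (σ : L ≃+* L) v) from mapPlace_mul σ σ v]
  have e' : (σ : L ≃+* L).trans ((σ : L ≃+* L).trans (σ : L ≃+* L)) = RingEquiv.refl L :=
    RingEquiv.ext fun x => hc.apply_three x
  rw [Pt.amap_amap hS hS h2, Pt.amap_amap h2 hS (by rwa [e'])]
  simp only [e']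
  rw [Pt.amap_refl hid]

/-- By the multiplicity bound, eight independent joint functions with the eigenvalues of the form
span the eigenfunctions with these eigenvalues. -/
lemma exists_comb_of_isEigFun (d : DescentData K L v3 lam) (G : GeoData K L v3)
    [Finite (placesOver K L v3)] [IsTotallyComplex L]
    {f : Fin 2 × Fin 2 × Fin 2 → Pt L (placesOver K L v3) → ℂ}
    (hfJ : ∀ t, Joint subset_rfl G.norm_w3 (egL lam) (eaZero L) (f t))
    (hli : LinearIndependent ℂ f) {Z : Set (Place L)} (hZ : Z.Finite)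
    {Ψ : Pt L (placesOver K L v3) → ℂ}
    (hΨ : IsEigFun (placesOver K L v3) (placesOver K L v3) Z lam Ψ) :
    ∃ a : Fin 2 × Fin 2 × Fin 2 → ℂ, Ψ = fun p => ∑ t, a t * f t p := by
  have hcard : (placesOver K L v3).ncard = 3 := G.split
  let e : Fin 8 ≃ Fin 2 × Fin 2 × Fin 2 := (Fintype.equivFinOfCardEq (by simp)).symm
  have hbound := dimBoundStatement L (placesOver K L v3) Z lam inferInstance (Set.toFinite _) hZ
    (Set.nonempty_of_ncard_ne_zero (by rw [hcard]; norm_num)) G.norm_w3 d.form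
  rw [hcard] at hbound
  have hnot := hbound (Fin.cons Ψ (f ∘ e)) fun i => by
    refine Fin.cases ?_ (fun j => ?_) i
    · exact hΨ
    · simpa using joint_isEigFun Z (hfJ (e j))
  rw [linearIndependent_finCons] at hnot
  simp only [not_and, not_not] at hnot
  have hmem := hnot (hli.comp e e.injective)
  rw [e.surjective.range_comp f, Submodule.mem_span_range_iff_exists_fun] at hmem
  obtain ⟨a, ha⟩ := hmem
  exact ⟨a, by rw [← ha]; funext p; simp [Finset.sum_apply]⟩

/-- The form's eight functions exist and are permuted by `σ` up to a cube root of unity. -/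
theorem exists_eight (d : DescentData K L v3 lam) (G : GeoData K L v3) {σ : L ≃ₐ[K] L}
    (hc : Cyc3 K L σ) [Finite (placesOver K L v3)] [IsTotallyComplex L]
    (hS : Stable (σ : L ≃+* L) (placesOver K L v3)) : Nonempty (Eight G.norm_w3 σ lam hS) := by
  obtain ⟨W⟩ := exists_three hc G.split
  set T := fun (n : Fin 3) (i j : Fin 2) (Φ : Pt L (placesOver K L v3) → ℂ) =>
    mAct subset_rfl G.norm_w3 (W.w n) i j Φ with hT
  have hTT : ∀ n i j k l Φ, T n i j (T n k l Φ) = if j = k then T n i l Φ else 0 :=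
      fun n i j k l Φ =>
    mAct_mAct _ _ _ _ _ _
  have hTc : ∀ {n m : Fin 3}, n ≠ m → ∀ i j k l Φ, T n i j (T m k l Φ) = T m k l (T n i j Φ) :=
    fun h i j k l Φ => mAct_comm (fun e => h (W.inj e)) _ _ _ _ _
  have hTJ : ∀ {Φ}, Joint subset_rfl G.norm_w3 (egL lam) (eaZero L) Φ → ∀ n i j,
      Joint subset_rfl G.norm_w3 (egL lam) (eaZero L) (T n i j Φ) := fun h n i j => h.mAct _ i j
  have hT0 : ∀ n i j, T n i j 0 = 0 := fun n i j => mAct_zero _ _ _
  -- the fixed vector
  obtain ⟨Φ, hΦ⟩ := d.form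
  have hJ : Joint subset_rfl G.norm_w3 (egL lam) (eaZero L) Φ := joint_of_isForm hΦ
  have hne : Φ ≠ 0 := fun h => by obtain ⟨p, hp⟩ := hΦ.nonzero; exact hp (congrFun h p)
  obtain ⟨j0, h0⟩ := hJ.pick (W.w 0) hne
  obtain ⟨j1, h1⟩ := (hTJ hJ 0 0 j0).pick (W.w 1) h0
  obtain ⟨j2, h2⟩ := (hTJ (hTJ hJ 0 0 j0) 1 0 j1).pick (W.w 2) h1
  set φ := T 2 0 j2 (T 1 0 j1 (T 0 0 j0 Φ)) with hφdef
  have hφ : Joint subset_rfl G.norm_w3 (egL lam) (eaZero L) φ :=
    hTJ (hTJ (hTJ hJ 0 0 j0) 1 0 j1) 2 0 j2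
  have hφ0 : φ ≠ 0 := h2
  have hP : ∀ n, T n 0 0 φ = φ := by
    intro n
    fin_cases n <;> simp only [hφdef, Fin.zero_eta, Fin.mk_one, Fin.reduceFinMk]
    · rw [hTc (by decide : (0 : Fin 3) ≠ 2), hTc (by decide : (0 : Fin 3) ≠ 1), hTT 0, if_pos rfl]
    · rw [hTc (by decide : (1 : Fin 3) ≠ 2), hTT 1, if_pos rfl]
    · rw [hTT 2, if_pos rfl]
  -- the eight translates of `φ` by the matrix units at the three places
  set f : Fin 2 × Fin 2 × Fin 2 → Pt L (placesOver K L v3) → ℂ :=
    fun t => T 0 t.1 0 (T 1 t.2.1 0 (T 2 t.2.2 0 φ)) with hf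
  have hfJ : ∀ t, Joint subset_rfl G.norm_w3 (egL lam) (eaZero L) (f t) := fun t =>
    hTJ (hTJ (hTJ hφ 2 t.2.2 0) 1 t.2.1 0) 0 t.1 0
  -- projections
  set Pr := fun (s : Fin 2 × Fin 2 × Fin 2) (Ψ : Pt L (placesOver K L v3) → ℂ) =>
    T 2 0 s.2.2 (T 1 0 s.2.1 (T 0 0 s.1 Ψ)) with hPr
  have hPrf : ∀ s t, Pr s (f t) = if s = t then φ else 0 := by
    rintro ⟨a, b, c⟩ ⟨a', b', c'⟩
    simp only [hPr, hf, hTT 0]
    by_cases ha : a = a'
    · rw [if_pos ha, hTc (by decide : (0 : Fin 3) ≠ 1),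
        hTc (by decide : (0 : Fin 3) ≠ 2), hP 0, hTT 1]
      by_cases hb : b = b'
      · rw [if_pos hb, hTc (by decide : (1 : Fin 3) ≠ 2), hP 1, hTT 2]
        by_cases hc' : c = c'
        · rw [if_pos hc', hP 2, if_pos (by rw [ha, hb, hc'])]
        · rw [if_neg hc', if_neg (fun e => hc' (congrArg (fun t => t.2.2) e))]
      · rw [if_neg hb, hT0, if_neg (fun e => hb (congrArg (fun t => t.2.1) e))]
    · rw [if_neg ha, hT0, hT0, if_neg (fun e => ha (congrArg Prod.fst e))]
  have hPrsum : ∀ s (a : Fin 2 × Fin 2 × Fin 2 → ℂ), Pr s (fun p => ∑ t, a t * f t p)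
      = fun p => a s * φ p := by
    intro s a
    have e : Pr s (fun p => ∑ t, a t * f t p) = fun p => ∑ t, a t * Pr s (f t) p := by
      simp only [hPr, hT, mAct_sum, mAct_smul]
    rw [e]
    funext p
    rw [Finset.sum_eq_single s]
    · rw [hPrf, if_pos rfl]
    · intro t _ ht; rw [hPrf, if_neg (Ne.symm ht)]; simp
    · simp
  obtain ⟨p0, hp0⟩ := Function.ne_iff.1 hφ0
  have hli : LinearIndependent ℂ f := by
    rw [Fintype.linearIndependent_iff]
    intro a ha s
    have e : (fun p => ∑ t, a t * f t p) = 0 := by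
      funext p
      simpa [Finset.sum_apply] using congrFun ha p
    have h := congrFun (hPrsum s a) p0
    rw [e] at h
    simp only [hPr, hT0, Pi.zero_apply] at h
    exact (mul_eq_zero.1 h.symm).resolve_right hp0
  -- the span
  have hspan : ∀ Z : Set (Place L), Z.Finite →
      ∀ Ψ, IsEigFun (placesOver K L v3) (placesOver K L v3) Z lam Ψ →
      ∃ a : Fin 2 × Fin 2 × Fin 2 → ℂ, Ψ = fun p => ∑ t, a t * f t p :=
    fun Z hZ Ψ hΨ => exists_comb_of_isEigFun d G hfJ hli hZ hΨ
  -- the automorphism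
  set U := amapFun (S := (placesOver K L v3)) hS with hU
  have hσW : ∀ w : Place L, mapPlace (σ : L ≃+* L) w ∈ (placesOver K L v3) ↔
    w ∈ (placesOver K L v3) := hS
  have hTU : ∀ n i j Ψ, U (T (n + 1) i j Ψ) = T n i j (U Ψ) := by
    intro n i j Ψ
    funext p
    symm
    exact locAct_amap hS (W.map n) (mKer_amap hS (W.map n) (G.norm_w3 _ (W.w n).2)
      (G.norm_w3 _ (W.w (n + 1)).2) (W.w n).2 (W.w (n + 1)).2 i j) Ψ p
  have hUJ : Joint subset_rfl G.norm_w3 (egL lam) (eaZero L) (U φ) := by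
    have h := hφ.amap hS hσW
    rwa [show (fun w : {w : Place L // w ∉ (placesOver K L v3)} =>
        egL lam ⟨mapPlace (σ : L ≃+* L) w.1,
        fun hh => w.2 ((hS w.1).1 hh)⟩) = egL lam from funext fun w => d.invariant _ w.1 w.2] at h
  obtain ⟨a, ha⟩ := hspan ∅ Set.finite_empty (U φ) (joint_isEigFun ∅ hUJ)
  have hPU : Pr (0, 0, 0) (U φ) = U φ := by
    have e : ∀ n, T n 0 0 (U φ) = U φ := fun n => by rw [← hTU, hP]
    simp only [hPr, e]
  set c := a (0, 0, 0)
  have hUφ : U φ = fun p => c * φ p := by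
    rw [← hPU]
    conv_lhs => rw [ha]
    rw [hPrsum]
  have hUs : ∀ (b : ℂ) Ψ, U (fun p => b * Ψ p) = fun p => b * U Ψ p := fun _ _ => rfl
  have hc3 : c ^ 3 = 1 := by
    have h3 : U (U (U φ)) = φ := amapFun_three hc hS φ
    have h4 := congrFun h3 p0
    rw [hUφ, hUs, hUφ, hUs, hUs, hUφ] at h4
    exact mul_right_cancel₀ hp0 (by linear_combination h4)
  refine ⟨⟨f, hfJ, hli, c, hc3, fun t p => ?_, hspan⟩⟩
  have e1 : U (T 0 t.1 0 (T 1 t.2.1 0 (T 2 t.2.2 0 φ)))
      = T 2 t.1 0 (T 0 t.2.1 0 (T 1 t.2.2 0 (U φ))) := by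
    rw [← hTU 1, ← hTU 0, ← hTU 2]
    rfl
  change U (f t) p = _
  rw [hf]
  dsimp only
  rw [e1, hUφ]
  simp only [hT, mAct_smul]
  change c * T 2 t.1 0 (T 0 t.2.1 0 (T 1 t.2.2 0 φ)) p = _
  rw [hTc (by decide : (2 : Fin 3) ≠ 0), hTc (by decide : (2 : Fin 3) ≠ 1)]

section Fam

variable {hn : ∀ w ∈ placesOver K L v3, pnorm w = 3} [Finite (placesOver K L v3)]
  [IsTotallyComplex L] {σ : L ≃ₐ[K] L} {hS : Stable (σ : L ≃+* L) (placesOver K L v3)}
  {DL : Set (Pt L (placesOver K L v3))}
  (ZL : EigFam subset_rfl hn (extraL (K := K) (L := L) (v3 := v3)) DL) (V : Eight hn σ lam hS)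

/-- The systems of the given form. -/
def sysL (lam : Place L → ℝ) : Set ZL.I :=
  {i | (∀ w : {w : Place L // w ∉ (placesOver K L v3)}, ZL.eig i (Sum.inl w) = egL lam w) ∧
    ∀ j : InfinitePlace L × Rad, ZL.eig i (Sum.inr (Sum.inr j)) = eaZero L j}

omit [NumberField K] in
include V in
/-- Agreement away from a finite set is agreement everywhere. -/
theorem mem_sysL {Z : Set (Place L)} (hZ : Z.Finite) {i : ZL.I}
    (hg : ∀ w : {w : Place L // w ∉ (placesOver K L v3)}, w.1 ∉ Z → ZL.eig i (Sum.inl w) =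
    egL lam w) (ha : ∀ j : InfinitePlace L × Rad, ZL.eig i (Sum.inr (Sum.inr j)) =
    eaZero L j) : i ∈ sysL ZL lam := by
  refine ⟨fun w => ?_, ha⟩
  have hJ := (ZL.data i).joint
  have harch : IsArchEigen (ZL.Φ i) := hJ.archEigen fun u k => by
    show (ZL.eig i (Sum.inr (Sum.inr (u, k))) : ℂ) = _
    rw [ha (u, k)]
    exact eaZero_eq L u k
  obtain ⟨a, hai⟩ := V.span Z hZ (ZL.Φ i)
    ⟨hJ.invariant, hJ.continuous, hJ.bounded, harch, fun _ hv => hJ.isCuspType hv, fun v hv p => by
      rw [Set.mem_union, not_or] at hv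
      rw [heckeT_eq_locAct hv.1, hJ.good ⟨v, hv.1⟩ p]
      show (ZL.eig i (Sum.inl ⟨v, hv.1⟩) : ℂ) * _ = _
      rw [hg ⟨v, hv.1⟩ hv.2]
      rfl⟩
  obtain ⟨p, hp⟩ := ZL.nonzero i
  have h1 := hJ.good w p
  have h2 : locAct w.1 (sphKer w.2 Polynomial.X) (ZL.Φ i) p = (egL lam w : ℂ) * ZL.Φ i p := by
    rw [hai, locAct_sum_fun, Finset.mul_sum]
    refine Finset.sum_congr rfl fun t _ => ?_
    rw [locAct_smul_fun, (V.joint t).good w p]
    ring
  rw [h2] at h1
  exact (Complex.ofReal_injective (mul_right_cancel₀ hp h1)).symm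

omit [NumberField K] [IsTotallyComplex L] in
/-- The systems of the form have exactly its eigenvalues. -/
lemma eig_sysL {i : ZL.I} (hi : i ∈ sysL ZL lam) :
    ZL.eig i = mkCoord (egL lam) (fun v => absurd v.2.1 v.2.2) (eaZero L) := by
  funext j
  rcases j with w | v | j
  · exact hi.1 w
  · exact absurd v.2.1 v.2.2
  · exact hi.2 j

end Fam

/-! ### eigenvalue of the base operator, integrals -/

section Gen

variable {F : Type} [Field F] [NumberField F] [IsTotallyComplex F] {S E : Set (Place F)} [Finite S]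
  {hE : E ⊆ S} {hn : ∀ v ∈ E, pnorm v = 3} {Y : Extra F S E} {D : Set (Pt F S)}

/-- With the parameter zero archimedean eigenvalues, the eigenvalue is the power of the
transform. -/
lemma lam_eq (Z : EigFam hE hn Y D) (hD : IsFundamentalDomain (PG F) D ptMeasure) {i : Z.I}
    (h : ∀ u, Z.eig i (Sum.inr (Sum.inr (u, k0))) = (hhat0 k0.1).re) :
    (Z.lam i : ℂ) = hhat0 k0.1 ^ Fintype.card (InfinitePlace F) := by
  have : IsFiniteMeasure (domMeasure D) := isFiniteMeasure_domMeasure hD
  obtain ⟨b, hb, hA⟩ := Z.appA i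
  have hd := Z.data i
  obtain ⟨p, hp⟩ := Z.nonzero i
  refine mul_right_cancel₀ hp ((hA p).symm.trans ?_)
  refine appP_base hD hE hn hd.invariant hd.continuous hd.bounded hd.fixE (fun u q => ?_) hb p
  rw [show archAct u k0.ker (Z.Φ i) q = (Z.eig i (Sum.inr (Sum.inr (u, k0))) : ℂ) * Z.Φ i q from
    hd.eig (Sum.inr (Sum.inr (u, k0))) q, h u, Complex.conj_eq_iff_re.1 (hhat0_real k0.1)]

/-- Only finitely many systems have the parameter zero archimedean eigenvalues. -/
lemma finite_sys (Z : EigFam hE hn Y D) (hD : IsFundamentalDomain (PG F) D ptMeasure) (s : Set Z.I)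
    (h : ∀ i ∈ s, ∀ u, Z.eig i (Sum.inr (Sum.inr (u, k0))) = (hhat0 k0.1).re) : s.Finite := by
  set H := hhat0 k0.1 ^ Fintype.card (InfinitePlace F)
  have h0 : (0 : ℝ) < ‖H‖ ^ 2 := pow_pos (norm_pos_iff.2 (pow_ne_zero _ hhat0_k0_ne)) 2
  refine (Z.summ.tendsto_cofinite_zero.eventually (gt_mem_nhds h0)).subset fun i hi => ?_
  change ¬ (Z.lam i ^ 2 < ‖H‖ ^ 2)
  rw [show H = (Z.lam i : ℂ) from (lam_eq Z hD (h i hi)).symm, Complex.norm_real,
    Real.norm_eq_abs, sq_abs]
  exact lt_irrefl _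

omit [IsTotallyComplex F] [Finite S] in
/-- Products of bounded functions continuous at infinity are integrable on a domain. -/
lemma integrable_conj_mul [IsFiniteMeasure (domMeasure D)] {Φ Ψ : Pt F S → ℂ}
    (h1 : ∀ ω, Continuous fun x : InfinitePlace F → H3 => Φ (ω, x)) (b1 : ∃ C : ℝ, ∀ p, ‖Φ p‖ ≤ C)
    (h2 : ∀ ω, Continuous fun x : InfinitePlace F → H3 => Ψ (ω, x)) (b2 : ∃ C : ℝ, ∀ p, ‖Ψ p‖ ≤ C) :
    Integrable (fun p => conj (Φ p) * Ψ p) (domMeasure D) := by
  obtain ⟨C, hC⟩ := b1
  obtain ⟨C', hC'⟩ := b2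
  refine Integrable.of_bound
    ((Complex.continuous_conj.measurable.comp (measurable_of_slices h1)).mul
    (measurable_of_slices h2)).aestronglyMeasurable (C * C') (Eventually.of_forall fun p => ?_)
  rw [norm_mul, RCLike.norm_conj]
  exact mul_le_mul (hC p) (hC' p) (norm_nonneg _) ((norm_nonneg _).trans (hC p))

end Gen

section Value

variable {hn : ∀ w ∈ placesOver K L v3, pnorm w = 3} [Finite (placesOver K L v3)]
  [IsTotallyComplex L] {σ : L ≃ₐ[K] L} {hS : Stable (σ : L ≃+* L) (placesOver K L v3)}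
  {DL : Set (Pt L (placesOver K L v3))}
  (ZL : EigFam subset_rfl hn (extraL (K := K) (L := L) (v3 := v3)) DL) (V : Eight hn σ lam hS)

omit [NumberField K] in
/-- **The twisted trace on the systems of the form is `2 conj c`.** -/
theorem sum_sysL (hD : IsFundamentalDomain (PG L) DL ptMeasure) :
    ∃ hfin : (sysL ZL lam).Finite,
      ∑ i ∈ hfin.toFinset, ∫ p, conj (ZL.Φ i (Pt.amap hS p)) * ZL.Φ i p ∂domMeasure DL =
        2 * conj V.c := by
  have : IsFiniteMeasure (domMeasure DL) := isFiniteMeasure_domMeasure hD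
  have hfin : (sysL ZL lam).Finite := finite_sys ZL hD _ fun i hi u => hi.2 (u, k0)
  refine ⟨hfin, ?_⟩
  set s := hfin.toFinset
  -- the members of `s` and the eight functions span the same space
  have hP : ∀ i ∈ s, ∃ a : Fin 2 × Fin 2 × Fin 2 → ℂ, ZL.Φ i = fun p => ∑ t, a t * V.f t p :=
      fun i hi => by
    have hi' : i ∈ sysL ZL lam := hfin.mem_toFinset.1 hi
    refine V.span ∅ Set.finite_empty _ (joint_isEigFun (hn := hn) ∅ ?_)
    have hJ := (ZL.data i).joint
    rwa [eig_sysL ZL hi'] at hJ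
  choose! P hP using hP
  have hQ : ∀ t, ∃ a : ZL.I → ℂ, V.f t = fun p => ∑ i ∈ s, a i * ZL.Φ i p := fun t => by
    obtain ⟨r, a, hr, hra⟩ := ZL.expand _ _ ((V.joint t).eigFun (ex := fun v => absurd v.2.1 v.2.2)
      fun v => absurd v.2.1 v.2.2) fun u p => by
        rw [(V.joint t).arch u k0 p, eaZero_eq]
    refine ⟨fun i => if i ∈ r then a i else 0, ?_⟩
    rw [hra]
    funext p
    have hsub : r ⊆ s := fun i hi => hfin.mem_toFinset.2
      ⟨fun w => congrFun (hr i hi) (Sum.inl w), fun j => congrFun (hr i hi) (Sum.inr (Sum.inr j))⟩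
    rw [← Finset.sum_subset hsub fun i _ hi => by simp [hi]]
    exact Finset.sum_congr rfl fun i hi => by simp [hi]
  choose Q hQ using hQ
  -- `σ` is `c` times the cyclic permutation of the eight, which has two fixed points
  set π : Fin 2 × Fin 2 × Fin 2 → Fin 2 × Fin 2 × Fin 2 := fun t => (t.2.1, t.2.2, t.1) with hπ
  set R : ZL.I → ZL.I → ℂ := fun i k => V.c * ∑ t, P i t * Q (π t) k with hR
  have hUR : ∀ i ∈ s, ∀ p, ZL.Φ i (Pt.amap hS p) = ∑ k ∈ s, R i k * ZL.Φ k p := fun i hi p => by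
    rw [congrFun (hP i hi)]
    have e : ∀ t, V.f t (Pt.amap hS p) = V.c * ∑ k ∈ s, Q (π t) k * ZL.Φ k p := fun t => by
      rw [show V.f t (Pt.amap hS p) = amapFun hS (V.f t) p from rfl, V.map, ← congrFun (hQ (π t)) p]
    simp only [e, hR, Finset.mul_sum, Finset.sum_mul]
    rw [Finset.sum_comm]
    exact Finset.sum_congr rfl fun k _ => Finset.sum_congr rfl fun t _ => by ring
  have hint : ∀ i ∈ s, ∫ p, conj (ZL.Φ i (Pt.amap hS p)) * ZL.Φ i p ∂domMeasure DL = conj (R i i) :=
      fun i hi => by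
    simp only [hUR i hi, map_sum, map_mul, Finset.sum_mul, mul_assoc]
    rw [integral_finsetSum _ fun k _ =>
      (integrable_conj_mul (ZL.data k).continuous (ZL.data k).bounded
      (ZL.data i).continuous (ZL.data i).bounded).const_mul _]
    simp only [integral_const_mul, ZL.orth]
    rw [Finset.sum_eq_single i]
    · simp
    · intro k _ hk; simp [hk]
    · intro h; exact absurd hi h
  rw [Finset.sum_congr rfl hint, ← map_sum]
  have hQP : ∀ u t, ∑ i ∈ s, Q u i * P i t = if u = t then 1 else 0 := by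
    intro u
    have h0 : ∑ t, ((∑ i ∈ s, Q u i * P i t) - if u = t then 1 else 0) • V.f t = 0 := by
      funext p
      simp only [Finset.sum_apply, Pi.smul_apply, smul_eq_mul, sub_mul, Finset.sum_sub_distrib,
        Pi.zero_apply,
        Finset.sum_mul, ite_mul, one_mul, zero_mul, Finset.sum_ite_eq, Finset.mem_univ, if_true]
      rw [sub_eq_zero, Finset.sum_comm]
      conv_rhs => rw [congrFun (hQ u) p]
      refine Finset.sum_congr rfl fun i hi => ?_
      conv_rhs => rw [congrFun (hP i hi) p, Finset.mul_sum]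
      exact Finset.sum_congr rfl fun t _ => mul_assoc _ _ _
    intro t
    exact sub_eq_zero.1 (Fintype.linearIndependent_iff.1 V.indep _ h0 t)
  simp only [hR, ← Finset.mul_sum]
  rw [Finset.sum_comm]
  have e : ∀ t, ∑ i ∈ s, P i t * Q (π t) i = if π t = t then 1 else 0 := fun t => by
    rw [← hQP (π t) t]
    exact Finset.sum_congr rfl fun i _ => mul_comm _ _
  simp only [hπ] at e ⊢
  rw [Finset.sum_congr rfl fun t _ => e t, map_mul, Finset.sum_boole,
      show (Finset.univ.filter fun t : Fin 2 × Fin 2 × Fin 2 =>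
      (t.2.1, t.2.2, t.1) = t).card = 2 by decide]
  simp [Complex.conj_ofNat, mul_comm]

end Value

end Fermat.LT.Sys
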