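import Fermat.Agent.LT.Sys.Act
import Fermat.Agent.LT.CuspKer
import Fermat.Agent.LT.SphKer
import Fermat.Agent.LT.Theta.Arch

/-!
# Systems: the base kernel and the families of operations

`base` is the cuspidal idempotent on `E`, the identity elsewhere and the fixed bump `k0` at the
infinite places. `fam` composes it with one operation for each coordinate (`Coord`): `T v` at a
good place, a chosen kernel (`Extra`) at a further place of the level, a radial kernel at infinity.
`Trace` diagonalises this commuting hermitian family on each field.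
-/

set_option autoImplicit false
open MeasureTheory Filter Set NumberField Polynomial
open scoped Classical ComplexConjugate

namespace Fermat.LT.Sys

/-- The test function at the infinite places. -/
noncomputable def bump0 : ContDiffBump (1 : ℝ) := ⟨1, 2, one_pos, one_lt_two⟩

/-- The fixed radial kernel. -/
noncomputable def k0 : Rad := ⟨bump0, bump0.continuous, bump0.hasCompactSupport⟩

/-- The fixed radial kernel is smooth. -/
lemma k0_smooth : IsSmoothRadial k0.ker :=
  ⟨bump0, bump0.contDiff, bump0.hasCompactSupport, fun _ _ => rfl⟩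

/-- The transform of a real radial kernel is real. -/
lemma hhat0_real (k : ℝ → ℝ) : conj (hhat0 k) = hhat0 k := by
  rw [hhat0, ← integral_conj]
  simp [Complex.conj_ofReal]

/-- The transform of the fixed radial kernel is positive. -/
lemma hhat0_k0_pos : 0 < (hhat0 k0.1).re := by
  set f : H3 → ℝ := fun y => k0.1 (coshd ((1 : GL (Fin 2) ℂ) : H3) y) * (H3.coord y).2
  have he : hhat0 k0.1 = ((∫ y, f y ∂hmeas : ℝ) : ℂ) := by
    rw [Theta.hhat0_eq k0.2.1, ← integral_complex_ofReal]
    simp [f]
  rw [he, Complex.ofReal_re]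
  -- the integrand `f` is nonnegative and integrable, and positive near `(0, 1)`
  have h0 : ∀ y, 0 ≤ f y := fun y => mul_nonneg bump0.nonneg (H3.coord_pos y).le
  have hf : Continuous f := (k0.2.1.comp
    (continuous_coshd.comp (continuous_const.prodMk continuous_id))).mul continuous_coord.snd
  have hI : Integrable f hmeas := by
    have h := Theta.integrable_kernel_mul k0.2.1 k0.2.2 ((1 : GL (Fin 2) ℂ) : H3)
      (f := fun y => ((H3.coord y).2 : ℂ))
        (Complex.continuous_ofReal.comp continuous_coord.snd).measurable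
      (C := 2 * (H3.coord ((1 : GL (Fin 2) ℂ) : H3)).2 * |(AKer.ofRadial k0.1 k0.2.1 k0.2.2).range|)
      fun y hy => by
        rw [Complex.norm_real, Real.norm_of_nonneg (H3.coord_pos y).le]
        refine (Theta.snd_le_coshd ((1 : GL (Fin 2) ℂ) : H3) y).trans ?_
        exact mul_le_mul_of_nonneg_left (hy.trans (le_abs_self _))
          (by have := H3.coord_pos ((1 : GL (Fin 2) ℂ) : H3); positivity)
    refine (h.norm).congr (Eventually.of_forall fun y => ?_)
    change ‖(k0.1 _ : ℂ) * _‖ = f y
    rw [norm_mul, Complex.norm_real, Complex.norm_real,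
      Real.norm_of_nonneg (show 0 ≤ k0.1 (coshd ((1 : GL (Fin 2) ℂ) : H3) y) from bump0.nonneg),
      Real.norm_of_nonneg (H3.coord_pos y).le]
  refine (integral_pos_iff_support_of_nonneg h0 hI).2 ?_
  set W : Set (ℂ × ℝ) := Metric.ball 0 (1 / 2) ×ˢ Set.Ioo (1 / 2) (3 / 2)
  have hW : 0 < volume W :=
    (Metric.isOpen_ball.prod isOpen_Ioo).measure_pos volume
      ⟨(0, 1), Metric.mem_ball_self (by norm_num), by norm_num⟩
  have hsub : W ⊆ hmk ⁻¹' Function.support f ∩ univ ×ˢ Ioi 0 := by
    rintro ⟨z, t⟩ ⟨hz, ht1, ht2⟩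
    have ht : 0 < t := by linarith
    refine ⟨?_, mem_univ _, ht⟩
    have hc : H3.coord (hmk (z, t)) = (z, t) := H3.coord_mk_of_pos z ht
    have h1 : H3.coord ((1 : GL (Fin 2) ℂ) : H3) = (0, 1) := by
      simp [zc, tc, herm_eq]
    have hcd : coshd ((1 : GL (Fin 2) ℂ) : H3) (hmk (z, t)) ∈ Metric.closedBall (1 : ℝ) 1 := by
      rw [Metric.mem_closedBall, Real.dist_eq, abs_le]
      refine ⟨by linarith [one_le_coshd ((1 : GL (Fin 2) ℂ) : H3) (hmk (z, t))], ?_⟩
      rw [coshd_eq_cd, h1, hc, cd, sub_le_iff_le_add, div_le_iff₀ (by positivity)]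
      rw [Metric.mem_ball, dist_zero_right] at hz
      have hz2 : Complex.normSq z ≤ 1 / 4 := by
        rw [Complex.normSq_eq_norm_sq]
        nlinarith [norm_nonneg z]
      simp only [zero_sub, Complex.normSq_neg]
      nlinarith
    change f (hmk (z, t)) ≠ 0
    refine mul_ne_zero ?_ (H3.coord_pos _).ne'
    change bump0 _ ≠ 0
    rw [bump0.one_of_mem_closedBall hcd]
    exact one_ne_zero
  have hm : MeasurableSet (Function.support f) := (hf.measurable (measurableSet_singleton 0)).compl
  rw [hmeas, Measure.map_apply measurable_hmk hm, hvol,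
    withDensity_apply _ (hm.preimage measurable_hmk),
    Measure.restrict_restrict (hm.preimage measurable_hmk)]
  refine lt_of_lt_of_le ?_ (lintegral_mono_set hsub)
  refine (setLIntegral_pos_iff (by fun_prop)).2 ?_
  refine hW.trans_le (measure_mono fun p hp => ⟨?_, hp⟩)
  obtain ⟨z, t⟩ := p
  obtain ⟨-, ht1, -⟩ := hp
  have : (0 : ℝ) < t := by linarith
  simp [this]

/-- The transform of the fixed radial kernel is not zero. -/
lemma hhat0_k0_ne : hhat0 k0.1 ≠ 0 := fun h => by
  have := hhat0_k0_pos
  rw [h] at this
  simp at this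

variable {F : Type*} [Field F] [NumberField F] {S E : Set (Place F)}

/-- The cuspidal idempotent on `E`, the identity elsewhere, `k0` at the infinite places. -/
noncomputable def base [Finite S] (hE : E ⊆ S) (hn : ∀ v ∈ E, pnorm v = 3) : PKer F S where
  loc v := if h : v ∈ E then eKer (hn v h) (hE h) else LKer.one S v
  ae_one := by
    filter_upwards [((Set.toFinite S).subset hE).compl_mem_cofinite] with v hv
    rw [dif_neg (show v ∉ E from hv)]
  arch _ := k0.ker

variable [Finite S] (hE : E ⊆ S) (hn : ∀ v ∈ E, pnorm v = 3)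

/-- On `E` the base kernel is the cuspidal idempotent. -/
lemma base_loc_mem {v : Place F} (h : v ∈ E) : (base hE hn).loc v = eKer (hn v h) (hE h) :=
  dif_pos h

/-- Off `E` the base kernel is the identity. -/
lemma base_loc_notMem {v : Place F} (h : v ∉ E) : (base hE hn).loc v = LKer.one S v := dif_neg h

/-- For nonempty `E` the summed base kernel is bounded. -/
lemma base_bdd [IsTotallyComplex F] (hne : E.Nonempty) : (base hE hn).Bdd := by
  obtain ⟨v, hv⟩ := hne
  exact kap_bounded _ v (by rw [base_loc_mem hE hn hv]; exact cuspLoc_eKer _ _) fun _ => k0_smooth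

/-- The base kernel is hermitian. -/
lemma base_isHerm : (base hE hn).IsHerm where
  loc v := by
    by_cases h : v ∈ E
    · rw [base_loc_mem hE hn h]; exact eKer_isHerm _ _
    · rw [base_loc_notMem hE hn h]; exact LKer.isHerm_one v
  arch _ := AKer.isReal_ofRadial _ k0.2.1 k0.2.2

/-- The indices: good places, extra places of the level, infinite places with test functions. -/
abbrev Coord (F : Type*) [Field F] [NumberField F] (S E : Set (Place F)) : Type _ :=
  {v : Place F // v ∉ S} ⊕ ({v : Place F // v ∈ S ∧ v ∉ E} ⊕ (InfinitePlace F × Rad))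

/-- A choice of one hermitian kernel at each extra place. -/
structure Extra (F : Type*) [Field F] [NumberField F] (S E : Set (Place F)) where
  /-- The kernel chosen at each place of `S` outside `E`. -/
  ker : ∀ v : {v : Place F // v ∈ S ∧ v ∉ E}, LKer S v.1
  /-- The chosen kernels are hermitian. -/
  herm : ∀ v, (ker v).IsHerm

variable (X : Extra F S E)

/-- The operation of a coordinate: `T_v`, the chosen kernel, or a radial kernel. -/
noncomputable def coordOp : Coord F S E → Op F S
  | Sum.inl v => Sum.inl ⟨v.1, sphKer v.2 Polynomial.X⟩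
  | Sum.inr (Sum.inl v) => Sum.inl ⟨v.1, X.ker v⟩
  | Sum.inr (Sum.inr (u, k)) => Sum.inr (u, k.ker)

/-- The base kernel composed with the operation of a coordinate. -/
noncomputable def fam (j : Coord F S E) : PKer F S := step (coordOp X j) (base hE hn)

/-- Locally each family member is the base, a Hecke operator, or the chosen extra kernel. -/
lemma fam_loc (j : Coord F S E) (v : Place F) :
    (fam hE hn X j).loc v = (base hE hn).loc v ∨
      (∃ h : v ∉ S, (fam hE hn X j).loc v = sphKer h Polynomial.X ∧ j = Sum.inl ⟨v, h⟩) ∨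
      ∃ h : v ∈ S ∧ v ∉ E, (fam hE hn X j).loc v = X.ker ⟨v, h⟩ ∧ j = Sum.inr (Sum.inl ⟨v, h⟩) := by
  rcases j with ⟨w, hw⟩ | ⟨w, hw⟩ | ⟨u, k⟩
  · by_cases h : v = w
    · subst h
      refine Or.inr (Or.inl ⟨hw, ?_, rfl⟩)
      change Function.update _ v _ v = _
      rw [Function.update_self, base_loc_notMem hE hn (fun h => hw (hE h)), LKer.comp_one]
    · exact Or.inl (Function.update_of_ne h _ _)
  · by_cases h : v = w
    · subst h
      refine Or.inr (Or.inr ⟨hw, ?_, rfl⟩)
      change Function.update _ v _ v = _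
      rw [Function.update_self, base_loc_notMem hE hn hw.2, LKer.comp_one]
    · exact Or.inl (Function.update_of_ne h _ _)
  · exact Or.inl rfl

/-- The family commutes locally. -/
lemma locComm_fam (i j : Coord F S E) : PKer.LocComm (fam hE hn X i) (fam hE hn X j) := by
  intro v
  rcases fam_loc hE hn X i v with h | ⟨h, e, -⟩ | ⟨h, e, -⟩ <;>
    rcases fam_loc hE hn X j v with h' | ⟨h', e', -⟩ | ⟨h', e', -⟩
  · rw [h, h']
  · rw [h, e', base_loc_notMem hE hn (fun x => h' (hE x)), LKer.one_comp_eq, LKer.comp_one]
  · rw [h, e', base_loc_notMem hE hn h'.2, LKer.one_comp_eq, LKer.comp_one]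
  · rw [h', e, base_loc_notMem hE hn (fun x => h (hE x)), LKer.one_comp_eq, LKer.comp_one]
  · rw [e, e']
  · exact absurd h'.1 h
  · rw [h', e, base_loc_notMem hE hn h.2, LKer.one_comp_eq, LKer.comp_one]
  · exact absurd h.1 h'
  · rw [e, e']

/-- The base commutes locally with the family. -/
lemma locComm_base_fam (j : Coord F S E) : PKer.LocComm (base hE hn) (fam hE hn X j) := by
  intro v
  rcases fam_loc hE hn X j v with h | ⟨h, e, -⟩ | ⟨h, e, -⟩
  · rw [h]
  · rw [e, base_loc_notMem hE hn (fun x => h (hE x)), LKer.one_comp_eq, LKer.comp_one]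
  · rw [e, base_loc_notMem hE hn h.2, LKer.one_comp_eq, LKer.comp_one]

/-- Every member of the family is hermitian. -/
lemma fam_isHerm (j : Coord F S E) : (fam hE hn X j).IsHerm where
  loc v := by
    rcases fam_loc hE hn X j v with h | ⟨h, e, -⟩ | ⟨h, e, -⟩
    · rw [h]; exact (base_isHerm hE hn).loc v
    · rw [e, ← Polynomial.map_X (algebraMap ℝ ℂ)]; exact sphKer_isHerm h _
    · rw [e]; exact X.herm _
  arch w := by
    rcases j with ⟨v, hv⟩ | ⟨v, hv⟩ | ⟨u, k⟩
    · exact (base_isHerm hE hn).arch w
    · exact (base_isHerm hE hn).arch w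
    · change AKer.IsReal (Function.update (base hE hn).arch u (k.ker.comp ((base hE hn).arch u)) w)
      by_cases h : w = u
      · subst h
        rw [Function.update_self]
        exact (AKer.isReal_ofRadial _ k.2.1 k.2.2).comp ((base_isHerm hE hn).arch w)
      · rw [Function.update_of_ne h]; exact (base_isHerm hE hn).arch w

/-- For nonempty `E` each summed member of the family is bounded. -/
lemma fam_bdd [IsTotallyComplex F] (hne : E.Nonempty) (j : Coord F S E) : (fam hE hn X j).Bdd :=
  step_bdd _ (base_bdd hE hn hne)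

end Fermat.LT.Sys
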