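import Fermat.Agent.LT.Sys.AtomL
import Fermat.Agent.LT.Atoms

/-!
# Systems: the comparison of the atoms

The systems of `K` and, with a minus sign, those of `L` are weighted points in the space of
coordinates (`aAll`, `xAll`). By the geometric comparison the odd moments in the coordinate at a
split place have a continuous density (`exists_density`), so the atoms are symmetric under its
change of sign: `atom_flip`, the input of `Assembly`.
-/

set_option autoImplicit false
open MeasureTheory Filter Set NumberField Polynomial IsDedekindDomain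
open scoped Classical ComplexConjugate

namespace Fermat.LT.Sys

/-- A product of real values along a list commutes with the cast to `ℂ`. -/
lemma ofReal_map_prod {α : Type*} (f : α → ℝ) (l : List α) :
    (((l.map f).prod : ℝ) : ℂ) = (l.map fun a => (f a : ℂ)).prod := by
  induction l with
  | nil => simp
  | cons a l ih => simp [ih]

/-- A product over a list of bounded families is bounded. -/
lemma exists_bound_prod {ι α : Type*} (f : α → ι → ℂ) (l : List α)
    (h : ∀ a ∈ l, ∃ C : ℝ, ∀ i, ‖f a i‖ ≤ C) : ∃ C : ℝ, ∀ i, ‖(l.map fun a => f a i).prod‖ ≤ C := by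
  induction l with
  | nil => exact ⟨1, fun i => by simp⟩
  | cons a l ih =>
    obtain ⟨C, hC⟩ := h a List.mem_cons_self
    obtain ⟨C', hC'⟩ := ih fun b hb => h b (List.mem_cons_of_mem _ hb)
    exact ⟨C * C', fun i => by
      rw [List.map_cons, List.prod_cons, norm_mul]
      exact mul_le_mul (hC i) (hC' i) (norm_nonneg _) ((norm_nonneg _).trans (hC i))⟩

variable {K L : Type} [Field K] [NumberField K] [Field L] [NumberField L] [Algebra K L]
  {v3 : Place K}

/-- The eigenvalue at `w` of the base change of the eigenvalue `e` at the place below. -/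
noncomputable def bcVal (K : Type) {L : Type} [Field K] [NumberField K] [Field L] [NumberField L]
    [Algebra K L] (w : Place L) (e : ℝ) : ℝ :=
  if pnorm w = pnorm (below K w) then e else e ^ 3 - 3 * (pnorm (below K w) : ℝ) * e

/-- The base change polynomial at `w` takes `e` to `bcVal K w e`. -/
lemma eval_bcX (w : Place L) (e : ℝ) : (bcX (K := K) w).eval (e : ℂ) = (bcVal K w e : ℂ) := by
  rw [bcX, bcVal]
  split_ifs
  · rw [eval_X]
  · simp [cubicBC]

/-- The coordinates of the given form: `lam` at the good places, parameter zero at infinity. -/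
noncomputable def x0 (lam : Place L → ℝ) : JT K L v3 → ℝ :=
  Sum.elim (fun w => lam w.1) (eaZero L)

/-- The coordinates allowed in the flip at `w0`: all but the other places over `v0`. -/
def Allowed (v0 : Place K) (w0 : Place L) : JT K L v3 → Prop
  | Sum.inl w => below K w.1 = v0 → w.1 = w0
  | Sum.inr _ => True

/-- The coordinates avoiding all the places over `v0`. -/
def Avoid (v0 : Place K) : JT K L v3 → Prop
  | Sum.inl w => below K w.1 ≠ v0
  | Sum.inr _ => True

variable (G : GeoData K L v3) [Finite (levK L v3)] [Finite (placesOver K L v3)]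
  {DK : Set (Pt K (levK L v3))} {DL : Set (Pt L (placesOver K L v3))}

section K

variable (ZK : EigFam singleton_sub (norm_singleton G) (extraK G) DK)

/-- The coordinates of a system below: its base change. -/
noncomputable def xK (i : ZK.I) : JT K L v3 → ℝ
  | Sum.inl w => bcVal K w.1 (ZK.eig i (Sum.inl ⟨below K w.1, w.2⟩))
  | Sum.inr (w, k) => ZK.eig i (Sum.inr (Sum.inr (w.comap (algebraMap K L), k)))

/-- The product of the eigenvalues of the fixed operations at the tame places. -/
noncomputable def ramProd (i : ZK.I) : ℂ :=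
  haveI : Finite {v : Place K // v ∈ levK L v3 ∧ v ∉ ({v3} : Set (Place K))} := finite_extra
  letI := Fintype.ofFinite {v : Place K // v ∈ levK L v3 ∧ v ∉ ({v3} : Set (Place K))}
  ∏ v : {v : Place K // v ∈ levK L v3 ∧ v ∉ ({v3} : Set (Place K))},
    (ZK.eig i (Sum.inr (Sum.inl v)) : ℂ)

/-- The weight of a system below: the square of its base eigenvalue times those of the fixed
operations. -/
noncomputable def aK (i : ZK.I) : ℂ :=
  (ZK.lam i : ℂ) ^ 2 *
    (ramProd G ZK i * (∏ u : InfinitePlace K, (ZK.eig i (Sum.inr (Sum.inr (u, k0))) : ℂ)) ^ 4)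

omit [Finite (placesOver K L v3)] in
/-- The operation below of a coordinate acts on a system by that coordinate. -/
lemma opAct_opKJ (i : ZK.I) (j : JT K L v3) (q : Pt K (levK L v3)) :
    opAct (opKJ j) (ZK.Φ i) q = (xK G ZK i j : ℂ) * ZK.Φ i q := by
  rcases j with w | ⟨w, k⟩
  · change locAct _ (sphKer w.2 (bcX (K := K) w.1)) (ZK.Φ i) q = _
    rw [locAct_sphKer_eval w.2 fun p => (ZK.data i).eig (Sum.inl ⟨below K w.1, w.2⟩) p, eval_bcX]
    rfl
  · exact (ZK.data i).eig (Sum.inr (Sum.inr (w.comap (algebraMap K L), k))) q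

omit [Finite (placesOver K L v3)] in
/-- The fixed operations act on a system below by the tame product and fourth powers at infinity. -/
lemma acts_extOps (i : ZK.I) :
    acts (extOps G) (ZK.Φ i) = fun q =>
      (ramProd G ZK i * (∏ u : InfinitePlace K, (ZK.eig i (Sum.inr (Sum.inr (u, k0))) : ℂ)) ^ 4) *
        ZK.Φ i q := by
  have : Finite {v : Place K // v ∈ levK L v3 ∧ v ∉ ({v3} : Set (Place K))} := finite_extra
  let := Fintype.ofFinite {v : Place K // v ∈ levK L v3 ∧ v ∉ ({v3} : Set (Place K))}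
  have hsm : ∀ (m : List (Op K (levK L v3))) (c d : ℂ), acts m (ZK.Φ i) = (fun q => c * ZK.Φ i q) →
      acts m (fun q => d * ZK.Φ i q) = fun q => c * d * ZK.Φ i q := fun m c d h => by
    rw [acts_smul_fun, h]; funext q; ring
  have ha := acts_map (fun u => (Sum.inr (u, k0.ker) : Op K (levK L v3))) (Φ := ZK.Φ i)
    (fun u => (ZK.eig i (Sum.inr (Sum.inr (u, k0))) : ℂ))
      (Finset.univ : Finset (InfinitePlace K)).toList
    fun u _ q => (ZK.data i).eig (Sum.inr (Sum.inr (u, k0))) q
  have hr := acts_map (fun v : {v : Place K // v ∈ levK L v3 ∧ v ∉ ({v3} : Set (Place K))} =>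
      (Sum.inl ⟨v.1, (extraK G).ker v⟩ : Op K (levK L v3))) (Φ := ZK.Φ i)
    (fun v => (ZK.eig i (Sum.inr (Sum.inl v)) : ℂ))
    (Finset.univ : Finset {v : Place K // v ∈ levK L v3 ∧ v ∉ ({v3} : Set (Place K))}).toList
    fun v _ q => (ZK.data i).eig (Sum.inr (Sum.inl v)) q
  rw [Finset.prod_map_toList] at ha hr
  simp only [extOps, acts_append]
  rw [ha, hsm _ _ _ ha, hsm _ _ _ ha, hsm _ _ _ ha, hsm _ _ _ hr]
  funext q
  simp only [ramProd]
  ring

omit [Finite (placesOver K L v3)] in
/-- Each coordinate of the systems below is bounded. -/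
lemma exists_bound_xK (j : JT K L v3) : ∃ M : ℝ, ∀ i, |xK G ZK i j| ≤ M := by
  rcases j with w | ⟨w, k⟩
  · obtain ⟨M, hM⟩ := EigFam.eig_bound _ _ _ ZK (Sum.inl ⟨below K w.1, w.2⟩)
    refine ⟨|M| + (|M| ^ 3 + 3 * (pnorm (below K w.1) : ℝ) * |M|), fun i => ?_⟩
    have h := (hM i).trans (le_abs_self M)
    change |bcVal K w.1 _| ≤ _
    rw [bcVal]
    split_ifs
    · exact h.trans (le_add_of_nonneg_right (by positivity))
    · refine (abs_sub _ _).trans (le_trans ?_ (le_add_of_nonneg_left (abs_nonneg M)))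
      rw [abs_pow, abs_mul,
        abs_of_nonneg (show (0 : ℝ) ≤ 3 * (pnorm (below K w.1) : ℝ) by positivity)]
      gcongr
  · exact EigFam.eig_bound _ _ _ ZK (Sum.inr (Sum.inr (w.comap (algebraMap K L), k)))

omit [Finite (placesOver K L v3)] in
/-- The weights of the systems below are absolutely summable. -/
lemma summable_aK : Summable fun i => ‖aK G ZK i‖ := by
  have : Finite {v : Place K // v ∈ levK L v3 ∧ v ∉ ({v3} : Set (Place K))} := finite_extra
  let := Fintype.ofFinite {v : Place K // v ∈ levK L v3 ∧ v ∉ ({v3} : Set (Place K))}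
  obtain ⟨C, hC⟩ := exists_bound_prod (fun v i => (ZK.eig i (Sum.inr (Sum.inl v)) : ℂ))
    (Finset.univ : Finset {v : Place K // v ∈ levK L v3 ∧ v ∉ ({v3} : Set (Place K))}).toList
        fun v _ => by
      obtain ⟨M, hM⟩ := EigFam.eig_bound _ _ _ ZK (Sum.inr (Sum.inl v))
      exact ⟨M, fun i => by rw [Complex.norm_real]; exact hM i⟩
  obtain ⟨C', hC'⟩ := exists_bound_prod (fun u i => (ZK.eig i (Sum.inr (Sum.inr (u, k0))) : ℂ))
    (Finset.univ : Finset (InfinitePlace K)).toList fun u _ => by
      obtain ⟨M, hM⟩ := EigFam.eig_bound _ _ _ ZK (Sum.inr (Sum.inr (u, k0)))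
      exact ⟨M, fun i => by rw [Complex.norm_real]; exact hM i⟩
  refine Summable.of_nonneg_of_le (fun i => norm_nonneg _) (fun i => ?_)
    (ZK.summ.mul_right (C * C' ^ 4))
  have h1 := hC i
  have h2 := hC' i
  simp only [Finset.prod_map_toList] at h1 h2
  rw [aK, norm_mul, norm_mul, norm_pow, norm_pow, Complex.norm_real, Real.norm_eq_abs, sq_abs]
  refine mul_le_mul_of_nonneg_left (mul_le_mul ?_ (pow_le_pow_left₀ (norm_nonneg _) h2 4)
    (by positivity) ((norm_nonneg _).trans h1)) (sq_nonneg _)
  exact h1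

end K

section Main

variable {σ : L ≃ₐ[K] L} (hc : Cyc3 K L σ) [IsTotallyComplex K] [IsTotallyComplex L]
  (hS : Stable (σ : L ≃+* L) (placesOver K L v3))
  (hDK : IsFundamentalDomain (PG K) DK ptMeasure) (hDL : IsFundamentalDomain (PG L) DL ptMeasure)
  (ZK : EigFam singleton_sub (norm_singleton G) (extraK G) DK)
  (ZL : EigFam subset_rfl G.norm_w3 (extraL (K := K) (L := L) (v3 := v3)) DL)

/-- Coordinates of a system above. -/
noncomputable def xL (i : ZL.I) (j : JT K L v3) : ℝ := ZL.eig i (jL j)

/-- The weight of a system above: the square of its base eigenvalue times its pairing with its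
transport by `σ`. -/
noncomputable def cL (i : ZL.I) : ℂ :=
  (ZL.lam i : ℂ) ^ 2 * ∫ p, conj (ZL.Φ i (Pt.amap hS p)) * ZL.Φ i p ∂domMeasure DL

/-- The weights of both fields, those above with a minus sign. -/
noncomputable def aAll : ZK.I ⊕ ZL.I → ℂ := Sum.elim (aK G ZK) fun i => -cL G hS ZL i

/-- The coordinates of the systems of both fields. -/
noncomputable def xAll : ZK.I ⊕ ZL.I → JT K L v3 → ℝ := Sum.elim (xK G ZK) (xL G ZL)

omit [IsTotallyComplex K] in
/-- The weights of both fields are absolutely summable. -/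
lemma summable_aAll : Summable fun i => ‖aAll G hS ZK ZL i‖ := by
  refine Summable.sum _ (summable_aK G ZK) ?_
  simpa [Function.comp_def, aAll, cL] using ZL.summ_amap (σ : L ≃+* L) hS

omit [IsTotallyComplex K] [IsTotallyComplex L] in
/-- Each coordinate is bounded over the systems of both fields. -/
lemma exists_bound_xAll (j : JT K L v3) : ∃ M : ℝ, ∀ i, |xAll G ZK ZL i j| ≤ M := by
  obtain ⟨M, hM⟩ := exists_bound_xK G ZK j
  obtain ⟨M', hM'⟩ := EigFam.eig_bound _ _ _ ZL (jL j)
  exact ⟨max M M', fun i => Sum.rec (fun a => (hM a).trans (le_max_left _ _))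
    (fun b => (hM' b).trans (le_max_right _ _)) i⟩

include hc hDK hDL in
/-- **The comparison at a list of coordinates avoiding `v0`**: weighted by the product of the list,
the odd polynomials in the coordinate at `w0` have a continuous density in the Satake angle. -/
theorem exists_density (geo : GeometricStatement K L) {v0 : Place K} (hv0 : v0 ∉ levK L v3)
    {w0 : Place L} (hw0 : LiesOver K L w0 v0) (hn : pnorm w0 = pnorm v0)
    (hw0' : below K w0 ∉ levK L v3) (l : List (JT K L v3)) (hl : ∀ j ∈ l, Avoid v0 j) :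
    ∃ g : ℝ → ℂ, Continuous g ∧ ∀ r : ℝ[X],
      HasSum (fun i => aAll G hS ZK ZL i * (((l.map fun j => xAll G ZK ZL i j).prod *
        (xAll G ZK ZL i (Sum.inl ⟨w0, hw0'⟩) * r.eval (xAll G ZK ZL i (Sum.inl ⟨w0, hw0'⟩) ^ 2)) :
          ℝ) : ℂ))
        (∫ θ in (0 : ℝ)..(2 * Real.pi),
            (((2 * Real.sqrt (pnorm v0)) * Real.cos θ
              * r.eval (((2 * Real.sqrt (pnorm v0)) * Real.cos θ) ^ 2) : ℝ) : ℂ) * g θ) := by
  have : IsFiniteMeasure (domMeasure DK) := isFiniteMeasure_domMeasure hDK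
  have : IsFiniteMeasure (domMeasure DL) := isFiniteMeasure_domMeasure hDL
  -- the test data of the list with `p` put at `w0`, and the operations giving its two kernels
  have hone : ∀ w, LiesOver K L w v0 → (tT l).h w = 1 := fun w hw =>
    hT_eq_one l w fun w' hw' e => hl _ hw' (by rw [e]; exact liesOver_iff_below.1 hw)
  set opK := fun p : ℂ[X] => (Sum.inl ⟨v0, sphKer hv0 p⟩ : Op K (levK L v3)) :: opsK G l
  set opL := fun p : ℂ[X] => (Sum.inl ⟨w0, sphKer (notMem_W3 hw0') p⟩ : Op L (placesOver K L v3)) ::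
    l.map fun j => coordOp extraL (jL j)
  have hK : ∀ p, PEq ((steps (opK p) (AK G)).comp (AK G)) (kerK G σ ((tT l).upd hv0 hw0 p)) :=
      fun p =>
    ((step_comp _ _ _).trans (step_congr _ (kerK_tT G hc l))).trans
      (kerK_upd G hc _ hv0 hw0 hn hone p)
  have hL : ∀ p, PEq ((steps (opL p) (AL G)).comp (AL G)) (kerL G ((tT l).upd hv0 hw0 p)) :=
      fun p =>
    ((step_comp _ _ _).trans (step_congr _ (kerL_tT G l))).trans
      (kerL_upd G _ hv0 hw0 (hone w0 hw0) p)
  have hne : ({v3} : Set (Place K)).Nonempty := Set.singleton_nonempty _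
  have hne' : (placesOver K L v3).Nonempty := exists_liesOver v3
  have hAK : (AK G).Bdd := base_bdd _ _ hne
  have hAL : (AL G).Bdd := base_bdd _ _ hne'
  -- the geometric comparison; each trace is expanded spectrally
  obtain ⟨g, hg, hgr⟩ :=
    geo v3 G σ hc.ne_one inferInstance inferInstance hS DK hDK DL hDL v0 hv0 w0 hw0 hn
    (tT l) hone fun r => ⟨(hK _).bdd ((steps_bdd _ hAK).comp hDK hAK),
      (hL _).bdd ((steps_bdd _ hAL).comp hDL hAL)⟩
  refine ⟨g, hg, fun r => ?_⟩
  rw [← hgr r, sub_eq_add_neg]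
  set p : ℂ[X] := oddP r with hp
  refine HasSum.sum ?_ ?_
  · -- below
    have hid : Stable (RingEquiv.refl K) (levK L v3) := fun v => by
      rw [show mapPlace (RingEquiv.refl K) v = v from
        HeightOneSpectrum.ext (Ideal.ext fun a => mapPlace_asIdeal (RingEquiv.refl K) v a)]
    have hc' : ∀ (i : ZK.I) (q : Pt K (levK L v3)), acts (opK p) (ZK.Φ i) q
        = ((((l.map fun j => xK G ZK i j).prod *
          (xK G ZK i (Sum.inl ⟨w0, hw0'⟩) * r.eval (xK G ZK i (Sum.inl ⟨w0, hw0'⟩) ^ 2)) : ℝ) : ℂ) *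
          (ramProd G ZK i * (∏ u : InfinitePlace K,
            (ZK.eig i (Sum.inr (Sum.inr (u, k0))) : ℂ)) ^ 4))
          * ZK.Φ i q := by
      intro i q
      have h1 := acts_map opKJ (Φ := ZK.Φ i) (fun j => (xK G ZK i j : ℂ)) l fun j _ q =>
        opAct_opKJ G ZK i j q
      have hb : below K w0 = v0 := liesOver_iff_below.1 hw0
      subst hb
      change locAct _ (sphKer hv0 p) (acts (opsK G l) (ZK.Φ i)) q = _
      rw [opsK, acts_append, acts_extOps, acts_smul_fun, h1, locAct_smul_fun, locAct_smul_fun,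
        locAct_sphKer_eval hv0 fun p =>
          (ZK.data i).eig (Sum.inl ⟨below K w0, hw0'⟩) p, hp, eval_oddP]
      have e : xK G ZK i (Sum.inl ⟨w0, hw0'⟩) = ZK.eig i (Sum.inl ⟨below K w0, hw0'⟩) := if_pos hn
      rw [e]
      push_cast
      simp only [ofReal_map_prod]
      ring
    have h := ZK.trace (RingEquiv.refl K) hid (opK p) _ hc'
    rw [show (∫ q in DK, ((steps (opK p) (base singleton_sub (norm_singleton G))).comp
        (base singleton_sub (norm_singleton G))).kap q (Pt.amap hid q) ∂ptMeasure)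
      = ∫ q in DK, (kerK G σ ((tT l).upd hv0 hw0 p)).kap q q ∂ptMeasure from
        integral_congr_ae (Eventually.of_forall fun q => by
          change _ = (kerK G σ ((tT l).upd hv0 hw0 p)).kap q q
          dsimp only
          rw [Pt.amap_refl hid]
          exact (hK p).kap q q)] at h
    refine h.congr_fun fun i => ?_
    change aK G ZK i * _ = _
    simp only [Pt.amap_refl hid, ZK.orth, if_true, aK]
    simp only [xAll, Sum.elim_inl]
    ring
  · -- above
    have hc' : ∀ (i : ZL.I) (q : Pt L (placesOver K L v3)), acts (opL p) (ZL.Φ i) q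
        = (((l.map fun j => xL G ZL i j).prod *
          (xL G ZL i (Sum.inl ⟨w0, hw0'⟩) * r.eval (xL G ZL i (Sum.inl ⟨w0, hw0'⟩) ^ 2)) : ℝ) : ℂ)
          * ZL.Φ i q := by
      intro i q
      have h1 := acts_map (fun j => coordOp extraL (jL j)) (Φ := ZL.Φ i) (fun j =>
        (xL G ZL i j : ℂ)) l fun j _ q => (ZL.data i).eig (jL j) q
      change locAct w0 (sphKer (notMem_W3 hw0') p) (acts (l.map _) (ZL.Φ i)) q = _
      rw [h1, locAct_smul_fun,
        locAct_sphKer_eval (notMem_W3 hw0') fun p =>
          (ZL.data i).eig (jL (Sum.inl ⟨w0, hw0'⟩)) p, hp, eval_oddP]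
      simp only [xL]
      push_cast
      simp only [ofReal_map_prod]
      ring
    have h := (ZL.trace (σ : L ≃+* L) hS (opL p) _ hc').neg
    rw [show (∫ q in DL, ((steps (opL p) (base subset_rfl G.norm_w3)).comp
        (base subset_rfl G.norm_w3)).kap q (Pt.amap hS q) ∂ptMeasure)
      = ∫ q in DL, (kerL G ((tT l).upd hv0 hw0 p)).kap q (Pt.amap hS q) ∂ptMeasure from
        integral_congr_ae (Eventually.of_forall fun q => (hL p).kap q _)] at h
    refine h.congr_fun fun i => ?_
    change -cL G hS ZL i * _ = _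
    simp only [cL, xAll, Sum.elim_inr]
    ring

include hc hDK hDL in
/-- **The atoms are symmetric under the change of sign at `w0`.** -/
theorem atom_flip (geo : GeometricStatement K L) {v0 : Place K} (hv0 : v0 ∉ levK L v3)
    {w0 : Place L} (hw0 : LiesOver K L w0 v0) (hn : pnorm w0 = pnorm v0)
    (hw0' : below K w0 ∉ levK L v3) (y : JT K L v3 → ℝ) (hy : y (Sum.inl ⟨w0, hw0'⟩) ≠ 0) :
    let j0 : {j : JT K L v3 // Allowed v0 w0 j} := ⟨Sum.inl ⟨w0, hw0'⟩, fun _ => rfl⟩
    atom (aAll G hS ZK ZL) (fun i (j : {j : JT K L v3 // Allowed v0 w0 j}) => xAll G ZK ZL i j.1)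
      (fun j => y j.1)
      = atom (aAll G hS ZK ZL)
          (fun i (j : {j : JT K L v3 // Allowed v0 w0 j}) => xAll G ZK ZL i j.1)
          (setCoord j0 (-(y (Sum.inl ⟨w0, hw0'⟩))) fun j => y j.1) := by
  intro j0
  have hR : (0 : ℝ) < 2 * Real.sqrt (pnorm v0) := by
    have h0 : 0 < pnorm v0 := Nat.pos_of_ne_zero fun h => v0.ne_bot (Ideal.absNorm_eq_zero_iff.1 h)
    have : (0 : ℝ) < (pnorm v0 : ℝ) := by exact_mod_cast h0
    positivity
  refine atom_eq_flip_of_lists (summable_aAll G hS ZK ZL) (exists_bound_xAll G ZK ZL)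
    (av := Avoid v0) (fun j hj => ?_) j0 (fun j hne => ?_) hR
    (fun l hl => exists_density G hc hS hDK hDL ZK ZL geo hv0 hw0 hn hw0' l hl) y hy
  · rcases j with (w | w)
    · exact fun e => absurd e hj
    · trivial
  · rcases j with ⟨(w | w), hok⟩
    · exact fun e => hne (Subtype.ext (congrArg Sum.inl (Subtype.ext (hok e))))
    · trivial

end Main

end Fermat.LT.Sys
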