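import Fermat.Agent.LT.Sys.Assembly

/-!
# Systems: the descent theorem

`descent_of_geometric`: the geometric comparison of the traces on `K` and `L` gives
`DescentStatement`. The unique system of `Assembly` is the form on `K`; the automorphisms of `K`
send it to itself by uniqueness (`exists_flip` adjusts the characters at the ramified places).
`Proved` supplies the comparison.
-/

set_option autoImplicit false
open MeasureTheory Filter Set NumberField
open scoped Classical

namespace Fermat.LT.Sys

variable {K L : Type} [Field K] [NumberField K] [Field L] [NumberField L] [Algebra K L]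
  {v3 : Place K} {lam : Place L → ℝ}

section Flip

variable (G : GeoData K L v3) [Finite (levK L v3)]

/-- A nonzero joint eigenfunction fixed at each further place of the level by the idempotent of
some cubic character gives one fixed there by the chosen idempotents `extraK`. -/
theorem exists_flip {eg : {v : Place K // v ∉ levK L v3} → ℝ} {ea : InfinitePlace K × Rad → ℝ}
    {Φ : Pt K (levK L v3) → ℂ} (hJ : Joint singleton_sub (norm_singleton G) eg ea Φ) (h0 : Φ ≠ 0)
    (hfix : ∀ v : {v : Place K // v ∈ levK L v3 ∧ v ∉ ({v3} : Set (Place K))},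
      ∃ (χ : MulChar (Res v.1) ℂ) (h : IsCub χ), ∀ p, locAct v.1 (rKer h v.2.1) Φ p = Φ p) :
    ∃ Y : Pt K (levK L v3) → ℂ, Joint singleton_sub (norm_singleton G) eg ea Y ∧ Y ≠ 0 ∧
      ∀ v p, locAct v.1 ((extraK G).ker v) Y p = Y p := by
  have : Finite {v : Place K // v ∈ levK L v3 ∧ v ∉ ({v3} : Set (Place K))} := finite_extra
  let := Fintype.ofFinite {v : Place K // v ∈ levK L v3 ∧ v ∉ ({v3} : Set (Place K))}
  -- change the character one place at a time
  have key : ∀ T : Finset {v : Place K // v ∈ levK L v3 ∧ v ∉ ({v3} : Set (Place K))},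
      ∃ Y : Pt K (levK L v3) → ℂ, Joint singleton_sub (norm_singleton G) eg ea Y ∧ Y ≠ 0 ∧
        (∀ v ∈ T, ∀ p, locAct v.1 ((extraK G).ker v) Y p = Y p) ∧
        ∀ v ∉ T, ∃ (χ : MulChar (Res v.1) ℂ) (h : IsCub χ), ∀ p, locAct v.1 (rKer h v.2.1) Y p =
            Y p := by
    intro T
    induction T using Finset.induction with
    | empty => exact ⟨Φ, hJ, h0, fun v hv => absurd hv (by simp), fun v _ => hfix v⟩
    | insert v T hv ih =>
      obtain ⟨Y, hY, hY0, hYT, hYn⟩ := ih
      obtain ⟨χ, hχ, hYv⟩ := hYn v hv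
      have hθ := isCub_cubChar (G.ram_mod3 v.1 (mem_ramSet_of_extra v))
      have hker : (extraK G).ker v = rKer hθ v.2.1 := ramKer_eq hθ v.2.1
      have hne : ∀ u : {v : Place K // v ∈ levK L v3 ∧ v ∉ ({v3} : Set (Place K))},
          u ≠ v → u.1 ≠ v.1 :=
        fun u h e => h (Subtype.ext e)
      obtain ⟨Y', hY', hY'0, hY'v, hY'u⟩ : ∃ Y' : Pt K (levK L v3) → ℂ,
          Joint singleton_sub (norm_singleton G) eg ea Y' ∧ Y' ≠ 0 ∧
          (∀ p, locAct v.1 (rKer hθ v.2.1) Y' p = Y' p) ∧
          ∀ u : {v : Place K // v ∈ levK L v3 ∧ v ∉ ({v3} : Set (Place K))}, u ≠ v →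
            ∀ l : LKer (levK L v3) u.1,
            (∀ p, locAct u.1 l Y p = Y p) → ∀ p, locAct u.1 l Y' p = Y' p := by
        rcases isCub_dichotomy hχ hθ with rfl | rfl
        · exact ⟨Y, hY, hY0, hYv, fun u _ l hl => hl⟩
        · obtain ⟨Z, Z', h1, h2⟩ := rKer_intertwine hθ v.2.1
          refine ⟨fun p => locAct v.1 Z Y p, hY.locAct v.2.1 Z fun hh => absurd hh v.2.2,
            fun h => hY0 ?_,
            fun p => by rw [← locAct_comp, h1], fun u hu l hl p => ?_⟩
          · funext p
            rw [← hYv p, ← h2, locAct_comp, show locAct v.1 Z Y = 0 from h]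
            simp [locAct]
          · rw [locAct_comm (hne u hu), show locAct u.1 l Y = Y from funext hl]
      refine ⟨Y', hY', hY'0, fun u hu => ?_, fun u hu => ?_⟩
      · by_cases huv : u = v
        · subst huv; rw [hker]; exact hY'v
        · exact hY'u u huv _ (hYT u ((Finset.mem_insert.1 hu).resolve_left huv))
      · rw [Finset.mem_insert, not_or] at hu
        obtain ⟨χ', hχ', hu'⟩ := hYn u hu.2
        exact ⟨χ', hχ', hY'u u hu.1 _ hu'⟩
  obtain ⟨Y, hY, hY0, hYT, -⟩ := key Finset.univ
  exact ⟨Y, hY, hY0, fun v => hYT v (Finset.mem_univ v)⟩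

end Flip

/-- **The descent, from the geometric comparison.** -/
theorem descent_of_geometric (geo : GeometricStatement K L) : DescentStatement K L := by
  intro v3 lam d
  have G := geoData d
  obtain ⟨σ, hc⟩ := exists_sigma d
  have := d.totallyComplexK
  have : IsTotallyComplex L := NumberField.isTotallyComplex_of_algebra K L
  have : Finite (levK L v3) := ((finite_ramSet (K := K) (L := L)).insert v3).to_subtype
  have : Finite (placesOver K L v3) := (hc.finite_placesOver v3).to_subtype
  have hS := stable_placesOver hc v3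
  -- spectral families on both fields, and the system below with the eigenvalues of the form
  obtain ⟨DK, -, hDK⟩ := exists_ptDomain (F := K) (S := levK L v3)
  obtain ⟨DL, -, hDL⟩ := exists_ptDomain (F := L) (S := placesOver K L v3)
  obtain ⟨ZK⟩ :=
    exists_eigFam singleton_sub (norm_singleton G) (extraK G) (Set.singleton_nonempty v3) hDK
  obtain ⟨ZL⟩ := exists_eigFam subset_rfl G.norm_w3 (extraL (K := K) (L := L) (v3 := v3))
    (show (placesOver K L v3).Nonempty from exists_liesOver v3) hDL
  obtain ⟨i0, hi0, hram, huniq⟩ := exists_unique_sys d G hc hS hDK hDL ZK ZL geo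
  set Φ := ZK.Φ i0
  have hJ := (ZK.data i0).joint
  have harch : ∀ u k, (ZK.eig i0 (Sum.inr (Sum.inr (u, k))) : ℂ) = hhat0 k.1 := fun u k => by
    rw [eig_arch G ZK hi0 u k, eaZero_eq]
  refine ⟨fun v => if h : v ∈ levK L v3 then 0 else ZK.eig i0 (Sum.inl ⟨v, h⟩), Φ,
    hJ.isForm (ZK.nonzero i0) harch fun v => by
      rw [dif_neg v.2], fun v hv p => ?_, fun v hv w hw => ?_,
    fun g v hv => ?_⟩
  · -- fixed at the ramified places
    have hv3 : v ∉ ({v3} : Set (Place K)) := fun e => G.v3_unram (Set.mem_singleton_iff.1 e ▸ hv)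
    have h : locAct v ((extraK G).ker ⟨v, Set.mem_insert_of_mem v3 hv, hv3⟩) Φ p
        = (ZK.eig i0 (Sum.inr (Sum.inl ⟨v, Set.mem_insert_of_mem v3 hv, hv3⟩)) : ℂ) * Φ p :=
      (ZK.data i0).eig (Sum.inr (Sum.inl ⟨v, Set.mem_insert_of_mem v3 hv, hv3⟩)) p
    rw [hram, Complex.ofReal_one, one_mul] at h
    exact h
  · -- the eigenvalues lift
    obtain rfl := liesOver_iff_below.1 hw
    have h := hi0 (Sum.inl ⟨w, hv⟩)
    simp only [xK, x0, Sum.elim_inl, bcVal] at h
    simp only [dif_neg hv]
    constructor <;> intro hn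
    · rw [← h, if_pos hn]
    · rw [← h, if_neg hn]
  · -- stability: the transport by `g` lies in the same system
    have hgS := stable_levK d g
    have hgv : mapPlace g v ∉ levK L v3 := fun h => hv ((hgS v).1 h)
    simp only [dif_neg hv, dif_neg hgv]
    have hgE : ∀ u, mapPlace g u ∈ ({v3} : Set (Place K)) ↔ u ∈ ({v3} : Set (Place K)) :=
        fun u => by
      rw [Set.mem_singleton_iff, Set.mem_singleton_iff]
      exact ⟨fun h => (mapPlace g).injective (h.trans (d.v3_fixed g).symm),
        fun h => by rw [h]; exact d.v3_fixed g⟩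
    have hJ' := hJ.amap hgS hgE
    obtain ⟨p0, hp0⟩ := amapFun_nonzero hgS (ZK.nonzero i0)
    obtain ⟨Y, hY, hY0, hYr⟩ := exists_flip G hJ' (fun h => hp0 (congrFun h p0)) fun u => by
      have huS : mapPlace g u.1 ∈ levK L v3 := (hgS u.1).2 u.2.1
      have hu3 : mapPlace g u.1 ∉ ({v3} : Set (Place K)) := fun h => u.2.2 ((hgE u.1).1 h)
      have hθ := isCub_cubChar (G.ram_mod3 _ (mem_ramSet_of_extra ⟨_, huS, hu3⟩))
      obtain ⟨χ, h', hχ⟩ := exists_rKer_amap hgS rfl u.2.1 huS hθ
      refine ⟨χ, h', fun p => ?_⟩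
      rw [locAct_amap hgS rfl (l' := rKer hθ huS) hχ]
      have h : locAct (mapPlace g u.1) ((extraK G).ker ⟨_, huS, hu3⟩) Φ (Pt.amap hgS p)
          = (ZK.eig i0 (Sum.inr (Sum.inl ⟨_, huS, hu3⟩)) : ℂ) * Φ (Pt.amap hgS p) :=
        (ZK.data i0).eig (Sum.inr (Sum.inl ⟨_, huS, hu3⟩)) _
      rw [hram, Complex.ofReal_one, one_mul, show (extraK G).ker ⟨_, huS, hu3⟩ = rKer hθ huS from
        ramKer_eq hθ huS] at h
      exact h
    -- with the chosen idempotents it expands in members, whose eigenvalues are those of `i0`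
    have hYF := hY.eigFun (Y := extraK G) (ex := fun _ => 1) fun u p => by
      rw [hYr, Complex.ofReal_one, one_mul]
    obtain ⟨s, c, hs, hYs⟩ := ZK.expand _ Y hYF fun u p => by
      rw [show archAct u k0.ker Y p = _ from hY.arch u k0 p]
      congr 1
      exact harch _ k0
    obtain ⟨k, hk⟩ : s.Nonempty := Finset.nonempty_iff_ne_empty.2 fun e => hY0 (by
      rw [hYs, e]; funext p; simp)
    have he := hs k hk
    obtain ⟨τ, hτ⟩ := exists_extend d g
    have hk' : k ∈ sysK G ZK lam := by
      intro j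
      rcases j with ⟨w, hw⟩ | ⟨w, k'⟩
      · have hb : below K (mapPlace τ w) = mapPlace g (below K w) :=
          liesOver_iff_below.1 (liesOver_mapPlace hτ (liesOver_below w))
        have hτw : below K (mapPlace τ w) ∉ levK L v3 := by
          rw [hb]; exact fun h => hw ((hgS _).1 h)
        have h1 := hi0 (Sum.inl ⟨mapPlace τ w, hτw⟩)
        simp only [xK, x0, Sum.elim_inl, he, mkCoord] at h1 ⊢
        rw [← d.invariant τ w (notMem_W3 hw), ← h1]
        simp only [bcVal, pnorm_mapPlace, hb]
      · change ZK.eig k _ = _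
        rw [he]
        exact eig_arch G ZK hi0 _ k'
    have hkk := huniq k hk' fun u => by rw [he]; rfl
    have := congrFun (he.symm.trans hkk) (Sum.inl ⟨v, hv⟩)
    exact this

end Fermat.LT.Sys
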