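import Fermat.Agent.LT.HSTrace

/-!
# Systems: integral operators along an orthonormal basis, and finite expansions in it

The Hilbert space lemmas behind `exists_eigFam` (`Trace`): the trace of `A* B` along the basis
vectors not killed by `A` (`hasSum_inner_op_subtype`), and vectors meeting only finitely many
members are finite combinations of representatives (`eq_finite_expansion`).
-/

set_option autoImplicit false
open MeasureTheory Filter
open scoped InnerProductSpace ComplexConjugate

namespace Fermat.LT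

variable {α : Type*} [MeasurableSpace α] {μ : Measure α}

/-- Representatives of distinct members of an orthonormal family are orthonormal. -/
lemma integral_conj_mul_of_orthonormal {ι J : Type*} [DecidableEq J] {v : ι → α →₂[μ] ℂ}
    (hv : Orthonormal ℂ v) {f : J → ι} (hf : Function.Injective f) {Φ : J → α → ℂ}
    (hΦ : ∀ i, Φ i =ᵐ[μ] v (f i)) (i k : J) :
    ∫ p, conj (Φ i p) * Φ k p ∂μ = if i = k then 1 else 0 := by
  classical
  have h := orthonormal_iff_ite.1 hv (f i) (f k)
  rw [L2.inner_def, if_congr hf.eq_iff rfl rfl] at h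
  rw [← h]
  refine integral_congr_ae ?_
  filter_upwards [hΦ i, hΦ k] with p h1 h2
  rw [RCLike.inner_apply, ← h1, ← h2, mul_comm]

/-- A representative of a member of an orthonormal family does not vanish identically. -/
lemma exists_ne_zero_of_integral_eq_one {Φ : α → ℂ} (h : ∫ p, conj (Φ p) * Φ p ∂μ = 1) :
    ∃ p, Φ p ≠ 0 := by
  by_contra! h'
  simp [h'] at h

section Inner

variable {E : Type*} [NormedAddCommGroup E] [InnerProductSpace ℂ E]

/-- Eigenvalues of a symmetric operator on two non-orthogonal vectors agree. -/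
lemma conj_eigenvalue_eq {T : E →ₗ[ℂ] E} (hT : T.IsSymmetric) {x y : E} (hxy : ⟪x, y⟫_ℂ ≠ 0)
    {c d : ℂ} (hx : T x = c • x) (hy : T y = d • y) : conj c = d := by
  have h := hT x y
  rw [hx, hy, inner_smul_left, inner_smul_right] at h
  exact mul_right_cancel₀ hxy h

/-- A vector meeting finitely many members of a basis expands in their representatives. -/
lemma eq_finite_expansion {ι J β : Type*} (b : HilbertBasis ι ℂ E) (f : J → ι)
    (hf : Function.Injective f) (G : E → β → ℂ)
    (hG : ∀ (s : Finset ι) (a : ι → ℂ) p, G (∑ x ∈ s, a x • b x) p = ∑ x ∈ s, a x * G (b x) p)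
    {lam : J → ℂ} {Φ : J → β → ℂ} (hΦ : ∀ i p, G (b (f i)) p = lam i * Φ i p)
    {ψ : E} {c : ℂ} (hc : c ≠ 0) {Ψ : β → ℂ} (hψ : ∀ p, G ψ p = c * Ψ p) (t : Finset J)
    (hlam : ∀ i ∈ t, lam i = c) (hsupp : ∀ x, ⟪b x, ψ⟫_ℂ ≠ 0 → ∃ i ∈ t, f i = x) :
    Ψ = fun p => ∑ i ∈ t, ⟪b (f i), ψ⟫_ℂ * Φ i p := by
  have hsum : ψ = ∑ x ∈ t.map ⟨f, hf⟩, ⟪b x, ψ⟫_ℂ • b x := by
    have h := b.hasSum_repr ψ
    simp only [b.repr_apply_apply] at h
    refine h.unique (hasSum_sum_of_ne_finset_zero fun x hx => ?_)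
    by_contra hne
    obtain ⟨i, hi, hix⟩ := hsupp x fun h0 => hne (by rw [h0, zero_smul])
    exact hx (Finset.mem_map.2 ⟨i, hi, hix⟩)
  funext p
  have h := hG (t.map ⟨f, hf⟩) (fun x => ⟪b x, ψ⟫_ℂ) p
  rw [← hsum, hψ, Finset.sum_map] at h
  refine mul_left_cancel₀ hc (h.trans ?_)
  rw [Finset.mul_sum]
  refine Finset.sum_congr rfl fun i hi => ?_
  change ⟪b (f i), ψ⟫_ℂ * G (b (f i)) p = _
  rw [hΦ, hlam i hi]
  ring

end Inner

/-- A square summable family takes a nonzero value only finitely often. -/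
lemma finite_level_of_summable_sq {J : Type*} {f : J → ℝ} (h : Summable fun i => f i ^ 2) {c : ℂ}
    (hc : c ≠ 0) : {i | (f i : ℂ) = c}.Finite := by
  have h0 : (0 : ℝ) < ‖c‖ ^ 2 := by positivity
  refine (h.tendsto_cofinite_zero.eventually (gt_mem_nhds h0)).subset fun i hi => ?_
  simp only [Set.mem_compl_iff, Set.mem_ofPred_eq, not_lt] at hi ⊢
  rw [← hi, Complex.norm_real, Real.norm_eq_abs, sq_abs]

namespace SqKernel

variable [SFinite μ] {ι : Type*}

/-- The Hilbert–Schmidt series converges. -/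
lemma summable_norm_op_sq (A : SqKernel μ) {v : ι → α →₂[μ] ℂ} (hv : Orthonormal ℂ v) :
    Summable fun i => ‖A.op (v i)‖ ^ 2 :=
  summable_of_sum_le (fun _ => sq_nonneg _) fun s => A.sum_norm_op_sq_le hv s

/-- The matrix coefficients of two operators along an orthonormal family are summable. -/
lemma summable_norm_inner_op (A B : SqKernel μ) {v : ι → α →₂[μ] ℂ} (hv : Orthonormal ℂ v) :
    Summable fun i => ‖⟪A.op (v i), B.op (v i)⟫_ℂ‖ := by
  refine Summable.of_nonneg_of_le (fun _ => norm_nonneg _) (fun i => ?_)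
    ((A.summable_norm_op_sq hv).add (B.summable_norm_op_sq hv))
  refine (norm_inner_le_norm _ _).trans ?_
  nlinarith [sq_nonneg (‖A.op (v i)‖ - ‖B.op (v i)‖), norm_nonneg (A.op (v i)),
    norm_nonneg (B.op (v i))]

/-- The trace of `A* B` over the basis vectors not killed by `A`. -/
lemma hasSum_inner_op_subtype (A B : SqKernel μ) [Countable ι] (b : HilbertBasis ι ℂ (α →₂[μ] ℂ))
    {P : ι → Prop} (h0 : ∀ i, ¬ P i → A.op (b i) = 0) :
    HasSum (fun i : {i // P i} => ⟪A.op (b i), B.op (b i)⟫_ℂ)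
      (∫ x, ∫ y, conj (A.toFun x y) * B.toFun x y ∂μ ∂μ) := by
  refine (hasSum_subtype_iff_of_support_subset (s := {i | P i}) fun i hi => ?_).2
    (A.hasSum_inner_op B b)
  by_contra hP
  exact hi (show ⟪A.op (b i), B.op (b i)⟫_ℂ = 0 by rw [h0 i hP, inner_zero_left])

end SqKernel

end Fermat.LT
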