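import Fermat.Agent.LT.Sys.Trace

/-!
# Systems: joint eigenfunctions at the good and infinite places; operations at
the level preserve them

`Joint` forgets the eigenvalues at the further places of the level. It is what a form gives
(`joint_of_isForm`) and, with parameter zero, what gives a form back (`Joint.isForm`);
`Joint.locAct` lets the matrix units of `Units` act on it.
-/

set_option autoImplicit false
open MeasureTheory Filter Set NumberField Polynomial
open scoped Classical ComplexConjugate

namespace Fermat.LT.Sys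

variable {F : Type} [Field F] [NumberField F] {S E : Set (Place F)}

/-- A local operation preserves continuity at infinity. -/
lemma continuous_locAct {v : Place F} (l : LKer S v) {Φ : Pt F S → ℂ}
    (hc : ∀ ω, Continuous fun x : InfinitePlace F → H3 => Φ (ω, x)) (ω : FinPt F S) :
    Continuous fun x : InfinitePlace F → H3 => locAct v l Φ (ω, x) := by
  change Continuous fun x : InfinitePlace F →
    H3 => ∑ y ∈ l.row (ω.1 v), l (ω.1 v) y * Φ (ω.set v y, x)
  exact continuous_finsetSum _ fun y _ => continuous_const.mul (hc _)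

/-- A local operation preserves boundedness. -/
lemma bounded_locAct {v : Place F} (l : LKer S v) {Φ : Pt F S → ℂ} (hb : ∃ C : ℝ, ∀ p, ‖Φ p‖ ≤ C) :
    ∃ C : ℝ, ∀ p, ‖locAct v l Φ p‖ ≤ C := by
  obtain ⟨C, hC⟩ := hb
  exact ⟨_, norm_locAct_le v l hC⟩

/-- A local operation preserves invariance. -/
lemma isInvariant_locAct [Finite S] {v : Place F} (l : LKer S v) {Φ : Pt F S → ℂ}
    (h : IsInvariant Φ) :
    IsInvariant fun p => locAct v l Φ p := by
  refine isInvariant_iff.2 fun g p => ?_
  rw [locAct_eq_finsum, locAct_eq_finsum]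
  refine (finsum_eq_of_bijective (g • ·) (MulAction.bijective g) fun y => ?_).symm
  change l (p.1.1 v) y * Φ (p.1.set v y, p.2) =
    l ((g • p).1.1 v) (g • y) * Φ ((g • p).1.set v (g • y), (g • p).2)
  rw [Pt.smul_fst, FinPt.smul_apply, l.invariant, ← isInvariant_iff.1 h g (p.1.set v y, p.2)]
  congr 2
  refine Prod.ext ?_ rfl
  change g • p.1.set v y = _
  rw [FinPt.smul_set]

/-- Archimedean and local actions commute on continuous bounded functions. -/
lemma archAct_locAct {v : Place F} (l : LKer S v) (u : InfinitePlace F) (a : AKer) {Φ : Pt F S → ℂ}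
    (hc : ∀ ω, Continuous fun x : InfinitePlace F → H3 => Φ (ω, x)) (hb : ∃ C : ℝ, ∀ p, ‖Φ p‖ ≤ C)
    (p : Pt F S) : archAct u a (locAct v l Φ) p = locAct v l (archAct u a Φ) p := by
  obtain ⟨C, hC⟩ := hb
  simp only [archAct, locAct, Finset.mul_sum]
  rw [integral_finsetSum]
  · refine Finset.sum_congr rfl fun y _ => ?_
    rw [← integral_const_mul]
    congr 1
    funext z
    ring
  · intro y _
    refine (a.integrable (p.2 u)).mul_bdd ?_ (c := ‖l (p.1.1 v) y‖ * C)
      (Eventually.of_forall fun z => ?_)
    · exact (continuous_const.mul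
        ((hc _).comp (continuous_const.update u continuous_id))).aestronglyMeasurable
    · rw [norm_mul]; exact mul_le_mul_of_nonneg_left (hC _) (norm_nonneg _)

/-- On an eigenfunction of `T₁` the kernel of `q(T₁)` acts by `q` of the eigenvalue. -/
lemma locAct_sphKer_eval {v : Place F} (hv : v ∉ S) {Φ : Pt F S → ℂ} {e : ℂ}
    (h : ∀ p, locAct v (sphKer hv X) Φ p = e * Φ p) (q : ℂ[X]) (p : Pt F S) :
    locAct v (sphKer hv q) Φ p = q.eval e * Φ p := by
  induction q using Polynomial.induction_on generalizing p with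
  | C c =>
    rw [locAct_linear c 0 (k₁ := LKer.one S v) (k₂ := LKer.one S v) fun a b => by
      rw [← mul_one (Polynomial.C c), sphKer_C_mul, sphKer_one]; ring]
    simp [locAct_one]
  | add f g hf hg =>
    rw [locAct_linear 1 1 (k₁ := sphKer hv f) (k₂ := sphKer hv g) fun a b => by
      rw [sphKer_add]; ring, hf, hg, eval_add]
    ring
  | monomial n c ih =>
    have e' : Polynomial.C c * X ^ (n + 1) = X * (Polynomial.C c * X ^ n) := by ring
    rw [e', ← sphKer_X_comp hv, locAct_comp,
      show locAct v (sphKer hv (Polynomial.C c * X ^ n)) Φ =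
        fun q => (Polynomial.C c * X ^ n).eval e * Φ q from
        funext ih, locAct_smul_fun, h, eval_mul (p := X), eval_X]
    ring

variable [Finite S]

/-- Eigenfunction at the good finite and at the infinite places. -/
structure Joint (hE : E ⊆ S) (hn : ∀ v ∈ E, pnorm v = 3) (eg : {v : Place F // v ∉ S} → ℝ)
    (ea : InfinitePlace F × Rad → ℝ) (Φ : Pt F S → ℂ) : Prop where
  /-- The function is invariant under `GL₂(F)`. -/
  invariant : IsInvariant Φ
  /-- The function is continuous in the archimedean variables. -/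
  continuous : ∀ ω : FinPt F S, Continuous fun x : InfinitePlace F → H3 => Φ (ω, x)
  /-- The function is bounded. -/
  bounded : ∃ C : ℝ, ∀ p, ‖Φ p‖ ≤ C
  /-- The cuspidal idempotents at the places of `E` fix the function. -/
  fixE : ∀ v (h : v ∈ E) p, locAct v (eKer (hn v h) (hE h)) Φ p = Φ p
  /-- Outside `S` the neighbour kernel at `v` acts by `eg v`. -/
  good : ∀ (v : {v : Place F // v ∉ S}) p, locAct v.1 (sphKer v.2 X) Φ p = (eg v : ℂ) * Φ p
  /-- Each radial kernel `k` at an infinite place `u` acts by `ea (u, k)`. -/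
  arch : ∀ (u : InfinitePlace F) (k : Rad) p, archAct u k.ker Φ p = (ea (u, k) : ℂ) * Φ p

variable {hE : E ⊆ S} {hn : ∀ v ∈ E, pnorm v = 3} {eg : {v : Place F // v ∉ S} → ℝ}
  {ea : InfinitePlace F × Rad → ℝ} {Φ : Pt F S → ℂ}

omit [Finite S] in
/-- An eigenfunction of the family is a joint eigenfunction. -/
lemma EigFun.joint {Y : Extra F S E} {e : Coord F S E → ℝ} (h : EigFun hE hn Y e Φ) :
    Joint hE hn (fun v => e (Sum.inl v)) (fun j => e (Sum.inr (Sum.inr j))) Φ :=
  ⟨h.invariant, h.continuous, h.bounded, h.fixE, fun v p => h.eig (Sum.inl v) p,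
    fun u k p => h.eig (Sum.inr (Sum.inr (u, k))) p⟩

/-- Eigenvalues at all coordinates from those at the three kinds. -/
def mkCoord (eg : {v : Place F // v ∉ S} → ℝ) (ex : {v : Place F // v ∈ S ∧ v ∉ E} → ℝ)
    (ea : InfinitePlace F × Rad → ℝ) : Coord F S E → ℝ :=
  Sum.elim eg (Sum.elim ex ea)

omit [Finite S] in
/-- A joint eigenfunction which is also an eigenfunction at the extra places is one for the
family. -/
lemma Joint.eigFun (h : Joint hE hn eg ea Φ) {Y : Extra F S E}
    {ex : {v : Place F // v ∈ S ∧ v ∉ E} → ℝ}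
    (hx : ∀ v p, locAct v.1 (Y.ker v) Φ p = (ex v : ℂ) * Φ p) :
    EigFun hE hn Y (mkCoord eg ex ea) Φ :=
  ⟨h.invariant, h.continuous, h.bounded, h.fixE, fun j => by
    rcases j with v | v | ⟨u, k⟩
    · exact h.good v
    · exact hx v
    · exact h.arch u k⟩

omit [Finite S] in
/-- Parameter zero eigenvalues at infinity give `IsArchEigen`. -/
lemma Joint.archEigen (h : Joint hE hn eg ea Φ)
    (ha : ∀ u k, (ea (u, k) : ℂ) = hhat0 k.1) : IsArchEigen Φ := by
  intro u k hk hs p
  rw [← ha u ⟨k, hk, hs⟩, ← h.arch u ⟨k, hk, hs⟩ p, archAct_rad u _ h.continuous]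

omit [Finite S] in
/-- A joint eigenfunction has the cuspidal type on `E`. -/
lemma Joint.isCuspType (h : Joint hE hn eg ea Φ) {v : Place F} (hv : v ∈ E) : IsCuspType v Φ :=
  (isCuspType_iff_locAct (hn v hv) (hE hv) Φ).2 (h.fixE v hv)

omit [Finite S] in
/-- A nonzero joint eigenfunction with these eigenvalues is a form. -/
lemma Joint.isForm (h : Joint hE hn eg ea Φ) (h0 : ∃ p, Φ p ≠ 0)
    (ha : ∀ u k, (ea (u, k) : ℂ) = hhat0 k.1) {lam : Place F → ℝ}
    (hl : ∀ v : {v // v ∉ S}, eg v = lam v.1) :
    IsForm S E lam Φ :=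
  ⟨h0, h.invariant, h.continuous, h.bounded, h.archEigen ha, fun v hv => h.isCuspType hv,
      fun v hv p => by
    rw [heckeT_eq_locAct hv, h.good ⟨v, hv⟩, hl ⟨v, hv⟩]⟩

omit [Finite S] in
/-- A form is a joint eigenfunction with its own eigenvalues. -/
lemma joint_of_isForm {lam : Place F → ℝ} (h : IsForm S E lam Φ) :
    Joint hE hn (fun v => lam v.1) (fun j => (hhat0 j.2.1).re) Φ :=
  ⟨h.invariant, h.continuous, h.bounded, fun v hv =>
    (isCuspType_iff_locAct (hn v hv) (hE hv) Φ).1 (h.cuspType v hv),
    fun v p => by rw [← heckeT_eq_locAct v.2]; exact h.hecke v.1 v.2 p,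
    fun u k p => by
      rw [IsArchEigen.archAct_eq h.arch h.continuous, Complex.conj_eq_iff_re.1 (hhat0_real k.1)]⟩

/-- An operation at the level absorbed by the idempotents on `E` preserves joint eigenfunctions. -/
lemma Joint.locAct (h : Joint hE hn eg ea Φ) {v : Place F} (hvS : v ∈ S) (l : LKer S v)
    (hl : ∀ hv : v ∈ E, (eKer (hn v hv) (hE hv)).comp l = l) :
    Joint hE hn eg ea (locAct v l Φ) where
  invariant := isInvariant_locAct l h.invariant
  continuous := continuous_locAct l h.continuous
  bounded := bounded_locAct l h.bounded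
  fixE u hu p := by
    by_cases huv : u = v
    · subst huv; rw [← locAct_comp, hl hu]
    · rw [locAct_comm huv, show Fermat.LT.locAct u (eKer (hn u hu) (hE hu)) Φ = Φ from
        funext (h.fixE u hu)]
  good u p := by
    rw [locAct_comm (fun e : u.1 = v => u.2 (e ▸ hvS)),
      show Fermat.LT.locAct u.1 (sphKer u.2 X) Φ = fun q => (eg u : ℂ) * Φ q from funext (h.good u),
        locAct_smul_fun]
  arch u k p := by
    rw [archAct_locAct l u k.ker h.continuous h.bounded,
      show archAct u k.ker Φ = fun q => (ea (u, k) : ℂ) * Φ q from funext (h.arch u k),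
        locAct_smul_fun]

end Fermat.LT.Sys
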