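import Fermat.Agent.LT.Sys.Joint
import Fermat.Agent.LT.LocMap

/-!
# Systems: operations and field automorphisms

`Joint.amap`: transport by an automorphism gives a joint eigenfunction with permuted eigenvalues.
It is used for `σ` on `L` (`AtomL`) and for the automorphisms of `K` (`Descent`).
-/

set_option autoImplicit false
open MeasureTheory Filter Set NumberField Polynomial IsDedekindDomain
open scoped Classical

namespace Fermat.LT.Sys

variable {F : Type} [Field F] [NumberField F] {S E : Set (Place F)}

/-- An automorphism maps vertices bijectively. -/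
lemma Vert.amap_bijective {τ : F ≃+* F} (hS : Stable τ S) {v u : Place F} (hu : mapPlace τ v = u) :
    Function.Bijective (Vert.amap hS hu) := by
  have hf : ∀ x, u.valuation F ((τ : F →+* F) x) = v.valuation F x := fun x => by
    rw [← hu]; exact valuation_mapPlace τ v x
  have hSi : v ∈ S ↔ u ∈ S := by rw [← hu, hS v]
  refine ⟨fun a b h => ?_, fun a => ?_⟩
  · obtain ⟨g, rfl⟩ := QuotientGroup.mk_surjective a
    obtain ⟨g', rfl⟩ := QuotientGroup.mk_surjective b
    exact Vert.fmap_injective (τ : F →+* F) hf hSi h
  · obtain ⟨g, rfl⟩ := QuotientGroup.mk_surjective a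
    exact ⟨((mapGL τ.symm g : GL (Fin 2) F) : Vert S v),
      congrArg _ (Units.ext (Matrix.ext fun i j => τ.apply_symm_apply _))⟩

/-- The components of the image of a finite point. -/
lemma Vert.amap_apply_congr {τ : F ≃+* F} (hS : Stable τ S) (ν : FinPt F S) {v u : Place F}
    (hu : mapPlace τ v = u) : (FinPt.amap hS ν).1 u = Vert.amap hS hu (ν.1 v) := by
  obtain ⟨g, hg⟩ := QuotientGroup.mk_surjective (ν.1 v)
  rw [FinPt.amap_apply hS ν hu hg.symm, ← hg, Vert.amap_mk]

/-- Transport commutes with setting a component. -/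
lemma FinPt.amap_set {τ : F ≃+* F} (hS : Stable τ S) (ν : FinPt F S) {v u : Place F}
    (hu : mapPlace τ v = u) (y : Vert S v) :
    FinPt.amap hS (ν.set v y) = (FinPt.amap hS ν).set u (Vert.amap hS hu y) := by
  refine Subtype.ext (funext fun w => ?_)
  by_cases hw : w = u
  · subst hw
    rw [FinPt.set_self, Vert.amap_apply_congr hS _ hu, FinPt.set_self]
  · have hw' : mapPlace τ ((mapPlace τ).symm w) = w := Equiv.apply_symm_apply _ _
    rw [FinPt.set_of_ne _ hw, Vert.amap_apply_congr hS _ hw', Vert.amap_apply_congr hS _ hw',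
      FinPt.set_of_ne]
    intro e
    exact hw (by rw [← hw', e, hu])

variable [IsTotallyComplex F]

/-- Transport of a function. -/
noncomputable def amapFun {τ : F ≃+* F} (hS : Stable τ S) (Φ : Pt F S → ℂ) (p : Pt F S) : ℂ :=
  Φ (Pt.amap hS p)

omit [IsTotallyComplex F] in
/-- **Local operations under automorphisms.** -/
theorem locAct_amap {τ : F ≃+* F} (hS : Stable τ S) {v u : Place F} (hu : mapPlace τ v = u)
    {l : LKer S v} {l' : LKer S u} (hl : ∀ a b, l' (Vert.amap hS hu a) (Vert.amap hS hu b) = l a b)
    (Φ : Pt F S → ℂ) (p : Pt F S) :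
    locAct v l (amapFun hS Φ) p = locAct u l' Φ (Pt.amap hS p) := by
  rw [locAct_eq_finsum, locAct_eq_finsum]
  refine finsum_eq_of_bijective (Vert.amap hS hu) (Vert.amap_bijective hS hu) fun y => ?_
  rw [amapFun, show (Pt.amap hS p).1 = FinPt.amap hS p.1 from rfl,
    Vert.amap_apply_congr hS _ hu, hl, ← FinPt.amap_set hS]
  rfl

omit [IsTotallyComplex F] in
/-- **Infinite operations under automorphisms.** -/
theorem archAct_amap {τ : F ≃+* F} (hS : Stable τ S) (u : InfinitePlace F) (k : Rad)
    (Φ : Pt F S → ℂ) (p : Pt F S) : archAct u k.ker (amapFun hS Φ) p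
      = archAct (u.comap (τ.symm : F →+* F)) k.ker Φ (Pt.amap hS p) := by
  set u' := u.comap (τ.symm : F →+* F)
  have hcm : ∀ w : InfinitePlace F, InfinitePlace.mk (w.embedding.comp (τ : F →+* F)) =
      w.comap (τ : F →+* F) := fun w => by
    rw [← InfinitePlace.comap_mk, InfinitePlace.mk_embedding]
  have hback : ∀ w : InfinitePlace F, w.comap (τ : F →+* F) = u ↔ w = u' := fun w => by
    constructor
    · rintro rfl
      rw [show u' = (w.comap (τ : F →+* F)).comap (τ.symm : F →+* F) from rfl,
        ← InfinitePlace.comap_comp]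
      conv_lhs => rw [← InfinitePlace.comap_id w]
      congr 1; ext x; simp
    · rintro rfl
      rw [show u' = u.comap (τ.symm : F →+* F) from rfl, ← InfinitePlace.comap_comp]
      conv_rhs => rw [← InfinitePlace.comap_id u]
      congr 1; ext x; simp
  -- `c`: the identity or conjugation at `u`
  set φ := u'.embedding.comp (τ : F →+* F)
  have hφ : InfinitePlace.mk φ = u := (hcm u').trans ((hback u').2 rfl)
  let c : H3 → H3 := fun x => if φ = u.embedding then x else H3.cj x
  have hc : MeasurePreserving c hmeas hmeas := by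
    by_cases h : φ = u.embedding
    · rw [show c = id from funext fun x => if_pos h]; exact MeasurePreserving.id _
    · rw [show c = H3.cj from funext fun x => if_neg h]; exact measurePreserving_cj
  have hci : Function.Involutive c := fun x => by
    by_cases h : φ = u.embedding <;> simp [c, h]
  have hext : ∀ x : InfinitePlace F → H3, extH x φ = c (x u) := fun x => by
    simp only [extH, hφ, c]
  have hk : ∀ x y, k.ker x y = k.ker (c x) (c y) := fun x y => by
    by_cases h : φ = u.embedding
    · simp [c, h]
    · simp only [c, if_neg h, Rad.ker_apply, coshd_cj]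
  have hupd : ∀ y, Pt.amap hS (p.1, Function.update p.2 u y)
      = ((Pt.amap hS p).1, Function.update (Pt.amap hS p).2 u' (c y)) := fun y => by
    refine Prod.ext rfl (funext fun w => ?_)
    change extH (Function.update p.2 u y) _ = Function.update (Pt.amap hS p).2 u' (c y) w
    by_cases hw : w = u'
    · subst hw
      rw [Function.update_self, hext, Function.update_self]
    · rw [Function.update_of_ne hw]
      change _ = extH p.2 _
      simp only [extH, hcm, Function.update_of_ne fun e => hw ((hback w).1 e)]
  simp only [archAct, amapFun, hupd]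
  rw [show (Pt.amap hS p).2 u' = c (p.2 u) from hext p.2]
  -- substitute `c` in the integral
  refine Eq.trans ?_ (hc.integral_comp (MeasurableEquiv.measurableEmbedding
    ⟨⟨c, c, hci, hci⟩, hc.measurable, hc.measurable⟩) _)
  exact integral_congr_ae (Eventually.of_forall fun y => by
    change _ * _ = _ * _
    rw [hk])

omit [NumberField F] [IsTotallyComplex F] in
/-- The point at an embedding depends continuously on the point. -/
lemma continuous_extH (φ : F →+* ℂ) : Continuous fun x : InfinitePlace F → H3 => extH x φ := by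
  unfold extH
  split_ifs
  · exact continuous_apply _
  · exact continuous_cj.comp (continuous_apply _)

variable [Finite S]

/-- Transport by an automorphism gives a joint eigenfunction with permuted eigenvalues. -/
lemma Joint.amap {hE : E ⊆ S} {hn : ∀ v ∈ E, pnorm v = 3} {eg : {v : Place F // v ∉ S} → ℝ}
    {ea : InfinitePlace F × Rad → ℝ} {Φ : Pt F S → ℂ} (h : Joint hE hn eg ea Φ) {τ : F ≃+* F}
    (hS : Stable τ S) (hτE : ∀ v, mapPlace τ v ∈ E ↔ v ∈ E) :
    Joint hE hn (fun v => eg ⟨mapPlace τ v.1, fun hh => v.2 ((hS v.1).1 hh)⟩)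
      (fun j => ea (j.1.comap (τ.symm : F →+* F), j.2)) (amapFun hS Φ) where
  invariant := isInvariant_iff.2 fun g p => by
    rw [amapFun, Pt.amap_smul, isInvariant_iff.1 h.invariant]; rfl
  continuous ω := (h.continuous (FinPt.amap hS ω)).comp (continuous_pi fun w =>
    continuous_extH (w.embedding.comp (τ : F →+* F)))
  bounded := by
    obtain ⟨C, hC⟩ := h.bounded
    exact ⟨C, fun p => hC _⟩
  fixE v hv p := by
    -- the local kernels correspond under `τ`
    rw [locAct_amap hS rfl (l' := eKer (hn _ ((hτE v).2 hv)) (hE ((hτE v).2 hv))) ?_ Φ p]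
    · exact h.fixE _ ((hτE v).2 hv) _
    · intro a b
      have := LKer.pull_eKer (τ : F →+* F) (valuation_mapPlace τ v) (hS v).symm (hE hv)
        (hE ((hτE v).2 hv)) (hn v hv) (hn _ ((hτE v).2 hv))
      rw [← this]
      obtain ⟨g, rfl⟩ := QuotientGroup.mk_surjective a
      obtain ⟨g', rfl⟩ := QuotientGroup.mk_surjective b
      rfl
  good v p := by
    have hv' : mapPlace τ v.1 ∉ S := fun hh => v.2 ((hS v.1).1 hh)
    -- likewise the spherical kernels at the good places
    rw [locAct_amap hS rfl (l' := sphKer hv' X) ?_ Φ p]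
    · exact h.good ⟨_, hv'⟩ _
    · intro a b
      have := LKer.pull_sphKer (τ : F →+* F) (valuation_mapPlace τ v.1) (hS v.1).symm v.2 hv'
        (pnorm_mapPlace τ v.1) (X : ℂ[X])
      rw [← this]
      obtain ⟨g, rfl⟩ := QuotientGroup.mk_surjective a
      obtain ⟨g', rfl⟩ := QuotientGroup.mk_surjective b
      rfl
  arch u k p := by
    rw [archAct_amap hS]
    exact h.arch _ k _

omit [Finite S] in
/-- Transport preserves being nonzero. -/
lemma amapFun_nonzero {Φ : Pt F S → ℂ} {τ : F ≃+* F} (hS : Stable τ S) (h : ∃ p, Φ p ≠ 0) :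
    ∃ p, amapFun hS Φ p ≠ 0 := by
  obtain ⟨p, hp⟩ := h
  have hS' : Stable τ.symm S := fun v => by rw [← hS (mapPlace τ.symm v), mapPlace_symm_right]
  refine ⟨Pt.amap hS' p, ?_⟩
  have hid : Stable (RingEquiv.refl F) S := fun v => by
    rw [show mapPlace (RingEquiv.refl F) v = v from
      HeightOneSpectrum.ext (Ideal.ext fun a => mapPlace_asIdeal (RingEquiv.refl F) v a)]
  rw [amapFun, Pt.amap_amap hS hS' (by rwa [RingEquiv.symm_trans_self])]
  simp only [RingEquiv.symm_trans_self]
  rwa [Pt.amap_refl hid]

end Fermat.LT.Sys
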