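import Fermat.Agent.LT.Res3

/-!
# Systems: matrix units of the two-dimensional cuspidal representation of `GL₂(𝔽₃)`

`GL₂(𝔽₃)` permutes the three pairings of the four points of the projective line; the representation
is the sum zero part. `sum_mFun_mul` gives the relations of its matrix units, which `Level` turns
into kernels at the places of norm three.
-/

set_option autoImplicit false

namespace Fermat.LT.Sys

/-- The permutation of the pairings, a pairing being named by the partner of `∞`. -/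
def perm3 (a b c d k : ZMod 3) : ZMod 3 :=
  if c = 0 then (a * k + b) * d else if c * k + d = 0 then a * c
    else -(a * c + (a * k + b) * (c * k + d))

/-- The integral matrix coefficients of the sum zero part of the permutations of the three
pairings. -/
def pi3 (i j : Fin 2) (a b c d : ZMod 3) : ℤ :=
  (if perm3 a b c d (if j = 0 then 0 else 1) = (if i = 0 then 0 else 1) then 1 else 0)
    - if perm3 a b c d 2 = (if i = 0 then 0 else 1) then 1 else 0

/-- The coefficients multiply like a representation. -/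
lemma pi3_mul : ∀ a b c d x y z w : ZMod 3, a * d - b * c ≠ 0 → x * w - y * z ≠ 0 → ∀ i j : Fin 2,
    pi3 i j (a * x + b * z) (a * y + b * w) (c * x + d * z) (c * y + d * w)
      = pi3 i 0 a b c d * pi3 0 j x y z w + pi3 i 1 a b c d * pi3 1 j x y z w := by
  decide +kernel

/-- `-1` acts trivially. -/
lemma pi3_neg :
    ∀ a b c d : ZMod 3, ∀ i j : Fin 2, pi3 i j (-a) (-b) (-c) (-d) = pi3 i j a b c d := by
  decide +kernel

/-- `e4` is the character of the representation. -/
lemma e4_eq_pi3 : ∀ a b c d : ZMod 3, a * d - b * c ≠ 0 →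
    e4 a b c d = pi3 0 0 a b c d + pi3 1 1 a b c d := by
  decide +kernel

/-- The orthogonality relations, unnormalised. -/
lemma pi3_orth : ∀ i j k l : Fin 2,
    (∑ x : ZMod 3, ∑ y : ZMod 3, ∑ z : ZMod 3, ∑ w : ZMod 3, if x * w - y * z = 0 then (0 : ℤ) else
      pi3 j i ((x * w - y * z) * w) ((x * w - y * z) * -y) ((x * w - y * z) * -z)
        ((x * w - y * z) * x)
        * pi3 k l x y z w) = if i = k ∧ j = l then 24 else 0 := by
  decide +kernel

/-- The matrix coefficients `pi3` of the representation, as functions on `GL₂(𝔽₃)`. -/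
noncomputable def piC (i j : Fin 2) (M : GL (Fin 2) (ZMod 3)) : ℂ :=
  (pi3 i j (M 0 0) (M 0 1) (M 1 0) (M 1 1) : ℂ)

/-- The determinant is nonzero. -/
lemma det3_ne (M : GL (Fin 2) (ZMod 3)) : M 0 0 * M 1 1 - M 0 1 * M 1 0 ≠ 0 := by
  have := (Matrix.GeneralLinearGroup.det M).ne_zero
  rwa [Matrix.GeneralLinearGroup.val_det_apply, Matrix.det_fin_two] at this

/-- The representation is multiplicative. -/
lemma piC_mul (i j : Fin 2) (M N : GL (Fin 2) (ZMod 3)) :
    piC i j (M * N) = piC i 0 M * piC 0 j N + piC i 1 M * piC 1 j N := by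
  simp only [piC, Units.val_mul, Matrix.mul_apply, Fin.sum_univ_two,
    pi3_mul _ _ _ _ _ _ _ _ (det3_ne M) (det3_ne N)]
  push_cast
  ring

/-- The coefficients at an inverse in terms of the entries. -/
lemma piC_inv (i j : Fin 2) (M : GL (Fin 2) (ZMod 3)) :
    piC i j M⁻¹ = (pi3 i j ((M 0 0 * M 1 1 - M 0 1 * M 1 0) * M 1 1)
      ((M 0 0 * M 1 1 - M 0 1 * M 1 0) * -M 0 1) ((M 0 0 * M 1 1 - M 0 1 * M 1 0) * -M 1 0)
      ((M 0 0 * M 1 1 - M 0 1 * M 1 0) * M 0 0) : ℂ) := by
  rw [piC, coe_inv_zmod3]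
  simp [Matrix.det_fin_two, Matrix.adjugate_fin_two]

/-- The function `piC j i (M⁻¹) / 12` giving the matrix unit. -/
noncomputable def mFun (i j : Fin 2) (M : GL (Fin 2) (ZMod 3)) : ℂ := piC j i M⁻¹ / 12

/-- The matrix units ignore the sign. -/
lemma mFun_neg (i j : Fin 2) (M : GL (Fin 2) (ZMod 3)) : mFun i j (-M) = mFun i j M := by
  have e : (-M)⁻¹ = -M⁻¹ := by rw [inv_eq_iff_mul_eq_one]; simp
  simp only [mFun, e, piC, Units.val_neg, Matrix.neg_apply, pi3_neg]

/-- The diagonal matrix units sum to the cuspidal idempotent. -/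
lemma mFun_zero_add_one (M : GL (Fin 2) (ZMod 3)) :
    mFun 0 0 M + mFun 1 1 M = e3 (M : Matrix (Fin 2) (Fin 2) (ZMod 3)) := by
  rw [← e3_inv, e3, e4_eq_pi3 _ _ _ _ (det3_ne M⁻¹), mFun, mFun, piC, piC]
  push_cast
  ring

set_option maxRecDepth 2048 in -- headroom for elaboration over the group `GL (Fin 2) (ZMod 3)`
/-- Schur orthogonality for the two-dimensional representation. -/
lemma sum_piC_inv_mul (i j k l : Fin 2) :
    ∑ M : GL (Fin 2) (ZMod 3), piC j i M⁻¹ * piC k l M = if i = k ∧ j = l then 24 else 0 := by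
  let g : (ZMod 3 × ZMod 3) × ZMod 3 × ZMod 3 → ℤ := fun p =>
    if p.1.1 * p.2.2 - p.1.2 * p.2.1 = 0 then (0 : ℤ) else
      pi3 j i ((p.1.1 * p.2.2 - p.1.2 * p.2.1) * p.2.2) ((p.1.1 * p.2.2 - p.1.2 * p.2.1) * -p.1.2)
        ((p.1.1 * p.2.2 - p.1.2 * p.2.1) * -p.2.1) ((p.1.1 * p.2.2 - p.1.2 * p.2.1) * p.1.1)
        * pi3 k l p.1.1 p.1.2 p.2.1 p.2.2
  let φ : GL (Fin 2) (ZMod 3) → (ZMod 3 × ZMod 3) × ZMod 3 × ZMod 3 := fun M =>
    ((M 0 0, M 0 1), M 1 0, M 1 1)
  have hφ : Function.Injective φ := fun M M' h => by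
    refine Units.ext (Matrix.ext fun a b => ?_)
    simp only [φ, Prod.mk.injEq] at h
    fin_cases a <;> fin_cases b
    exacts [h.1.1, h.1.2, h.2.1, h.2.2]
  have hterm : ∀ M, piC j i M⁻¹ * piC k l M = (g (φ M) : ℂ) := fun M => by
    rw [piC_inv, piC, ← Int.cast_mul]
    simp only [g, φ, if_neg (det3_ne M)]
  have htot : ∑ p, g p = if i = k ∧ j = l then 24 else 0 := by
    rw [← pi3_orth i j k l]
    simp only [g, Fintype.sum_prod_type]
  have hsum : ∑ M, g (φ M) = if i = k ∧ j = l then 24 else 0 := by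
    rw [← htot, ← Finset.sum_image hφ.injOn]
    refine Finset.sum_subset (Finset.subset_univ _) fun p _ hp => ?_
    by_contra hg
    have hne : p.1.1 * p.2.2 - p.1.2 * p.2.1 ≠ 0 := fun h => hg (by simp [g, h])
    refine hp (Finset.mem_image.2 ⟨Matrix.GeneralLinearGroup.mkOfDetNeZero
      !![p.1.1, p.1.2; p.2.1, p.2.2] (by rwa [Matrix.det_fin_two_of]), Finset.mem_univ _, rfl⟩)
  rw [Finset.sum_congr rfl fun M _ => hterm M, ← Int.cast_sum, hsum]
  split_ifs <;> simp

/-- **The relations of matrix units.** The functions `mFun i j` convolve on `GL₂(𝔽₃)` as matrix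
units, up to the factor two of the sign. -/
lemma sum_mFun_mul (i j k l : Fin 2) (N : GL (Fin 2) (ZMod 3)) :
    ∑ M : GL (Fin 2) (ZMod 3), mFun i j M * mFun k l (M⁻¹ * N)
      = if j = k then 2 * mFun i l N else 0 := by
  have e : ∀ M, mFun i j M * mFun k l (M⁻¹ * N)
      = (144 : ℂ)⁻¹ * (piC l 0 N⁻¹ * (piC j i M⁻¹ * piC 0 k M) + piC l 1 N⁻¹ *
          (piC j i M⁻¹ * piC 1 k M)) :=
    fun M => by
      rw [mFun, mFun, mul_inv_rev, inv_inv, piC_mul]
      ring
  simp only [e, ← Finset.mul_sum, Finset.sum_add_distrib, sum_piC_inv_mul]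
  fin_cases i <;> by_cases h : j = k <;> simp [h, mFun] <;> ring

end Fermat.LT.Sys
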