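import Fermat.Agent.LT.Sys.RamIdem
import Fermat.Agent.LT.Sys.MatUnit
import Fermat.Agent.LT.Sys.Map

/-!
# Systems: the kernels at the places of the level and their transport

The finite computations of `MatUnit` and `RamIdem` as local kernels: the matrix units `mKer` at a
place of norm three (`mKer_comp`), the idempotents `rKer` at a tame place (`rKer_intertwine`), and
how field automorphisms transport both (`mKer_amap`, `exists_rKer_amap`).
-/

set_option autoImplicit false
open Set
open scoped Classical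

namespace Fermat.LT.Sys

variable {F : Type} [Field F] [NumberField F] {S : Set (Place F)} {v : Place F}

/-- The residue field of a place of norm three. -/
noncomputable def rhoRes (hv : pnorm v = 3) : Res v →+* ZMod 3 :=
  letI := Fintype.ofFinite (Res v)
  (ZMod.ringEquivOfPrime _ Nat.prime_three
    ((Nat.card_eq_fintype_card).symm.trans ((natCard_residue v).trans hv))).symm.toRingHom

/-- The residue map is bijective. -/
lemma rhoRes_bijective (hv : pnorm v = 3) : Function.Bijective (rhoRes hv) := RingEquiv.bijective _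

/-- There is only one map from the residue field to `𝔽₃`. -/
lemma rhoRes_unique (hv : pnorm v = 3) (f : Res v →+* ZMod 3) : f = rhoRes hv := by
  refine RingHom.ext fun x => ?_
  obtain ⟨n, hn⟩ : ∃ n : ℕ, (n : ZMod 3) = rhoRes hv x :=
    ⟨(rhoRes hv x).val, ZMod.natCast_zmod_val _⟩
  have hx : x = (n : Res v) := (rhoRes_bijective hv).1 (by rw [map_natCast, hn])
  rw [hx, map_natCast, map_natCast]

/-- The residue field has two units. -/
lemma card_units_res_three (hv : pnorm v = 3) : (Fintype.card (Res v)ˣ : ℂ) = 2 := by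
  rw [Fintype.card_units, ← Nat.card_eq_fintype_card (α := Res v), natCard_residue v, hv]
  norm_num

/-- Reduction to `GL₂(𝔽₃)`. -/
noncomputable def toThree (hv : pnorm v = 3) : GL (Fin 2) (Res v) →* GL (Fin 2) (ZMod 3) :=
  Matrix.GeneralLinearGroup.map (n := Fin 2) (rhoRes hv)

/-- `red3` factors through the residue field. -/
lemma red3_eq (hv : pnorm v = 3) (a : GL (Fin 2) (v.valuation F).integer) :
    red3 hv a = toThree hv (redG v a) := Units.ext rfl

/-- Reduction to `GL₂(𝔽₃)` is bijective. -/
lemma toThree_bijective (hv : pnorm v = 3) : Function.Bijective (toThree hv) := by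
  set e := RingEquiv.ofBijective _ (rhoRes_bijective hv)
  refine Function.bijective_iff_has_inverse.2
    ⟨Matrix.GeneralLinearGroup.map (n := Fin 2) e.symm.toRingHom,
    fun M => Units.ext (Matrix.ext fun i j => e.symm_apply_apply _),
    fun M => Units.ext (Matrix.ext fun i j => e.apply_symm_apply _)⟩

/-- Scalars reduce to signs. -/
lemma toThree_scal (hv : pnorm v = 3) (z : (Res v)ˣ) (M : GL (Fin 2) (Res v)) :
    toThree hv (scal z * M) = toThree hv M ∨ toThree hv (scal z * M) = -toThree hv M := by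
  have e : ∀ i j,
      ((toThree hv (scal z * M) : GL (Fin 2) (ZMod 3)) : Matrix (Fin 2) (Fin 2) (ZMod 3)) i j
      = rhoRes hv z * ((toThree hv M : GL (Fin 2) (ZMod 3)) : Matrix (Fin 2) (Fin 2) (ZMod 3)) i
          j := fun i j => by
    change rhoRes hv ((scal z * M : GL (Fin 2) (Res v)) i j) = _
    rw [coe_scal_mul, map_mul]; rfl
  rcases (by decide : ∀ x : ZMod 3, x ≠ 0 → x = 1 ∨ x = -1) (rhoRes hv z)
    ((map_ne_zero _).2 z.ne_zero) with h | h
  · exact Or.inl (Units.ext (Matrix.ext fun i j => by rw [e, h, one_mul]))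
  · exact Or.inr
      (Units.ext (Matrix.ext fun i j => by rw [e, h, Units.val_neg, Matrix.neg_apply, neg_one_mul]))

/-- The matrix units ignore scalars. -/
lemma scalInv_mFun (hv : pnorm v = 3) (i j : Fin 2) :
    ScalInv fun M => mFun i j (toThree hv M) := fun z M => by
  rcases toThree_scal hv z M with h | h <;> simp only [h, mFun_neg]

/-- The matrix units as kernels. -/
noncomputable def mKer (hv : pnorm v = 3) (hvS : v ∈ S) (i j : Fin 2) : LKer S v :=
  fibKer hvS (fun M => mFun i j (toThree hv M)) (scalInv_mFun hv i j)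

/-- The cuspidal idempotent ignores scalars. -/
lemma scalInv_e3 (hv : pnorm v = 3) :
    ScalInv fun M => e3 ((toThree hv M : GL (Fin 2) (ZMod 3)) : Matrix (Fin 2) (Fin 2) (ZMod 3)) :=
      fun z M => by
  rcases toThree_scal hv z M with h | h <;> simp only [h, Units.val_neg, e3_neg]

/-- The cuspidal kernel is a fibre kernel. -/
lemma eKer_eq_fibKer (hv : pnorm v = 3) (hvS : v ∈ S) :
    eKer hv hvS = fibKer (S := S) hvS _ (scalInv_e3 hv) := by
  refine LKer.ext' fun a b => ?_
  rw [eKer_apply, fibKer_apply]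
  by_cases h : a.out⁻¹ * b.out ∈ U0 (v.valuation F)
  · obtain ⟨c, x, hx⟩ := exists_eq_scal_incGL h
    rw [hx, eCusp_scal_incGL hv, fibFun_scal_incGL (scalInv_e3 hv), red3_eq]
  · rw [eCusp_eq_zero h, fibFun_eq_zero h]

/-- The idempotent is the sum of the two diagonal matrix units. -/
lemma eKer_eq_add (hv : pnorm v = 3) (hvS : v ∈ S) (a b : Vert S v) :
    eKer hv hvS a b = mKer hv hvS 0 0 a b + mKer hv hvS 1 1 a b := by
  rw [eKer_eq_fibKer, mKer, mKer, fibKer_apply, fibKer_apply, fibKer_apply]
  simp only [fibFun]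
  split_ifs
  · rw [mFun_zero_add_one]
  · simp

/-- Sums over the finite group transported to `GL₂(𝔽₃)`. -/
lemma sum_toThree (hv : pnorm v = 3) (f : GL (Fin 2) (ZMod 3) → ℂ) :
    ∑ M, f (toThree hv M) = ∑ M, f M :=
  Fintype.sum_bijective _ (toThree_bijective hv) _ _ fun _ => rfl

/-- **Relations of the matrix units.** The kernels `mKer i j` at a place of norm three compose as
matrix units. -/
theorem mKer_comp (hv : pnorm v = 3) (hvS : v ∈ S) (i j k l : Fin 2) (a b : Vert S v) :
    (mKer hv hvS i j).comp (mKer hv hvS k l) a b = if j = k then mKer hv hvS i l a b else 0 := by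
  have key : ∀ N, (Fintype.card (Res v)ˣ : ℂ)⁻¹ * ∑ M, mFun i j (toThree hv M) *
      mFun k l (toThree hv (M⁻¹ * N))
      = if j = k then mFun i l (toThree hv N) else 0 := fun N => by
    simp only [map_mul, map_inv]
    rw [sum_toThree hv (fun M => mFun i j M * mFun k l (M⁻¹ * toThree hv N)), sum_mFun_mul,
      card_units_res_three hv]
    split_ifs <;> ring
  by_cases h : j = k
  · rw [if_pos h, mKer, mKer,
      fibKer_comp hvS _ _ (scalInv_mFun hv i l) fun N => by rw [key N, if_pos h]]
    rfl
  · rw [if_neg h, mKer, mKer,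
      fibKer_comp hvS _ _ (h := fun _ => 0) (fun _ _ => rfl) fun N => by rw [key N, if_neg h],
      fibKer_apply, fibFun]
    simp

/-- The idempotent fixes every matrix unit. -/
theorem eKer_comp_mKer (hv : pnorm v = 3) (hvS : v ∈ S) (k l : Fin 2) :
    (eKer hv hvS).comp (mKer hv hvS k l) = mKer hv hvS k l := by
  rw [eKer_eq_fibKer, mKer, fibKer_comp hvS _ _ (scalInv_mFun hv k l) fun N => ?_]
  simp only [← mFun_zero_add_one, add_mul, Finset.sum_add_distrib, map_mul, map_inv]
  rw [sum_toThree hv (fun M => mFun 0 0 M * mFun k l (M⁻¹ * toThree hv N)),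
    sum_toThree hv (fun M => mFun 1 1 M * mFun k l (M⁻¹ * toThree hv N)),
      sum_mFun_mul, sum_mFun_mul,
    card_units_res_three hv]
  fin_cases k <;> simp

/-! ### tame places -/

/-- `P + P_χ` ignores scalars. -/
lemma scalInv_rFun {χ : MulChar (Res v) ℂ} (h : IsCub χ) : ScalInv (rFun χ) := fun z M => by
  simp only [rFun, uFun, pFun_scal h]

/-- The intertwiner ignores scalars. -/
lemma scalInv_zFun {χ : MulChar (Res v) ℂ} (h : IsCub χ) : ScalInv (zFun χ) := fun z M => by
  simp only [zFun, uFun, tFun_scal h]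

/-- The backward intertwiner ignores scalars. -/
lemma scalInv_zFun' {χ : MulChar (Res v) ℂ} (h : IsCub χ) : ScalInv (zFun' χ) := fun z M => by
  simp only [zFun', uFun, tFun_scal h.sq]

/-- When `3 ∣ pnorm v - 1` the chosen character is cubic. -/
lemma isCub_cubChar (h : 3 ∣ pnorm v - 1) : IsCub (cubChar v) := by
  have h' : 3 ∣ Fintype.card (Res v) - 1 := by
    rwa [← Nat.card_eq_fintype_card, natCard_residue v]
  refine ⟨fun e => ?_, by rw [← orderOf_cubChar v h']; exact pow_orderOf_eq_one _⟩
  have := orderOf_cubChar v h'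
  rw [e, orderOf_one] at this
  omega

/-- `P + P_χ` as a kernel. -/
noncomputable def rKer {χ : MulChar (Res v) ℂ} (h : IsCub χ) (hvS : v ∈ S) : LKer S v :=
  fibKer hvS (rFun χ) (scalInv_rFun h)

/-- The ramified kernel is the kernel of its cubic character. -/
lemma ramKer_eq (h : IsCub (cubChar v)) (hvS : v ∈ S) : ramKer v hvS = rKer h hvS := by
  refine LKer.ext' fun a b => ?_
  rw [ramKer, rKer, fibKer_apply, fibKer_apply]
  congr 1
  funext M
  simp only [ramFun, rFun, uFun, pFun, qC]
  congr 1
  split_ifs with hc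
  · congr 1
    have hd := (Matrix.GeneralLinearGroup.det M).ne_zero
    rw [Matrix.GeneralLinearGroup.val_det_apply, Matrix.det_fin_two, hc, mul_zero, sub_zero] at hd
    rw [Matrix.det_fin_two, hc, mul_zero, sub_zero]
    refine (h.mul_cube _ (right_ne_zero_of_mul hd)).symm.trans (congrArg _ ?_)
    field_simp [right_ne_zero_of_mul hd]
  · rfl

/-- The kernel of `P + P_χ` is hermitian. -/
lemma rKer_isHerm {χ : MulChar (Res v) ℂ} (h : IsCub χ) (hvS : v ∈ S) : (rKer h hvS).IsHerm :=
  fibKer_isHerm hvS _ (rFun_inv h)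

/-- The kernel of `P + P_χ` is idempotent. -/
lemma rKer_comp {χ : MulChar (Res v) ℂ} (h : IsCub χ) (hvS : v ∈ S) :
    (rKer h hvS).comp (rKer h hvS) = rKer h hvS :=
  fibKer_comp hvS _ _ _ (cv_rFun h)

/-- The kernels of `P + P_χ` and `P + P_χ²` are intertwined. -/
lemma rKer_intertwine {χ : MulChar (Res v) ℂ} (h : IsCub χ) (hvS : v ∈ S) :
    ∃ Z Z' : LKer S v, (rKer h hvS).comp Z = Z ∧ Z'.comp Z = rKer h.sq hvS :=
  ⟨fibKer hvS _ (scalInv_zFun h), fibKer hvS _ (scalInv_zFun' h),
    fibKer_comp hvS _ _ _ (cv_rFun_zFun h), fibKer_comp hvS _ _ _ (cv_zFun' h)⟩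

/-! ### transport -/

variable {τ : F ≃+* F} {u : Place F}

/-- The map of residue fields of an automorphism. -/
noncomputable def resMap (hu : mapPlace τ v = u) : Res v →+* Res u :=
  Ideal.Quotient.lift (IsLocalRing.maximalIdeal (v.valuation F).valuationSubring)
    ((IsLocalRing.residue (u.valuation F).valuationSubring).comp
      (((τ : F →+* F).comp (v.valuation F).valuationSubring.subtype).codRestrict
        (u.valuation F).valuationSubring fun x => by
        change u.valuation F (τ x) ≤ 1
        rw [← hu, valuation_mapPlace]; exact x.2)) fun x hx => by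
      rw [RingHom.comp_apply, residue_eq_zero_iff_v]
      change u.valuation F (τ x) < 1
      rw [← hu, valuation_mapPlace]
      exact (residue_eq_zero_iff_v (v.valuation F) x).1 (Ideal.Quotient.eq_zero_iff_mem.2 hx)

/-- Corresponding residual functions give kernels transported by an automorphism. -/
lemma fibKer_amap (hS : Stable τ S) (hu : mapPlace τ v = u) (hvS : v ∈ S) (huS : u ∈ S)
    {f : GL (Fin 2) (Res v) → ℂ} {g : GL (Fin 2) (Res u) → ℂ} (hf : ScalInv f) (hg : ScalInv g)
    (hfg : ∀ M, g (Matrix.GeneralLinearGroup.map (n := Fin 2) (resMap hu) M) = f M)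
    (a b : Vert S v) :
    fibKer huS g hg (Vert.amap hS hu a) (Vert.amap hS hu b) = fibKer hvS f hf a b := by
  obtain ⟨x, rfl⟩ := QuotientGroup.mk_surjective a
  obtain ⟨y, rfl⟩ := QuotientGroup.mk_surjective b
  rw [Vert.amap_mk, Vert.amap_mk, fibKer_apply, fibKer_apply, fibFun_mk huS hg, fibFun_mk hvS hf,
    ← map_inv, ← map_mul]
  set m := x⁻¹ * y
  have hval : ∀ z, u.valuation F ((τ : F →+* F) z) = v.valuation F z := fun z => by
    rw [← hu]; exact valuation_mapPlace τ v z
  by_cases hm : m ∈ U0 (v.valuation F)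
  · obtain ⟨c, k, hk⟩ := exists_eq_scal_incGL hm
    let f' : (v.valuation F).integer →+* (u.valuation F).integer :=
      ((τ : F →+* F).comp (v.valuation F).integer.subtype).codRestrict _ fun z => by
        change u.valuation F ((τ : F →+* F) z) ≤ 1
        rw [hval]; exact z.2
    rw [hk, fibFun_scal_incGL hf, map_mul, mapGL_scal,
      show mapGL τ (incGL v k) = incGL u (Matrix.GeneralLinearGroup.map (n := Fin 2) f' k) from
        Units.ext rfl,
      fibFun_scal_incGL hg, ← hfg]
    exact congrArg g (Units.ext rfl)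
  · rw [fibFun_eq_zero hm]
    exact fibFun_eq_zero fun h => hm ((map_mem_U0_iff (τ : F →+* F) hval m).1 h)

/-- Automorphisms transport the matrix units. -/
lemma mKer_amap (hS : Stable τ S) (hu : mapPlace τ v = u) (hv : pnorm v = 3) (hu3 : pnorm u = 3)
    (hvS : v ∈ S) (huS : u ∈ S) (i j : Fin 2) (a b : Vert S v) :
    mKer hu3 huS i j (Vert.amap hS hu a) (Vert.amap hS hu b) = mKer hv hvS i j a b := by
  refine fibKer_amap hS hu hvS huS _ _ (fun M => ?_) a b
  rw [show toThree hu3 (Matrix.GeneralLinearGroup.map (n := Fin 2) (resMap hu) M)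
    = toThree hv M from
    Units.ext (Matrix.ext fun k l =>
      RingHom.congr_fun (rhoRes_unique hv ((rhoRes hu3).comp (resMap hu))) _)]

/-- The map of residue fields is bijective. -/
lemma resMap_bijective (hu : mapPlace τ v = u) : Function.Bijective (resMap hu) := by
  refine (RingHom.injective (resMap hu)).bijective_of_nat_card_le ?_
  rw [natCard_residue, natCard_residue, ← hu, pnorm_mapPlace]

/-- An automorphism transports the kernel of a cubic character to that of a cubic character. -/
lemma exists_rKer_amap (hS : Stable τ S) (hu : mapPlace τ v = u) (hvS : v ∈ S) (huS : u ∈ S)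
    {θ : MulChar (Res u) ℂ} (h : IsCub θ) :
    ∃ (χ : MulChar (Res v) ℂ) (h' : IsCub χ), ∀ a b,
      rKer h huS (Vert.amap hS hu a) (Vert.amap hS hu b) = rKer h' hvS a b := by
  let χ : MulChar (Res v) ℂ :=
    { toMonoidHom := θ.toMonoidHom.comp ((resMap hu : Res v →+* Res u) : Res v →* Res u)
      map_nonunit' := fun x hx => by
        change θ (resMap hu x) = 0
        rw [isUnit_iff_ne_zero, not_not] at hx
        rw [hx, map_zero, MulChar.map_zero] }
  have hχ : ∀ x, χ x = θ (resMap hu x) := fun _ => rfl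
  have h' : IsCub χ := by
    refine ⟨fun e => ?_, MulChar.ext fun x => ?_⟩
    · obtain ⟨a, ha⟩ := MulChar.ne_one_iff.1 h.ne_one
      obtain ⟨x, hx⟩ := (resMap_bijective hu).2 (a : Res u)
      have hx0 : x ≠ 0 := fun h0 => a.ne_zero (by rw [← hx, h0, map_zero])
      refine ha ?_
      rw [← hx, ← hχ, e, MulChar.one_apply (isUnit_iff_ne_zero.2 hx0)]
    · rw [MulChar.pow_apply_coe, MulChar.one_apply_coe, hχ,
        h.apply_cube ((map_ne_zero _).2 x.ne_zero)]
  refine ⟨χ, h', fun a b => fibKer_amap hS hu hvS huS _ _ (fun M => ?_) a b⟩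
  set r := resMap hu
  have e : ∀ i j, (Matrix.GeneralLinearGroup.map (n := Fin 2) r M : GL (Fin 2) (Res u)) i j =
      r (M i j) :=
    fun _ _ => rfl
  have hq : qC (Res u) = qC (Res v) :=
    congrArg Nat.cast (Fintype.card_of_bijective (resMap_bijective hu)).symm
  simp only [rFun, uFun, pFun, Matrix.det_fin_two, e, map_eq_zero, hq, hχ, map_mul, map_sub]

/-- There are only two cubic characters, inverse to each other. -/
lemma isCub_dichotomy {χ θ : MulChar (Res v) ℂ} (h : IsCub χ) (hθ : IsCub θ) :
    χ = θ ∨ χ = θ ^ 2 := by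
  obtain ⟨g, hg⟩ := IsCyclic.exists_generator (α := (Res v)ˣ)
  have hb : θ g ≠ 1 := fun e => hθ.ne_one (MulChar.ext fun x => by
    obtain ⟨n, rfl⟩ := mem_powers_iff_mem_zpowers.2 (hg x)
    rw [MulChar.one_apply_coe, Units.val_pow_eq_pow_val, map_pow, e, one_pow])
  have ha3 := h.apply_cube g.ne_zero
  have hb3 := hθ.apply_cube g.ne_zero
  have ha : χ g ≠ 1 := fun e => h.ne_one (MulChar.ext fun x => by
    obtain ⟨n, rfl⟩ := mem_powers_iff_mem_zpowers.2 (hg x)
    rw [MulChar.one_apply_coe, Units.val_pow_eq_pow_val, map_pow, e, one_pow])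
  set a := χ g
  set b := θ g
  have hcase : a = b ∨ a = b ^ 2 := by
    have h1 : a ^ 2 + a + 1 = 0 := (mul_eq_zero.1 (show (a - 1) * (a ^ 2 + a + 1) = 0 by
      linear_combination ha3)).resolve_left (sub_ne_zero.2 ha)
    have h2 : b ^ 2 + b + 1 = 0 := (mul_eq_zero.1 (show (b - 1) * (b ^ 2 + b + 1) = 0 by
      linear_combination hb3)).resolve_left (sub_ne_zero.2 hb)
    have h3 : (a - b) * (a - b ^ 2) = 0 := by linear_combination h1 - a * h2 + hb3
    rcases mul_eq_zero.1 h3 with h3 | h3
    · exact Or.inl (sub_eq_zero.1 h3)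
    · exact Or.inr (sub_eq_zero.1 h3)
  rcases hcase with e | e
  · refine Or.inl (MulChar.ext fun x => ?_)
    obtain ⟨n, rfl⟩ := mem_powers_iff_mem_zpowers.2 (hg x)
    rw [Units.val_pow_eq_pow_val, map_pow, map_pow]
    exact congrArg (· ^ n) e
  · refine Or.inr (MulChar.ext fun x => ?_)
    obtain ⟨n, rfl⟩ := mem_powers_iff_mem_zpowers.2 (hg x)
    rw [Units.val_pow_eq_pow_val, map_pow, map_pow, sq_apply_eq]
    exact congrArg (· ^ n) e

end Fermat.LT.Sys
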