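import Fermat.Agent.LT.Sys.Descent
import Fermat.Agent.LT.Parts
import Fermat.Agent.LT.EllipticFull
import Fermat.Agent.LT.Hyp

/-!
# Systems: the descent theorem, unconditionally

`descentStatement`: `descent_of_geometric` with the comparison assembled in `LT/Parts` from
`EllipticFull` and `Hyp`. This is the output of the trace formula; it is used, after the theta
form, in `LT3/Main/Main`.
-/

set_option autoImplicit false

namespace Fermat.LT.Sys

/-- **The descent theorem.** `DescentStatement` holds: the descent along a cubic extension given by
the trace comparison. -/
theorem descentStatement (K L : Type) [Field K] [NumberField K] [Field L] [NumberField L]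
    [Algebra K L] : DescentStatement K L :=
  descent_of_geometric (geometricStatement_of_parts (ellipticStatement_proved K L)
    (hypStatement K L))

end Fermat.LT.Sys
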