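import Fermat.Agent.LT.RamKer

/-!
# Systems: the kernels at a tame place, intertwining a cubic character and its inverse

`cv_rFun`: `P + P_χ` is idempotent; `cv_zFun'`: those of `χ` and `χ⁻¹` are intertwined. So the
choice of a cubic character at a ramified place does not matter (`exists_flip` in `Descent`).
-/

set_option autoImplicit false
open scoped Classical ComplexConjugate

namespace Fermat.LT.Sys

variable {κ : Type*} [Field κ] [Fintype κ]

local notation "G" => GL (Fin 2) κ
local notation "↑ₘ" M:arg => ((M : GL (Fin 2) κ) : Matrix (Fin 2) (Fin 2) κ)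

/-- The upper triangular matrix with entries `(a, b, d)`. -/
noncomputable def borEl (p : κˣ × κ × κˣ) : G :=
  Matrix.GeneralLinearGroup.mkOfDetNeZero !![(p.1 : κ), p.2.1; 0, (p.2.2 : κ)] (by simp)

omit [Fintype κ] in
/-- The matrix of an upper triangular element. -/
lemma coe_borEl (p : κˣ × κ × κˣ) : ↑ₘ(borEl p) = !![(p.1 : κ), p.2.1; 0, (p.2.2 : κ)] := rfl

/-- Representatives of the cosets of the upper triangular group. -/
noncomputable def lineRep : Option κ → G
  | none => 1
  | some t => Matrix.GeneralLinearGroup.mkOfDetNeZero !![t, -1; 1, 0] (by simp)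

omit [Fintype κ] in
/-- The matrix of a representative. -/
lemma coe_lineRep_some (t : κ) : ↑ₘ(lineRep (some t)) = !![t, -1; 1, 0] := rfl

omit [Fintype κ] in
/-- Every matrix is uniquely a line representative times an upper triangular one. -/
lemma lineRep_mul_bijective :
    Function.Bijective fun z : Option κ × (κˣ × κ × κˣ) => lineRep z.1 * borEl z.2 := by
  constructor
  -- injective: compare the four entries
  · rintro ⟨o, A, x, D⟩ ⟨o', A', x', D'⟩ h
    have e : ∀ i j, (↑ₘ(lineRep o) * ↑ₘ(borEl (A, x, D))) i j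
        = (↑ₘ(lineRep o') * ↑ₘ(borEl (A', x', D'))) i j := fun i j => by
      rw [← Units.val_mul, ← Units.val_mul]
      exact congrArg (fun M : G => (M : Matrix (Fin 2) (Fin 2) κ) i j) h
    have e00 := e 0 0
    have e01 := e 0 1
    have e10 := e 1 0
    have e11 := e 1 1
    cases o <;> cases o' <;>
      simp [coe_borEl, lineRep] at e00 e01 e10 e11 ⊢
    · exact ⟨Units.ext e00, e01, Units.ext e11⟩
    · exact absurd e10.symm A'.ne_zero
    · rename_i t t'
      obtain rfl : A = A' := Units.ext e10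
      obtain rfl : t = t' := mul_right_cancel₀ A.ne_zero e00
      obtain rfl : x = x' := e11
      exact ⟨rfl, rfl, rfl, Units.ext (by linear_combination -e01)⟩
  · intro M
    -- surjective: split on whether `M 1 0 = 0`
    have hd : M 0 0 * M 1 1 - M 0 1 * M 1 0 ≠ 0 := by
      have h := (Matrix.GeneralLinearGroup.det M).ne_zero
      rwa [Matrix.GeneralLinearGroup.val_det_apply, Matrix.det_fin_two] at h
    by_cases hc : M 1 0 = 0
    · rw [hc, mul_zero, sub_zero] at hd
      refine ⟨(none, Units.mk0 _ (left_ne_zero_of_mul hd), M 0 1,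
        Units.mk0 _ (right_ne_zero_of_mul hd)), Units.ext (Matrix.ext fun i j => ?_)⟩
      fin_cases i <;> fin_cases j <;> simp [coe_borEl, lineRep, hc]
    · refine ⟨(some (M 0 0 / M 1 0), Units.mk0 _ hc, M 1 1,
        Units.mk0 ((M 0 0 * M 1 1 - M 0 1 * M 1 0) / M 1 0) (div_ne_zero hd hc)),
        Units.ext (Matrix.ext fun i j => ?_)⟩
      fin_cases i <;> fin_cases j <;> simp [coe_borEl, coe_lineRep_some]
      · field_simp
      · field_simp
        ring

/-- A sum over the group through the cosets. -/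
lemma sum_cosets (f : G → ℂ) :
    ∑ M : G, f M = ∑ o : Option κ, ∑ p : κˣ × κ × κˣ, f (lineRep o * borEl p) := by
  rw [← Fintype.sum_prod_type', ← Fintype.sum_bijective _ lineRep_mul_bijective _ f fun _ => rfl]

variable (κ) in
/-- The number of residues. -/
noncomputable def qC : ℂ := Fintype.card κ

/-- `q ≠ 0`. -/
lemma qC_ne : qC κ ≠ 0 := Nat.cast_ne_zero.2 Fintype.card_ne_zero

/-- `q ≠ 1`. -/
lemma qC_sub_one_ne : qC κ - 1 ≠ 0 := by
  rw [qC, sub_ne_zero]
  exact_mod_cast (Fintype.one_lt_card (α := κ)).ne'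

omit [Field κ] in
/-- `q ≠ -1`. -/
lemma qC_add_one_ne : qC κ + 1 ≠ 0 := by
  rw [qC]; exact_mod_cast Nat.succ_ne_zero (Fintype.card κ)

/-- There are `q - 1` units. -/
lemma card_units_qC : (Fintype.card κˣ : ℂ) = qC κ - 1 := by
  rw [Fintype.card_units, Nat.cast_sub Fintype.card_pos, qC, Nat.cast_one]

/-- Convolution on the finite group, divided by the number of scalars. -/
noncomputable def cv (f g : G → ℂ) (N : G) : ℂ :=
  (Fintype.card κˣ : ℂ)⁻¹ * ∑ M, f M * g (M⁻¹ * N)

/-- A nontrivial cubic character of the residue field. -/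
structure IsCub (χ : MulChar κ ℂ) : Prop where
  /-- The character is not trivial. -/
  ne_one : χ ≠ 1
  /-- The cube of the character is trivial. -/
  cube : χ ^ 3 = 1

variable {χ : MulChar κ ℂ}

omit [Fintype κ] in
/-- The values of a cubic character are cube roots of one. -/
lemma IsCub.apply_cube (h : IsCub χ) {x : κ} (hx : x ≠ 0) : χ x ^ 3 = 1 := by
  rw [← MulChar.pow_apply' χ three_ne_zero, h.cube, MulChar.one_apply (isUnit_iff_ne_zero.2 hx)]

omit [Fintype κ] in
/-- A cubic character ignores cubes. -/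
lemma IsCub.mul_cube (h : IsCub χ) (x : κ) {y : κ} (hy : y ≠ 0) : χ (x * y ^ 3) = χ x := by
  rw [map_mul, map_pow, h.apply_cube hy, mul_one]

omit [Fintype κ] in
/-- The square of a cubic character is cubic. -/
lemma IsCub.sq (h : IsCub χ) : IsCub (χ ^ 2) where
  ne_one e := h.ne_one (by
    have := h.cube
    rw [pow_succ, e, one_mul] at this
    exact this)
  cube := by rw [← pow_mul, mul_comm, pow_mul, h.cube, one_pow]

omit [Fintype κ] in
/-- The values of the square. -/
lemma sq_apply_eq (x : κ) :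
    (χ ^ 2) x = χ x ^ 2 := MulChar.pow_apply' _ two_ne_zero x

/-- The constant function `1 / (q (q - 1) (q + 1))`. -/
noncomputable def uFun (_ : G) : ℂ := (qC κ * (qC κ - 1) * (qC κ + 1))⁻¹

/-- The part of the character. -/
noncomputable def pFun (χ : MulChar κ ℂ) (M : G) : ℂ :=
  if M 1 0 = 0 then χ ((↑ₘM).det * M 1 1) * (qC κ * (qC κ - 1))⁻¹ else 0

/-- The function `χ (det M * M 1 0)`, normalised, supported off the Borel subgroup. -/
noncomputable def tFun (χ : MulChar κ ℂ) (M : G) : ℂ :=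
  χ ((↑ₘM).det * M 1 0) * (qC κ * (qC κ - 1))⁻¹

omit [Fintype κ] in
/-- The bottom row and determinant after multiplication on the right. -/
lemma coe_mul_borEl (M : G) (p : κˣ × κ × κˣ) :
    (M * borEl p) 1 0 = M 1 0 * p.1 ∧ (M * borEl p) 1 1 = M 1 0 * p.2.1 + M 1 1 * p.2.2 ∧
      (↑ₘ(M * borEl p)).det = (↑ₘM).det * (p.1 * p.2.2) := by
  refine ⟨?_, ?_, ?_⟩ <;> simp [coe_borEl, Matrix.mul_apply, Fin.sum_univ_two, Matrix.det_fin_two]

omit [Fintype κ] in
/-- The bottom row and determinant after multiplication on the left. -/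
lemma coe_borEl_mul (M : G) (p : κˣ × κ × κˣ) :
    (borEl p * M) 1 0 = p.2.2 * M 1 0 ∧ (borEl p * M) 1 1 = p.2.2 * M 1 1 ∧
      (↑ₘ(borEl p * M)).det = (↑ₘM).det * (p.1 * p.2.2) := by
  refine ⟨?_, ?_, ?_⟩ <;> simp [coe_borEl, Matrix.mul_apply, Matrix.vecMul, dotProduct,
      Fin.sum_univ_two, Matrix.det_fin_two]; ring

/-- The part of the character transforms on the right by `χ`. -/
lemma pFun_mul_borEl (M : G) (p : κˣ × κ × κˣ) :
    pFun χ (M * borEl p) = χ ((p.1 : κ) * p.2.2 * p.2.2) * pFun χ M := by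
  obtain ⟨h1, h2, h3⟩ := coe_mul_borEl M p
  simp only [pFun, h1, h2, h3, mul_eq_zero, Units.ne_zero, or_false]
  split_ifs with hc
  · simp only [hc, zero_mul, zero_add, map_mul]
    ring
  · simp

/-- The intertwining part transforms on the right by `χ (a² d)`. -/
lemma tFun_mul_borEl (M : G) (p : κˣ × κ × κˣ) :
    tFun χ (M * borEl p) = χ ((p.1 : κ) * p.2.2 * p.1) * tFun χ M := by
  obtain ⟨h1, -, h3⟩ := coe_mul_borEl M p
  simp only [tFun, h1, h3]
  simp only [map_mul]
  ring

/-- The part of the character transforms on the left by `χ`. -/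
lemma pFun_borEl_mul (M : G) (p : κˣ × κ × κˣ) :
    pFun χ (borEl p * M) = χ ((p.1 : κ) * p.2.2 * p.2.2) * pFun χ M := by
  obtain ⟨h1, h2, h3⟩ := coe_borEl_mul M p
  simp only [pFun, h1, h2, h3, mul_eq_zero, Units.ne_zero, false_or]
  split_ifs with hc
  · simp only [map_mul]
    ring
  · simp

/-- The intertwining part transforms on the left by `χ`. -/
lemma tFun_borEl_mul (M : G) (p : κˣ × κ × κˣ) :
    tFun χ (borEl p * M) = χ ((p.1 : κ) * p.2.2 * p.2.2) * tFun χ M := by
  obtain ⟨h1, -, h3⟩ := coe_borEl_mul M p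
  simp only [tFun, h1, h3]
  simp only [map_mul]
  ring

/-- A convolution through the cosets. -/
lemma cv_cosets (f g : G → ℂ) (β : κˣ × κ × κˣ → ℂ)
    (hf : ∀ M p, f (M * borEl p) = β p * f M) (hg : ∀ M p, g (borEl p * M) = β p * g M) (N : G) :
    cv f g N = qC κ * (qC κ - 1) * ∑ o : Option κ, f (lineRep o) * g ((lineRep o)⁻¹ * N) := by
  rw [cv, sum_cosets, card_units_qC]
  have e : ∀ o (p : κˣ × κ × κˣ), f (lineRep o * borEl p) * g ((lineRep o * borEl p)⁻¹ * N)
      = f (lineRep o) * g ((lineRep o)⁻¹ * N) := fun o p => by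
    have h := hg ((lineRep o * borEl p)⁻¹ * N) p
    rw [mul_inv_rev, mul_assoc, mul_inv_cancel_left] at h
    rw [hf, mul_inv_rev, mul_assoc, mul_assoc, mul_comm (β p), mul_assoc, mul_comm (g _) (β p), ← h]
  simp only [e, Finset.sum_const, Finset.card_univ, Fintype.card_prod, nsmul_eq_mul]
  rw [← Finset.mul_sum]
  push_cast
  rw [card_units_qC, ← qC]
  field_simp [qC_sub_one_ne (κ := κ)]

/-- A function twisted by a cubic character on the right sums to zero. -/
lemma sum_of_twist (h : IsCub χ) (f : G → ℂ)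
    (hf : ∀ M (a : κˣ), f (M * borEl (a, 0, 1)) = χ a * f M) :
    ∑ M, f M = 0 := by
  obtain ⟨a, ha⟩ := MulChar.ne_one_iff.1 h.ne_one
  have e : ∑ M, f M = χ a * ∑ M, f M := by
    rw [Finset.mul_sum, ← Fintype.sum_equiv (Equiv.mulRight (borEl (a, 0, 1))) _ f fun _ => rfl]
    exact Finset.sum_congr rfl fun M _ => hf M a
  by_contra hne
  exact ha (mul_right_cancel₀ hne (e.symm.trans (one_mul _).symm))

/-- The part of the character sums to zero. -/
lemma sum_pFun (h : IsCub χ) : ∑ M, pFun χ M = 0 :=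
  sum_of_twist h _ fun M a => by rw [pFun_mul_borEl]; simp

/-- The intertwining part sums to zero. -/
lemma sum_tFun (h : IsCub χ) : ∑ M, tFun χ M = 0 :=
  sum_of_twist h.sq _ fun M a => by rw [tFun_mul_borEl, sq_apply_eq]; simp [pow_two]

/-- The spherical part is idempotent. -/
lemma cv_u_u (N : G) : cv uFun uFun N = uFun N := by
  rw [cv, sum_cosets, card_units_qC]
  simp only [uFun, Finset.sum_const, Finset.card_univ, Fintype.card_prod,
    Fintype.card_option, nsmul_eq_mul]
  push_cast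
  rw [card_units_qC, ← qC]
  have := qC_ne (κ := κ); have := qC_sub_one_ne (κ := κ); have := qC_add_one_ne (κ := κ)
  field_simp

/-- The spherical part kills functions of sum zero from the left. -/
lemma cv_u_left {g : G → ℂ} (hg : ∑ M, g M = 0) (N : G) : cv uFun g N = 0 := by
  rw [cv]
  simp only [uFun]
  rw [← Finset.mul_sum,
    Fintype.sum_equiv ((Equiv.inv G).trans (Equiv.mulRight N)) (fun M => g (M⁻¹ * N)) g
      fun _ => rfl, hg,
    mul_zero, mul_zero]

/-- The spherical part kills functions of sum zero from the right. -/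
lemma cv_u_right {f : G → ℂ} (hf : ∑ M, f M = 0) (N : G) : cv f uFun N = 0 := by
  rw [cv]
  simp only [uFun]
  rw [← Finset.sum_mul, hf, zero_mul, mul_zero]

omit [Fintype κ] in
/-- The inverse of the first representative multiplies trivially. -/
lemma lineRep_none_inv_mul (N : G) : (lineRep none)⁻¹ * N = N := by simp [lineRep]

/-- The part of the character at one. -/
lemma pFun_one : pFun χ (lineRep none) = (qC κ * (qC κ - 1))⁻¹ := by simp [pFun, lineRep]

/-- The part of the character fixes functions with its left transformation law. -/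
lemma cv_pFun_left {g : G → ℂ}
    (hg : ∀ (M : G) (p : κˣ × κ × κˣ), g (borEl p * M) = χ ((p.1 : κ) * p.2.2 * p.2.2) * g M)
    (N : G) :
    cv (pFun χ) g N = g N := by
  rw [cv_cosets _ g (fun p : κˣ × κ × κˣ => χ ((p.1 : κ) * p.2.2 * p.2.2))
    pFun_mul_borEl hg, Fintype.sum_option,
    Finset.sum_eq_zero (fun t _ => by simp [pFun, coe_lineRep_some]), add_zero,
      lineRep_none_inv_mul,
    pFun_one, ← mul_assoc, mul_inv_cancel₀ (mul_ne_zero qC_ne qC_sub_one_ne), one_mul]

/-- The part of the character is idempotent. -/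
lemma cv_p_p (N : G) : cv (pFun χ) (pFun χ) N = pFun χ N :=
  cv_pFun_left pFun_borEl_mul N

/-- The part of the character fixes the intertwining part. -/
lemma cv_p_t (N : G) : cv (pFun χ) (tFun χ) N = tFun χ N :=
  cv_pFun_left tFun_borEl_mul N

/-- The intertwining parts convolve to a multiple of the part of the character. -/
lemma cv_t_t (h : IsCub χ) (N : G) : cv (tFun (χ ^ 2)) (tFun χ) N = qC κ * pFun (χ ^ 2) N := by
  have hβ : ∀ p : κˣ × κ × κˣ,
      (χ ^ 2) ((p.1 : κ) * p.2.2 * p.1) = χ ((p.1 : κ) * p.2.2 * p.2.2) := fun p => by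
    rw [sq_apply_eq, ← map_pow, ← h.mul_cube ((p.1 : κ) * p.2.2 * p.2.2) p.1.ne_zero]
    ring_nf
  rw [cv_cosets _ _ _ (fun M p => by rw [tFun_mul_borEl, hβ]) tFun_borEl_mul]
  have hd := (Matrix.GeneralLinearGroup.det N).ne_zero
  rw [Matrix.GeneralLinearGroup.val_det_apply] at hd
  -- the term at the line of slope `t`
  have e : ∀ t : κ, tFun (χ ^ 2) (lineRep (some t)) * tFun χ ((lineRep (some t))⁻¹ * N)
      = ((qC κ * (qC κ - 1))⁻¹) ^ 2 * (χ ((↑ₘN).det) * χ (t * N 1 0 - N 0 0)) := fun t => by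
    have hi : ↑ₘ((lineRep (some t))⁻¹ * N) = !![0, 1; -1, t] * ↑ₘN := by
      rw [Units.val_mul]
      congr 1
      rw [Matrix.coe_units_inv, coe_lineRep_some]
      refine Matrix.inv_eq_right_inv ?_
      ext i j; fin_cases i <;> fin_cases j <;> simp
    have h10 : ((lineRep (some t))⁻¹ * N) 1 0 = t * N 1 0 - N 0 0 := by
      show (↑ₘ((lineRep (some t))⁻¹ * N)) 1 0 = _
      rw [hi]; simp [Matrix.mul_apply]; ring
    have hdet : (↑ₘ((lineRep (some t))⁻¹ * N)).det = (↑ₘN).det := by
      rw [hi, Matrix.det_mul, Matrix.det_fin_two_of]; ring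
    simp only [tFun, h10, hdet]
    rw [coe_lineRep_some]
    simp [map_mul]
    ring
  rw [Fintype.sum_option, Finset.sum_congr rfl fun t _ => e t,
    show tFun (χ ^ 2) (lineRep none) = 0 by
      simp [tFun, lineRep, MulChar.map_zero], zero_mul, zero_add, ← Finset.mul_sum,
    ← Finset.mul_sum]
  -- sum over the lines, by the cases of the lower left entry
  by_cases hc : N 1 0 = 0
  · rw [pFun, if_pos hc]
    simp only [hc, mul_zero, zero_sub, Finset.sum_const, Finset.card_univ, nsmul_eq_mul]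
    rw [← qC]
    have hN : (↑ₘN).det = N 0 0 * N 1 1 := by rw [Matrix.det_fin_two, hc]; ring
    rw [hN] at hd ⊢
    have hval : χ (N 0 0 * N 1 1) * χ (-N 0 0) = (χ ^ 2) (N 0 0 * N 1 1 * N 1 1) := by
      rw [sq_apply_eq, ← map_mul, ← map_pow]
      refine Eq.trans ?_ (congrArg χ (show N 0 0 * N 1 1 * (N 0 0) * (N 1 1) ^ 3
        = (N 0 0 * N 1 1 * N 1 1) ^ 2 by ring))
      rw [h.mul_cube _ (right_ne_zero_of_mul hd), show N 0 0 * N 1 1 * -N 0 0 = N 0 0 * N 1 1 *
          N 0 0 * (-1) ^ 3 by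
        ring, h.mul_cube _ (neg_ne_zero.2 one_ne_zero)]
    rw [← hval]
    have := qC_ne (κ := κ); have := qC_sub_one_ne (κ := κ)
    field_simp
  · rw [pFun, if_neg hc, mul_zero,
      Fintype.sum_equiv ((Equiv.mulRight₀ _ hc).trans (Equiv.subRight (N 0 0)))
        (fun t => χ (t * N 1 0 - N 0 0)) (fun x => χ x) fun _ => rfl,
      MulChar.sum_eq_zero_of_ne_one h.ne_one]
    simp

/-- `P + P_θ`. -/
noncomputable def rFun (χ : MulChar κ ℂ) (M : G) : ℂ := uFun M + pFun χ M

/-- The intertwining function `uFun + tFun χ`. -/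
noncomputable def zFun (χ : MulChar κ ℂ) (M : G) : ℂ := uFun M + tFun χ M

/-- The intertwining function in the other direction, `uFun + q⁻¹ tFun (χ²)`. -/
noncomputable def zFun' (χ : MulChar κ ℂ) (M : G) : ℂ := uFun M + (qC κ)⁻¹ * tFun (χ ^ 2) M

/-- Convolution is bilinear. -/
lemma cv_add (f₁ f₂ g₁ g₂ : G → ℂ) (N : G) :
    cv (fun M => f₁ M + f₂ M) (fun M => g₁ M + g₂ M) N =
      cv f₁ g₁ N + cv f₁ g₂ N + cv f₂ g₁ N + cv f₂ g₂ N := by
  simp only [cv, add_mul, mul_add, Finset.sum_add_distrib]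
  ring

/-- `P + P_χ` is idempotent. -/
lemma cv_rFun (h : IsCub χ) (N : G) : cv (rFun χ) (rFun χ) N = rFun χ N := by
  change cv (fun M => uFun M + pFun χ M) (fun M => uFun M + pFun χ M) N = _
  rw [cv_add, cv_u_u, cv_u_left (sum_pFun h), cv_u_right (sum_pFun h), cv_p_p, rFun]
  ring

/-- `P + P_χ` fixes the intertwiner from the left. -/
lemma cv_rFun_zFun (h : IsCub χ) (N : G) : cv (rFun χ) (zFun χ) N = zFun χ N := by
  change cv (fun M => uFun M + pFun χ M) (fun M => uFun M + tFun χ M) N = _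
  rw [cv_add, cv_u_u, cv_u_left (sum_tFun h), cv_u_right (sum_pFun h), cv_p_t, zFun]
  ring

/-- The two intertwiners compose to the idempotent of the inverse character. -/
lemma cv_zFun' (h : IsCub χ) (N : G) : cv (zFun' χ) (zFun χ) N = rFun (χ ^ 2) N := by
  change cv (fun M => uFun M + (qC κ)⁻¹ * tFun (χ ^ 2) M) (fun M => uFun M + tFun χ M) N = _
  have h0 : ∑ M : G, (qC κ)⁻¹ * tFun (χ ^ 2) M = 0 := by
    rw [← Finset.mul_sum, sum_tFun h.sq, mul_zero]
  rw [cv_add, cv_u_u, cv_u_left (sum_tFun h), cv_u_right h0,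
    show cv (fun M => (qC κ)⁻¹ * tFun (χ ^ 2) M) (tFun χ) N =
        (qC κ)⁻¹ * cv (tFun (χ ^ 2)) (tFun χ) N by
      simp only [cv, mul_assoc, ← Finset.mul_sum]; ring,
    cv_t_t h, ← mul_assoc, inv_mul_cancel₀ qC_ne, one_mul, rFun]
  ring

omit [Fintype κ] in
/-- The entries of a scalar multiple. -/
lemma coe_scal_mul (z : κˣ) (M : G) (i j : Fin 2) : (scal z * M) i j = (z : κ) * M i j := by
  rw [Units.val_mul, scal_coe, Matrix.scalar_apply, Matrix.diagonal_mul]

omit [Fintype κ] in
/-- The determinant of a scalar multiple. -/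
lemma det_scal_mul (z : κˣ) (M : G) : (↑ₘ(scal z * M)).det = (z : κ) ^ 2 * (↑ₘM).det := by
  rw [Matrix.det_fin_two, Matrix.det_fin_two, coe_scal_mul, coe_scal_mul,
    coe_scal_mul, coe_scal_mul]
  ring

/-- The part of the character ignores scalars. -/
lemma pFun_scal (h : IsCub χ) (z : κˣ) (M : G) : pFun χ (scal z * M) = pFun χ M := by
  simp only [pFun, det_scal_mul, coe_scal_mul, mul_eq_zero, Units.ne_zero, false_or]
  split_ifs
  · rw [show (z : κ) ^ 2 * (↑ₘM).det * ((z : κ) * M 1 1) = (↑ₘM).det * M 1 1 * (z : κ) ^ 3 by ring,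
      h.mul_cube _ z.ne_zero]
  · rfl

/-- The intertwining part ignores scalars. -/
lemma tFun_scal (h : IsCub χ) (z : κˣ) (M : G) : tFun χ (scal z * M) = tFun χ M := by
  simp only [tFun, det_scal_mul, coe_scal_mul]
  rw [show (z : κ) ^ 2 * (↑ₘM).det * ((z : κ) * M 1 0) = (↑ₘM).det * M 1 0 * (z : κ) ^ 3 by ring,
    h.mul_cube _ z.ne_zero]

omit [Fintype κ] in
/-- Conjugation squares the values of a cubic character. -/
lemma conj_apply_cub (h : IsCub χ) (x : κ) : conj (χ x) = χ x ^ 2 := by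
  rcases eq_or_ne x 0 with rfl | hx
  · simp [MulChar.map_zero]
  have h3 := h.apply_cube hx
  have hn : ‖χ x‖ = 1 := by
    have := congrArg (fun z : ℂ => ‖z‖) h3
    simp only [norm_pow, norm_one] at this
    exact (pow_eq_one_iff_of_nonneg (norm_nonneg _) (by norm_num)).1 this
  rw [← Complex.inv_eq_conj hn]
  exact inv_eq_of_mul_eq_one_right (by rw [← h3]; ring)

/-- The part of the character is hermitian. -/
lemma pFun_inv (h : IsCub χ) (M : G) : pFun χ M⁻¹ = conj (pFun χ M) := by
  have hd := (Matrix.GeneralLinearGroup.det M).ne_zero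
  rw [Matrix.GeneralLinearGroup.val_det_apply] at hd
  have hi : ↑ₘ(M⁻¹) = ((↑ₘM).det)⁻¹ • (↑ₘM).adjugate := by
    rw [Matrix.coe_units_inv, Matrix.inv_def, Ring.inverse_eq_inv']
  have h10 : (M⁻¹) 1 0 = ((↑ₘM).det)⁻¹ * -(M 1 0) := by
    rw [hi]; simp [Matrix.adjugate_fin_two]
  have h11 : (M⁻¹) 1 1 = ((↑ₘM).det)⁻¹ * M 0 0 := by
    rw [hi]; simp [Matrix.adjugate_fin_two]
  have hdi : (↑ₘ(M⁻¹)).det = ((↑ₘM).det)⁻¹ := by
    refine eq_inv_of_mul_eq_one_left ?_
    rw [← Matrix.det_mul, ← Units.val_mul, inv_mul_cancel, Units.val_one, Matrix.det_one]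
  simp only [pFun, h10, h11, hdi, mul_eq_zero, inv_eq_zero, hd, neg_eq_zero, false_or]
  split_ifs with hc
  · simp only [map_mul, map_inv₀, map_sub, map_one, conj_apply_cub h]
    rw [show conj (qC κ) = qC κ from Complex.conj_natCast _, ← mul_pow, ← map_mul χ,
      ← map_mul χ, ← map_mul χ, ← map_pow χ]
    congr 1
    have hN : (↑ₘM).det = M 0 0 * M 1 1 := by rw [Matrix.det_fin_two, hc]; ring
    rw [hN] at hd ⊢
    have h0 := left_ne_zero_of_mul hd
    have h1 := right_ne_zero_of_mul hd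
    rw [← h.mul_cube (((M 0 0 * M 1 1)⁻¹) * ((M 0 0 * M 1 1)⁻¹ * M 0 0))
      (mul_ne_zero h0 (pow_ne_zero 2 h1))]
    congr 1
    field_simp
  · simp

/-- `P + P_χ` is hermitian. -/
lemma rFun_inv (h : IsCub χ) (M : G) : rFun χ M⁻¹ = conj (rFun χ M) := by
  rw [rFun, rFun, map_add, pFun_inv h]
  congr 1
  simp [uFun, qC]

end Fermat.LT.Sys
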