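import Fermat.Agent.LT.Sys.Unfold
import Fermat.Agent.LT.AutAct
import Fermat.Agent.LT.Sys.Eigenbasis

/-!
# Systems: the orthonormal family of joint eigenfunctions, traces, expansions

Main theorem `exists_eigFam`: on each field there is an `EigFam`, orthonormal eigenfunctions of all
coordinates together with the spectral expansion of the twisted traces (`trace`) and finite
expansions of eigenfunctions (`expand`). A system means a member of this family with its
eigenvalues; `Compare` reads the geometric comparison on the two families.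
-/

set_option autoImplicit false
open MeasureTheory Filter Set NumberField
open scoped Classical ComplexConjugate InnerProductSpace ENNReal

namespace Fermat.LT.Sys

variable {F : Type} [Field F] [NumberField F] {S E : Set (Place F)}

/-- A list of operations applied to a function, the last one first. -/
noncomputable def acts (l : List (Op F S)) (Φ : Pt F S → ℂ) : Pt F S → ℂ := l.foldr opAct Φ

/-- A list of operations is linear in the function. -/
lemma acts_smul_fun (l : List (Op F S)) (c : ℂ) (Φ : Pt F S → ℂ) :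
    acts l (fun q => c * Φ q) = fun q => c * acts l Φ q := by
  induction l with
  | nil => rfl
  | cons o l ih =>
    change opAct o (acts l _) = _
    rw [ih]
    exact funext fun q => opAct_smul_fun o c _ q

/-- The kernel composed with a list of operations gives the list applied to its transform. -/
lemma appP_steps_acts [Finite S] {D : Set (Pt F S)} [IsFiniteMeasure (domMeasure D)] {P : PKer F S}
    (hP : P.Bdd) (φ : DomL2 D) (l : List (Op F S)) :
    (fun p => (steps l P).appP φ p) = acts l fun p => P.appP φ p := by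
  induction l with
  | nil => rfl
  | cons o l ih =>
    change (fun p => (step o (steps l P)).appP φ p) = opAct o (acts l _)
    rw [← ih]
    exact funext fun p => appP_step o (steps_bdd l hP) φ p

variable [Finite S]

/-- Bounded invariant continuous function fixed by the cuspidal idempotents on `E`, eigen for the
operation of every coordinate, with real eigenvalues. -/
structure EigFun (hE : E ⊆ S) (hn : ∀ v ∈ E, pnorm v = 3) (X : Extra F S E) (e : Coord F S E → ℝ)
    (Φ : Pt F S → ℂ) : Prop where
  /-- The function is invariant under `GL₂(F)`. -/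
  invariant : IsInvariant Φ
  /-- The function is continuous in the archimedean variables. -/
  continuous : ∀ ω : FinPt F S, Continuous fun x : InfinitePlace F → H3 => Φ (ω, x)
  /-- The function is bounded. -/
  bounded : ∃ C : ℝ, ∀ p, ‖Φ p‖ ≤ C
  /-- The cuspidal idempotents at the places of `E` fix the function. -/
  fixE : ∀ v (h : v ∈ E) p, locAct v (eKer (hn v h) (hE h)) Φ p = Φ p
  /-- The operation of each coordinate `j` acts by `e j`. -/
  eig : ∀ j p, opAct (coordOp X j) Φ p = (e j : ℂ) * Φ p

/-- The orthonormal eigenfamily. -/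
structure EigFam (hE : E ⊆ S) (hn : ∀ v ∈ E, pnorm v = 3) (X : Extra F S E) (D : Set (Pt F S)) where
  /-- The index type of the family. -/
  I : Type
  /-- The eigenvalue of the base kernel. -/
  lam : I → ℝ
  /-- The eigenvalues of the operations. -/
  eig : I → Coord F S E → ℝ
  /-- The eigenfunction of each index. -/
  Φ : I → Pt F S → ℂ
  /-- Each member is an eigenfunction with its eigenvalues. -/
  data : ∀ i, EigFun hE hn X (eig i) (Φ i)
  /-- Each member is not identically zero. -/
  nonzero : ∀ i, ∃ p, Φ i p ≠ 0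
  /-- Each member represents a square integrable class on which the base kernel acts by `lam i`. -/
  appA : ∀ i, ∃ b : DomL2 D, b =ᵐ[domMeasure D] Φ i ∧ ∀ p, (base hE hn).appP b p =
    (lam i : ℂ) * Φ i p
  /-- The members are orthonormal on the domain. -/
  orth : ∀ i k, ∫ p, conj (Φ i p) * Φ k p ∂domMeasure D = if i = k then 1 else 0
  /-- The eigenvalues of the base kernel are square summable. -/
  summ : Summable fun i => lam i ^ 2
  /-- Twisted trace of a list of operations after the square of the base kernel. -/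
  trace : ∀ (τ : F ≃+* F) (hS : Stable τ S) [IsTotallyComplex F] (l : List (Op F S)) (c : I → ℂ),
    (∀ i q, acts l (Φ i) q = c i * Φ i q) →
    HasSum (fun i => (lam i : ℂ) ^ 2 * (∫ p, conj (Φ i (Pt.amap hS p)) * Φ i p ∂domMeasure D) * c i)
      (∫ p in D, ((steps l (base hE hn)).comp (base hE hn)).kap p (Pt.amap hS p) ∂ptMeasure)
  /-- The series of twisted inner products weighted by `lam i ^ 2` converges absolutely. -/
  summ_amap : ∀ (τ : F ≃+* F) (hS : Stable τ S) [IsTotallyComplex F],
    Summable fun i => ‖(lam i : ℂ) ^ 2 * ∫ p, conj (Φ i (Pt.amap hS p)) * Φ i p ∂domMeasure D‖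
  /-- An eigenfunction with parameter zero for `k0` is a finite combination of members with its
  eigenvalues. -/
  expand : ∀ (e : Coord F S E → ℝ) (Ψ : Pt F S → ℂ), EigFun hE hn X e Ψ →
    (∀ u p, archAct u k0.ker Ψ p = hhat0 k0.1 * Ψ p) →
    ∃ (s : Finset I) (c : I → ℂ), (∀ i ∈ s, eig i = e) ∧ Ψ = fun p => ∑ i ∈ s, c i * Φ i p

section Basis

variable {A : PKer F S} {D : Set (Pt F S)} [IsFiniteMeasure (domMeasure D)]

/-- A kernel with a scalar action on a representative acts by that scalar. -/
lemma opK_eq_smul_of_ae {P : PKer F S} (hP : P.Bdd) {φ : DomL2 D} {Ψ : Pt F S → ℂ}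
    (hφ : φ =ᵐ[domMeasure D] Ψ) {c : ℂ} (h : ∀ p, P.appP φ p = c * Ψ p) : P.opK hP φ = c • φ := by
  refine Lp.ext ?_
  filter_upwards [PKer.opK_coeFn hP φ, Lp.coeFn_smul c φ, hφ] with p h1 h2 h3
  rw [h1, h2, h, Pi.smul_apply, smul_eq_mul, h3]

/-- The kernel is linear on finite combinations. -/
lemma appP_sum_smul (hA : A.Bdd) {ι : Type*} (v : ι → DomL2 D) (s : Finset ι) (a : ι → ℂ)
    (p : Pt F S) :
    A.appP (∑ x ∈ s, a x • v x) p = ∑ x ∈ s, a x * A.appP (v x) p := by
  simp only [← PKer.appP_const_smul]
  simp only [PKer.appP]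
  rw [← integral_finsetSum _ fun x _ => PKer.integrable_kap_mul hA _ p]
  refine integral_congr_ae ?_
  filter_upwards [Lp.coeFn_finsetSum s fun x => a x • v x] with q hq
  rw [hq, Finset.sum_apply, Finset.mul_sum]

/-- The kernel twisted by an automorphism in the first variable. -/
lemma exists_amap_kernel [IsTotallyComplex F] (hA : A.Bdd) {τ : F ≃+* F} (hS : Stable τ S) :
    ∃ A' : SqKernel (domMeasure D), A'.toFun = fun x y => A.kap (Pt.amap hS x) y := by
  obtain ⟨C, hC⟩ := id hA
  exact ⟨⟨fun x y => A.kap (Pt.amap hS x) y, MemLp.of_bound (A.measurable_kap.comp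
    (((measurePreserving_amap hS).measurable.comp measurable_fst).prodMk
      measurable_snd)).aestronglyMeasurable
    C (Eventually.of_forall fun z => hC _ _)⟩, rfl⟩

/-- The twisted kernel kills what the kernel kills. -/
lemma op_amap_kernel_eq_zero [IsTotallyComplex F] (hA : A.Bdd)
    (hD : IsFundamentalDomain (PG F) D ptMeasure) {τ : F ≃+* F} (hS : Stable τ S)
    {A' : SqKernel (domMeasure D)} (hA' : A'.toFun = fun x y => A.kap (Pt.amap hS x) y)
    {φ : DomL2 D} (h0 : A.opK hA φ = 0) :
    A'.op φ = 0 := by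
  have h1 : ptMeasure {p | A.appP φ p ≠ 0} = 0 := by
    refine hD.measure_zero_of_invariant _ (fun γ => ?_) ?_
    · ext p
      simp only [Set.mem_smul_set_iff_inv_smul_mem, Set.mem_ofPred_eq, PKer.appP_smul]
    · have h := PKer.opK_coeFn hA φ
      rw [h0] at h
      have h2 : (fun p => A.appP φ p) =ᵐ[domMeasure D] 0 := by
        filter_upwards [h, Lp.coeFn_zero (E := ℂ) 2 (domMeasure D)] with p h1 h2
        rw [← h1, h2]
      have h3 := ae_iff.1 h2
      rwa [Measure.restrict_apply₀' hD.nullMeasurableSet] at h3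
  have h2 : ∀ᵐ p ∂domMeasure D, A.appP φ (Pt.amap hS p) = 0 :=
    ae_restrict_of_ae ((measurePreserving_amap hS).quasiMeasurePreserving.ae (ae_iff.2 h1))
  refine Lp.ext ?_
  filter_upwards [A'.op_coeFn φ, Lp.coeFn_zero (E := ℂ) 2 (domMeasure D), h2] with p e1 e2 e3
  rw [e1, e2, SqKernel.appFun, hA']
  exact e3

omit [IsFiniteMeasure (domMeasure D)] in
/-- The Hilbert–Schmidt pairing with the twisted kernel is the twisted trace. -/
lemma integral_amap_kernel_eq (hAh : A.IsHerm)
    (hD : IsFundamentalDomain (PG F) D ptMeasure) {τ : F ≃+* F} (hS : Stable τ S)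
    {A' : SqKernel (domMeasure D)} (hA' : A'.toFun = fun x y => A.kap (Pt.amap hS x) y)
    (P : PKer F S) :
    ∫ p, ∫ q, conj (A'.toFun p q) * P.kap p q ∂domMeasure D ∂domMeasure D
      = ∫ p in D, (P.comp A).kap p (Pt.amap hS p) ∂ptMeasure := by
  refine integral_congr_ae (Eventually.of_forall fun p => ?_)
  change _ = (P.comp A).kap p (Pt.amap hS p)
  rw [hA', ← PKer.integral_kap_mul _ _ hD]
  refine integral_congr_ae (Eventually.of_forall fun q => ?_)
  change conj (A.kap (Pt.amap hS p) q) * _ = _
  rw [← PKer.kap_conj hAh.val_eq, mul_comm]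

variable {hE : E ⊆ S} {hn : ∀ v ∈ E, pnorm v = 3} {X : Extra F S E} {x : DomL2 D} {lam : ℂ}
  {χ : Coord F S E → ℂ} {Φ : Pt F S → ℂ}
  (h : PKer.SysData (base hE hn) (fam hE hn X) x lam χ Φ)
include h

/-- Operations on the base kernel act on the representative. -/
lemma sysData_appP_steps (hA : (base hE hn).Bdd) (l : List (Op F S)) (p : Pt F S) :
    (steps l (base hE hn)).appP x p = lam * acts l Φ p := by
  rw [congrFun (appP_steps_acts hA x l) p,
    show (fun q => (base hE hn).appP x q) = fun q => lam * Φ q from funext h.appA, acts_smul_fun]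

/-- The idempotents at the auxiliary places fix the representative. -/
lemma sysData_fixE (hA : (base hE hn).Bdd) (v : Place F) (hv : v ∈ E) (p : Pt F S) :
    locAct v (eKer (hn v hv) (hE hv)) Φ p = Φ p := by
  have h1 := PKer.locAct_appP hA v (eKer (hn v hv) (hE hv)) x p
  rw [show (fun q => (base hE hn).appP x q) = fun q => lam * Φ q from funext h.appA,
    locAct_smul_fun] at h1
  have hloc : (base hE hn).actLoc v (eKer (hn v hv) (hE hv)) = base hE hn := by
    have : Function.update (base hE hn).loc v ((eKer (hn v hv) (hE hv)).comp ((base hE hn).loc v))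
        = (base hE hn).loc := by
      rw [base_loc_mem hE hn hv, eKer_comp, ← base_loc_mem hE hn hv, Function.update_eq_self]
    change PKer.mk _ _ _ = _
    cases hA' : base hE hn
    simp only [hA'] at this ⊢
    congr
  rw [hloc, h.appA] at h1
  exact mul_left_cancel₀ h.lam_ne h1

/-- The representative is a joint eigenfunction. -/
lemma sysData_eigFun (hA : (base hE hn).Bdd) : EigFun hE hn X (fun j => (χ j).re / lam.re) Φ := by
  refine ⟨h.invariant, h.continuous, h.bounded, sysData_fixE h hA, fun j p => ?_⟩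
  have h2 := h.appT j p
  rw [fam, appP_step _ hA,
    show (fun q => (base hE hn).appP x q) =
      fun q => lam * Φ q from funext h.appA, opAct_smul_fun] at h2
  simp only [Complex.ofReal_div, Complex.conj_eq_iff_re.1 h.lam_real,
    Complex.conj_eq_iff_re.1 (h.chi_real j)]
  rw [div_mul_eq_mul_div, eq_div_iff h.lam_ne, mul_comm, h2]

/-- Matrix coefficients of the twisted kernel on an eigenvector. -/
lemma sysData_inner_amap (hA : (base hE hn).Bdd) {τ : F ≃+* F}
    (hS : Stable τ S) {A' : SqKernel (domMeasure D)}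
    (hA' : A'.toFun = fun x y => (base hE hn).kap (Pt.amap hS x) y) (l : List (Op F S)) :
    ⟪A'.op x, ((steps l (base hE hn)).toSq (steps_bdd l hA)).op x⟫_ℂ
      = (lam.re : ℂ) ^ 2 * ∫ p, conj (Φ (Pt.amap hS p)) * acts l Φ p ∂domMeasure D := by
  rw [SqKernel.inner_op_op, ← integral_const_mul]
  refine integral_congr_ae (Eventually.of_forall fun p => ?_)
  change conj (∫ q, A'.toFun p q * _ ∂domMeasure D) * (steps l (base hE hn)).appP x p = _
  rw [hA']
  change conj ((base hE hn).appP x (Pt.amap hS p)) * _ = _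
  rw [h.appA, sysData_appP_steps h hA, map_mul, h.lam_real, Complex.conj_eq_iff_re.1 h.lam_real]
  ring

/-- An eigenvector meeting a joint eigenfunction has its eigenvalues. -/
lemma sysData_eig_eq [IsTotallyComplex F] (hne : E.Nonempty) {e' : Coord F S E → ℝ} {ψ : DomL2 D}
    {Ψ : Pt F S → ℂ} (hψ : ψ =ᵐ[domMeasure D] Ψ) (hΨ : EigFun hE hn X e' Ψ) {c : ℂ}
    (hAψ : ∀ p, (base hE hn).appP ψ p = c * Ψ p) (hx : ⟪x, ψ⟫_ℂ ≠ 0) :
    (fun j => (χ j).re / lam.re) = e' ∧ (lam.re : ℂ) = c := by
  have hA := base_bdd hE hn hne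
  have hlr : (lam.re : ℂ) = lam := Complex.conj_eq_iff_re.1 h.lam_real
  have hl0 : lam.re ≠ 0 := fun h0 => h.lam_ne (by rw [← hlr, h0]; simp)
  have hl : lam = c := by
    rw [← h.lam_real]
    exact conj_eigenvalue_eq (PKer.isSymmetric_opK hA (base_isHerm hE hn).val_eq) hx
      (opK_eq_smul_of_ae hA h.ae_eq.symm h.appA) (opK_eq_smul_of_ae hA hψ hAψ)
  refine ⟨funext fun j => ?_, by rw [hlr, hl]⟩
  have hT := fam_bdd hE hn X hne j
  have h2 := conj_eigenvalue_eq (PKer.isSymmetric_opK hT (fam_isHerm hE hn X j).val_eq) hx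
    (opK_eq_smul_of_ae hT h.ae_eq.symm (h.appT j))
    (opK_eq_smul_of_ae hT hψ (c := (e' j : ℂ) * c) fun p => by
      rw [fam, appP_step _ hA, show (fun q => (base hE hn).appP ψ q) = fun q =>
        c * Ψ q from funext hAψ, opAct_smul_fun, hΨ.eig]
      ring)
  rw [h.chi_real, ← Complex.conj_eq_iff_re.1 (h.chi_real j), ← hl, ← hlr, ← Complex.ofReal_mul,
    Complex.ofReal_inj] at h2
  change (χ j).re / lam.re = e' j
  rw [h2, mul_div_assoc, div_self hl0, mul_one]

end Basis

variable (hE : E ⊆ S) (hn : ∀ v ∈ E, pnorm v = 3) (X : Extra F S E) {D : Set (Pt F S)}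

/-- **Existence of the eigenfamily.** A fundamental domain carries an orthonormal family of joint
eigenfunctions with the trace and finite expansions (`EigFam`). -/
theorem exists_eigFam [IsTotallyComplex F] (hne : E.Nonempty)
    (hD : IsFundamentalDomain (PG F) D ptMeasure) : Nonempty (EigFam hE hn X D) := by
  have : IsFiniteMeasure (domMeasure D) := isFiniteMeasure_domMeasure hD
  have : Fact ((2 : ℝ≥0∞) ≠ ⊤) := ⟨ENNReal.ofNat_ne_top⟩
  set A := base hE hn
  have hA : A.Bdd := base_bdd hE hn hne
  have hAh : A.IsHerm := base_isHerm hE hn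
  -- a Hilbert basis of joint eigenvectors; keep those not killed by the base kernel
  obtain ⟨w, b, hb, hw⟩ := PKer.exists_sysBasis hD A (fam hE hn X) hA (fam_bdd hE hn X hne) hAh
    (fam_isHerm hE hn X) (locComm_base_fam hE hn X) (fun i j _ => locComm_fam hE hn X i j)
  have hcw : Countable w := countable_of_orthonormal b.orthonormal
  have hsys : ∀ i : {x : w // A.opK hA (b x) ≠ 0}, ∃ lam χ Φ,
      PKer.SysData A (fam hE hn X) (b i.1) lam χ Φ := fun i => by
    have h := i.2
    rw [congrFun hb i.1] at h ⊢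
    exact (hw _ i.1.2).resolve_left h
  choose lam χ Φ hdata using hsys
  have hlamR : ∀ i, ((lam i).re : ℂ) = lam i := fun i => Complex.conj_eq_iff_re.1 (hdata i).lam_real
  set e : {x : w // A.opK hA (b x) ≠ 0} → Coord F S E → ℝ := fun i j => (χ i j).re / (lam i).re
  have horth : ∀ i k, ∫ p, conj (Φ i p) * Φ k p ∂domMeasure D = if i = k then 1 else 0 :=
    integral_conj_mul_of_orthonormal b.orthonormal Subtype.val_injective fun i => (hdata i).ae_eq
  have hsumm : Summable fun i => (lam i).re ^ 2 := by
    refine (((A.toSq hA).summable_norm_op_sq b.orthonormal).subtype {x | A.opK hA (b x) ≠ 0}).congr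
      fun i => ?_
    change ‖A.opK hA (b i.1)‖ ^ 2 = _
    rw [opK_eq_smul_of_ae hA (hdata i).ae_eq.symm (hdata i).appA, norm_smul,
      b.orthonormal.1, mul_one, ← hlamR i, Complex.norm_real, Real.norm_eq_abs, sq_abs]
    simp
  refine ⟨{
    I := {x : w // A.opK hA (b x) ≠ 0}
    lam := fun i => (lam i).re
    eig := e
    Φ := Φ
    data := fun i => sysData_eigFun (hdata i) hA
    nonzero := fun i => exists_ne_zero_of_integral_eq_one (by rw [horth, if_pos rfl])
    appA := fun i => ⟨b i.1, (hdata i).ae_eq.symm, fun p => by rw [hlamR]; exact (hdata i).appA p⟩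
    orth := fun i k => (horth i k).trans (by congr)
    summ := hsumm
    trace := fun τ hS _ l c hc => ?_
    summ_amap := fun τ hS _ => ?_
    expand := fun e' Ψ hΨ ha => ?_ }⟩
  · -- the trace of the twisted kernel against the operations
    obtain ⟨A', hA'⟩ := exists_amap_kernel (D := D) hA hS
    have h := A'.hasSum_inner_op_subtype ((steps l A).toSq (steps_bdd l hA)) b
      (P := fun x => A.opK hA (b x) ≠ 0) fun x hx =>
        op_amap_kernel_eq_zero hA hD hS hA' (not_not.1 hx)
    rw [← integral_amap_kernel_eq hAh hD hS hA']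
    refine h.congr_fun fun i => ?_
    rw [sysData_inner_amap (hdata i) hA hS hA' l, mul_assoc, ← integral_mul_const]
    exact congrArg _ (integral_congr_ae (Eventually.of_forall fun p => by
      change _ * _ * _ = _ * _
      rw [hc, mul_comm (c i), mul_assoc]))
  · obtain ⟨A', hA'⟩ := exists_amap_kernel (D := D) hA hS
    exact ((A'.summable_norm_inner_op ((steps [] A).toSq (steps_bdd [] hA))
      b.orthonormal).subtype _).congr
      fun i => congrArg _ (sysData_inner_amap (hdata i) hA hS hA' [])
  · -- an eigenfunction meets only members with its eigenvalues, finitely many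
    set H : ℂ := hhat0 k0.1 ^ Fintype.card (InfinitePlace F)
    have hH : H ≠ 0 := pow_ne_zero _ hhat0_k0_ne
    set ψ : DomL2 D := toL2 hΨ.continuous hΨ.bounded
    have hψ := toL2_ae (D := D) hΨ.continuous hΨ.bounded
    have hAψ : ∀ p, A.appP ψ p = H * Ψ p :=
      appP_base hD hE hn hΨ.invariant hΨ.continuous hΨ.bounded hΨ.fixE ha hψ
    have hfin := finite_level_of_summable_sq hsumm hH
    refine ⟨hfin.toFinset.filter fun i => e i = e', _, fun i hi => (Finset.mem_filter.1 hi).2,
      eq_finite_expansion b (Subtype.val : {x : w // A.opK hA (b x) ≠ 0} → w)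
        Subtype.val_injective
        (fun φ p => A.appP φ p) (fun s a p => appP_sum_smul hA _ s a p) (fun i p =>
          (hdata i).appA p) hH
        hAψ _ (fun i hi => (hlamR i).symm.trans (hfin.mem_toFinset.1 (Finset.mem_filter.1 hi).1))
        fun x hx => ?_⟩
    have hAx : A.opK hA (b x) ≠ 0 := fun h0 => hH <| by
      have h1 := conj_eigenvalue_eq (PKer.isSymmetric_opK hA hAh.val_eq) hx (c := 0)
        (by rw [zero_smul]; exact h0) (opK_eq_smul_of_ae hA hψ hAψ)
      simpa using h1.symm
    obtain ⟨he, hl⟩ := sysData_eig_eq (hdata ⟨x, hAx⟩) hne hψ hΨ hAψ hx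
    exact ⟨⟨x, hAx⟩, Finset.mem_filter.2 ⟨hfin.mem_toFinset.2 hl, he⟩, rfl⟩

/-- Eigenvalues are bounded independently of the function. -/
lemma EigFam.eig_bound (Z : EigFam hE hn X D) (j : Coord F S E) :
    ∃ M : ℝ, ∀ i, |Z.eig i j| ≤ M := by
  obtain ⟨m, hm⟩ : ∃ m : ℝ, ∀ (Φ : Pt F S → ℂ) (C : ℝ), (∀ p, ‖Φ p‖ ≤ C) →
      ∀ p, ‖opAct (coordOp X j) Φ p‖ ≤ m * C := by
    rcases hj : coordOp X j with ⟨v, l⟩ | ⟨u, a⟩
    · exact ⟨l.mass, fun Φ C hC p => norm_locAct_le v l hC p⟩
    · exact ⟨a.mass, fun Φ C hC p => norm_archAct_le u a hC p⟩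
  refine ⟨m, fun i => ?_⟩
  have := PKer.norm_eigen_le (Z.data i).bounded (Z.nonzero i) (opAct (coordOp X j)) (hm (Z.Φ i))
    ((Z.data i).eig j)
  rwa [Complex.norm_real, Real.norm_eq_abs] at this

end Fermat.LT.Sys
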