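import Fermat.Agent.LT.Sys.Base

/-!
# Systems: eigenfunctions are eigenvectors of the base operator

`appP_base`: integrated over a fundamental domain against the summed base kernel, a joint
eigenfunction is multiplied by a power of the transform of `k0`. So forms lie among the
eigenvectors found in `Trace`.
-/

set_option autoImplicit false
open MeasureTheory Filter Set NumberField
open scoped Classical

namespace Fermat.LT.Sys

/-- A product of kernels against a joint eigenfunction. -/
theorem integral_fin_prod_eigen :
    ∀ (n : ℕ) (k : Fin n → AKer) (c : Fin n → ℂ) (E : (Fin n → H3) → ℂ),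
    Continuous E → ∀ C : ℝ, (∀ x, ‖E x‖ ≤ C) →
    (∀ i x, ∫ y, k i (x i) y * E (Function.update x i y) ∂hmeas = c i * E x) →
    ∀ x : Fin n → H3, ∫ y, (∏ i, k i (x i) (y i)) * E y ∂(Measure.pi fun _ => hmeas) =
      (∏ i, c i) * E x
  | 0, k, c, E, _, C, _, _, x => by
    rw [Measure.pi_of_empty, integral_dirac]
    simp [Subsingleton.elim _ x]
  | n + 1, k, c, E, hE, C, hC, hk, x => by
    set e := MeasurableEquiv.piFinSuccAbove (fun _ : Fin (n + 1) => H3) 0
    have he : ∀ (a : H3) (r : Fin n → H3), e.symm (a, r) = Fin.cons a r := fun a r => by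
      funext i
      refine Fin.cases ?_ (fun j => ?_) i <;> simp [e, MeasurableEquiv.piFinSuccAbove,
        Fin.insertNthEquiv]
    -- split off the first variable and apply Fubini
    rw [← ((measurePreserving_piFinSuccAbove (fun _ : Fin (n + 1) => hmeas) 0).symm e).integral_comp
      e.symm.measurableEmbedding (fun y => (∏ i, k i (x i) (y i)) * E y)]
    have hf : ∀ (a : H3) (r : Fin n → H3), (∏ i, k i (x i) (e.symm (a, r) i)) * E (e.symm (a, r))
        = k 0 (x 0) a * ((∏ i : Fin n, k i.succ (x i.succ) (r i)) * E (Fin.cons a r)) :=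
            fun a r => by
      rw [he, Fin.prod_univ_succ]
      simp only [Fin.cons_zero, Fin.cons_succ]
      ring
    have hint : Integrable (fun z : H3 × (Fin n → H3) =>
        (∏ i, k i (x i) (e.symm z i)) * E (e.symm z))
        (hmeas.prod (Measure.pi fun _ => hmeas)) := by
      refine Integrable.mul_bdd ?_ (hE.comp ?_).aestronglyMeasurable
        (Eventually.of_forall fun z => hC _)
      · have h1 : Integrable (fun y : Fin (n + 1) → H3 => ∏ i, k i (x i) (y i))
            (Measure.pi fun _ => hmeas) :=
          Integrable.fintype_prod fun i => (k i).integrable (x i)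
        exact (((measurePreserving_piFinSuccAbove (fun _ : Fin (n + 1) => hmeas) 0).symm
          e).integrable_comp h1.1).2 h1
      · rw [show (⇑e.symm : H3 × (Fin n → H3) → Fin (n + 1) → H3) = fun z => Fin.cons z.1 z.2 from
          funext fun z => he z.1 z.2]
        refine continuous_pi fun i => ?_
        rcases Fin.eq_zero_or_eq_succ i with rfl | ⟨j, rfl⟩
        · simpa using continuous_fst
        · simp only [Fin.cons_succ]; fun_prop
    rw [integral_prod _ hint]
    simp only [hf, integral_const_mul]
    have ih : ∀ a, ∫ r, (∏ i : Fin n, k i.succ (x i.succ) (r i)) *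
        E (Fin.cons a r) ∂(Measure.pi fun _ => hmeas)
        = (∏ i : Fin n, c i.succ) * E (Fin.cons a fun i => x i.succ) := fun a =>
      integral_fin_prod_eigen n (fun i => k i.succ) (fun i => c i.succ) (fun r => E (Fin.cons a r))
        (hE.comp (continuous_pi fun i => by
          rcases Fin.eq_zero_or_eq_succ i with rfl | ⟨j, rfl⟩
          · simp only [Fin.cons_zero]; fun_prop
          · simp only [Fin.cons_succ]; fun_prop)) C (fun r => hC _)
        (fun i r => by
          have h := hk i.succ (Fin.cons a r)
          simp only [Fin.cons_succ, ← Fin.cons_update] at h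
          exact h) _
    simp only [ih]
    have h0 := hk 0 x
    have e0 : ∀ a, Function.update x 0 a = Fin.cons a fun i => x i.succ := fun a => by
      funext i
      rcases Fin.eq_zero_or_eq_succ i with rfl | ⟨j, rfl⟩
      · simp
      · simp [Fin.succ_ne_zero]
    simp only [e0] at h0
    rw [integral_congr_ae (Eventually.of_forall fun a =>
      show k 0 (x 0) a * ((∏ i : Fin n, c i.succ) * E (Fin.cons a fun i => x i.succ))
        = (∏ i : Fin n, c i.succ) * (k 0 (x 0) a * E (Fin.cons a fun i => x i.succ)) by ring),
      integral_const_mul, h0, Fin.prod_univ_succ]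
    ring

/-- The same over any finite index set. -/
theorem integral_prod_eigen {ι : Type*} [Fintype ι] (k : ι → AKer) (c : ι → ℂ) (E : (ι → H3) → ℂ)
    (hE : Continuous E) (C : ℝ) (hC : ∀ x, ‖E x‖ ≤ C)
    (hk : ∀ i x, ∫ y, k i (x i) y * E (Function.update x i y) ∂hmeas = c i * E x) (x : ι → H3) :
    ∫ y, (∏ i, k i (x i) (y i)) * E y ∂(Measure.pi fun _ => hmeas) = (∏ i, c i) * E x := by
  set f : Fin (Fintype.card ι) ≃ ι := (Fintype.equivFin ι).symm
  set m := MeasurableEquiv.piCongrLeft (fun _ : ι => H3) f
  have hm : ∀ r i, m r i = r (f.symm i) := fun r i => by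
    simp [m, MeasurableEquiv.coe_piCongrLeft, Equiv.piCongrLeft]
  have h := integral_fin_prod_eigen _ (fun j => k (f j)) (fun j => c (f j)) (fun r => E (m r))
    (hE.comp (by rw [show (⇑m : (Fin _ → H3) → ι → H3) = fun r i => r (f.symm i) from
                   funext fun r => funext (hm r)]
                 fun_prop)) C (fun r => hC _)
    (fun j r => by
      have h := hk (f j) (m r)
      have e : ∀ y, m (Function.update r j y) = Function.update (m r) (f j) y :=
          fun y => funext fun i => by
        rw [hm]
        by_cases hi : i = f j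
        · subst hi; simp
        · rw [Function.update_of_ne hi,
            Function.update_of_ne (fun e' => hi (by rw [← e', Equiv.apply_symm_apply])), hm]
      simp only [e]
      rw [hm, Equiv.symm_apply_apply] at h
      exact h) (fun j => x (f j))
  have hx : m (fun j => x (f j)) = x := funext fun i => by rw [hm, Equiv.apply_symm_apply]
  rw [hx, Fintype.prod_equiv f (fun j => c (f j)) c fun j => rfl] at h
  rw [← h, ← (measurePreserving_piCongrLeft (fun _ : ι => hmeas) f).integral_comp
    m.measurableEmbedding]
  refine integral_congr_ae (Eventually.of_forall fun r => ?_)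
  change (∏ i, k i (x i) (m r i)) * E (m r) = _
  congr 1
  exact (Fintype.prod_equiv f _ _ fun j => by rw [hm, Equiv.symm_apply_apply]).symm

variable {F : Type*} [Field F] [NumberField F] {S E : Set (Place F)} [Finite S]

omit [Finite S] in
/-- A function continuous on each archimedean slice is measurable. -/
lemma measurable_of_slices {Φ : Pt F S → ℂ}
    (hc : ∀ ω, Continuous fun x : InfinitePlace F → H3 => Φ (ω, x)) :
    Measurable Φ := by
  have : DiscreteMeasurableSpace (FinPt F S) := ⟨fun _ => trivial⟩
  exact measurable_from_prod_countable_right fun ω => (hc ω).measurable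

/-- The finite part of a product kernel applied to a function. -/
noncomputable def finApp (K : PKer F S) (Φ : Pt F S → ℂ) (p : Pt F S) : ℂ :=
  ∑ ν ∈ (K.finite_row p.1).toFinset, K.fin p.1 ν * Φ (ν, p.2)

omit [Finite S] in
/-- The finite sums over any finite set containing the row. -/
lemma finApp_eq (K : PKer F S) (Φ : Pt F S → ℂ) (p : Pt F S) {T : Finset (FinPt F S)}
    (hT : (K.finite_row p.1).toFinset ⊆ T) : finApp K Φ p = ∑ ν ∈ T, K.fin p.1 ν * Φ (ν, p.2) :=
  Finset.sum_subset hT fun ν _ hν => by
    simp only [Set.Finite.mem_toFinset, Set.mem_ofPred_eq, not_not] at hν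
    rw [hν, zero_mul]

/-- The finite sum of the base kernel fixes functions of cuspidal type. -/
theorem finApp_base (hE : E ⊆ S) (hn : ∀ v ∈ E, pnorm v = 3) {Φ : Pt F S → ℂ}
    (he : ∀ v (h : v ∈ E) p, locAct v (eKer (hn v h) (hE h)) Φ p = Φ p) (p : Pt F S) :
    finApp (base hE hn) Φ p = Φ p := by
  -- induction on the places where the kernel is not the unit
  have key : ∀ (T : Finset (Place F)) (K : PKer F S),
      (∀ v ∉ T, K.loc v = LKer.one S v) → (∀ v ∈ T, ∀ p, locAct v (K.loc v) Φ p = Φ p) →
      ∀ p, finApp K Φ p = Φ p := by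
    intro T
    induction T using Finset.induction with
    | empty =>
      intro K hK _ p
      have hone : ∀ ν, K.fin p.1 ν = if ν = p.1 then 1 else 0 := fun ν => by
        split_ifs with h
        · subst h
          exact finprod_eq_one_of_forall_eq_one fun v => by rw [hK v (by simp)]; simp
        · by_contra hne
          refine h (Subtype.ext (funext fun v => ?_))
          have := (K.fin_ne_zero.1 hne) v
          rw [hK v (by simp)] at this
          simp at this
          exact this.symm
      rw [finApp_eq K Φ p (T := insert p.1 (K.finite_row p.1).toFinset) (Finset.subset_insert _ _)]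
      simp [hone]
    | insert v T hv ih =>
      intro K hK hfix p
      set K' : PKer F S := ⟨Function.update K.loc v (LKer.one S v), by
        filter_upwards [K.ae_one] with u hu
        by_cases h : u = v
        · subst h; rw [Function.update_self]
        · rw [Function.update_of_ne h]; exact hu, K.arch⟩ with hK'
      have h1 : ∀ ν, K.fin p.1 ν =
          ∑ y ∈ (K.loc v).row (p.1.1 v), K.loc v (p.1.1 v) y * K'.fin (p.1.set v y) ν := by
        intro ν
        have hloc : (K'.actLoc v (K.loc v)).loc = K.loc := funext fun u => by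
          by_cases h : u = v
          · subst h
            simp [PKer.actLoc, hK', LKer.comp_one]
          · simp [PKer.actLoc, hK', Function.update_of_ne h]
        rw [← K'.fin_actLoc v (K.loc v), PKer.fin, PKer.fin, hloc]
      have h2 : ∀ q, finApp K' Φ q = Φ q := ih K' (fun u hu => by
          by_cases h : u = v
          · subst h; simp [hK']
          · simp only [hK', Function.update_of_ne h]
            exact hK u (by simp [h, hu]))
        (fun u hu q => by
          have h : u ≠ v := fun h => hv (h ▸ hu)
          have hh := hfix u (Finset.mem_insert_of_mem hu) q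
          simp only [hK', Function.update_of_ne h]
          exact hh)
      set T' := (K.finite_row p.1).toFinset ∪
        ((K.loc v).row (p.1.1 v)).biUnion fun y => (K'.finite_row (p.1.set v y)).toFinset
      rw [finApp_eq K Φ p (T := T') Finset.subset_union_left]
      simp only [h1, Finset.sum_mul]
      rw [Finset.sum_comm, ← hfix v (Finset.mem_insert_self v T) p, locAct]
      refine Finset.sum_congr rfl fun y hy => ?_
      rw [← h2 (p.1.set v y, p.2), finApp_eq K' Φ (p.1.set v y, p.2) (T := T'), Finset.mul_sum]
      · exact Finset.sum_congr rfl fun ν _ => mul_assoc _ _ _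
      · exact (Finset.subset_biUnion_of_mem (fun y =>
          (K'.finite_row (p.1.set v y)).toFinset) hy).trans Finset.subset_union_right
  exact key ((Set.toFinite S).subset hE).toFinset _ (fun v hv =>
    base_loc_notMem hE hn (by simpa using hv))
    (fun v hv q => by rw [base_loc_mem hE hn (by simpa using hv)];
                        exact he v (by simpa using hv) q) p

variable {D : Set (Pt F S)} [IsFiniteMeasure (domMeasure D)]

/-- The class of a bounded function. -/
noncomputable def toL2 {Φ : Pt F S → ℂ}
    (hc : ∀ ω, Continuous fun x : InfinitePlace F → H3 => Φ (ω, x)) (hb : ∃ C : ℝ, ∀ p, ‖Φ p‖ ≤ C) :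
    DomL2 D :=
  (MemLp.of_bound (μ := domMeasure D) (measurable_of_slices hc).aestronglyMeasurable hb.choose
    (Eventually.of_forall hb.choose_spec)).toLp Φ

omit [Finite S] in
/-- The class of a function is almost everywhere the function. -/
lemma toL2_ae {Φ : Pt F S → ℂ} (hc : ∀ ω, Continuous fun x : InfinitePlace F → H3 => Φ (ω, x))
    (hb : ∃ C : ℝ, ∀ p, ‖Φ p‖ ≤ C) : toL2 (D := D) hc hb =ᵐ[domMeasure D] Φ :=
  MemLp.coeFn_toLp _

omit [IsFiniteMeasure (domMeasure D)] in
/-- **An eigenfunction is an eigenvector of the base operator.** -/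
theorem appP_base (hD : IsFundamentalDomain (PG F) D ptMeasure) (hE : E ⊆ S)
    (hn : ∀ v ∈ E, pnorm v = 3) {Φ : Pt F S → ℂ} (hinv : IsInvariant Φ)
    (hc : ∀ ω, Continuous fun x : InfinitePlace F → H3 => Φ (ω, x)) (hb : ∃ C : ℝ, ∀ p, ‖Φ p‖ ≤ C)
    (he : ∀ v (h : v ∈ E) p, locAct v (eKer (hn v h) (hE h)) Φ p = Φ p)
    (ha : ∀ u p, archAct u k0.ker Φ p = hhat0 k0.1 * Φ p) {φ : DomL2 D} (hφ : φ =ᵐ[domMeasure D] Φ)
    (p : Pt F S) :
    (base hE hn).appP φ p = hhat0 k0.1 ^ Fintype.card (InfinitePlace F) * Φ p := by
  have : DiscreteMeasurableSpace (FinPt F S) := ⟨fun _ => trivial⟩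
  set A := base hE hn
  obtain ⟨C, hC⟩ := hb
  have hmΦ := measurable_of_slices hc
  have hIinf : Integrable (fun y : InfinitePlace F → H3 => A.inf p.2 y)
      (Measure.pi fun _ => hmeas) :=
    Integrable.fintype_prod (f := fun w y => A.arch w (p.2 w) y) fun w =>
      (A.arch w).integrable (p.2 w)
  have hint : Integrable (fun q => A.val p q * Φ q) ptMeasure := by
    refine Integrable.mul_bdd ?_ hmΦ.aestronglyMeasurable (Eventually.of_forall hC)
    have he' : (fun q => A.val p q) = fun q => ∑ ω ∈ (A.finite_row p.1).toFinset,
        (Set.indicator {ω} (fun _ => A.fin p.1 ω) q.1) * A.inf p.2 q.2 := by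
      funext q
      rw [A.val_eq_sum]
      refine Finset.sum_congr rfl fun ω _ => ?_
      by_cases h : q.1 = ω
      · subst h; simp
      · simp [h]
    rw [show A.val p = fun q => ∑ ω ∈ (A.finite_row p.1).toFinset,
      (Set.indicator {ω} (fun _ => A.fin p.1 ω) q.1) * A.inf p.2 q.2 from he']
    refine integrable_finsetSum _ fun ω _ => ?_
    unfold ptMeasure
    refine Integrable.mul_prod (f := Set.indicator {ω} fun _ => A.fin p.1 ω) ?_ hIinf
    rw [integrable_indicator_iff (measurableSet_singleton ω)]
    exact integrableOn_const (by simp)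
  -- unfold the operator, then split off the finite sum
  have h1 : A.appP φ p = ∫ q, A.val p q * Φ q ∂ptMeasure := by
    rw [← integral_domain_tsum hD hint, PKer.appP]
    refine integral_congr_ae ?_
    filter_upwards [hφ] with q hq
    rw [hq, PKer.kap, ← tsum_mul_right]
    refine tsum_congr fun γ => ?_
    obtain ⟨g, rfl⟩ := QuotientGroup.mk_surjective γ
    rw [PG.mk_smul, isInvariant_iff.1 hinv]
  rw [h1]
  have hint' : Integrable (fun q => A.val p q * Φ q)
      ((Measure.count : Measure (FinPt F S)).prod (Measure.pi fun _ => hmeas)) := hint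
  change ∫ q, A.val p q *
    Φ q ∂((Measure.count : Measure (FinPt F S)).prod (Measure.pi fun _ => hmeas)) = _
  rw [integral_prod _ hint', integral_countable hint'.integral_prod_left,
    tsum_eq_sum (s := (A.finite_row p.1).toFinset) fun ν hν => ?_]
  swap
  · simp only [Set.Finite.mem_toFinset, Set.mem_ofPred_eq, not_not] at hν
    simp [PKer.val, hν]
  rw [← finApp_base hE hn he p, finApp, Finset.mul_sum]
  refine Finset.sum_congr rfl fun ν _ => ?_
  have h2 : ∀ y : InfinitePlace F → H3, A.val p (ν, y) * Φ (ν, y)
      = A.fin p.1 ν * ((∏ w, A.arch w (p.2 w) (y w)) * Φ (ν, y)) := fun y => mul_assoc _ _ _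
  simp only [h2, integral_const_mul, measureReal_def, Measure.count_singleton,
    ENNReal.toReal_one, one_smul]
  rw [integral_prod_eigen A.arch (fun _ => hhat0 k0.1) (fun y => Φ (ν, y)) (hc ν) C (fun y => hC _)
    (fun w x => ha w (ν, x)), Finset.prod_const, Finset.card_univ]
  ring

end Fermat.LT.Sys
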