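import Fermat.Agent.LT.Sys.Level

/-!
# Systems: the matrix units acting on joint eigenfunctions

`Joint.not_line`: the matrix units at a place of cuspidal type do not keep a joint eigenfunction
on a line. So a form on `L` comes with `2 ^ 3` independent ones (`AtomL`), and a system on `K`
with a partner (`Assembly`).
-/

set_option autoImplicit false
open MeasureTheory Filter Set NumberField
open scoped Classical

namespace Fermat.LT.Sys

variable {F : Type} [Field F] [NumberField F] {S E : Set (Place F)} {hE : E ⊆ S}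
  {hn : ∀ v ∈ E, pnorm v = 3}

/-- The action of a matrix unit. -/
noncomputable def mAct (hE : E ⊆ S) (hn : ∀ v ∈ E, pnorm v = 3) (v : E) (i j : Fin 2)
    (Φ : Pt F S → ℂ) :
    Pt F S → ℂ :=
  locAct v.1 (mKer (hn v.1 v.2) (hE v.2) i j) Φ

/-- The matrix units multiply as matrix units. -/
lemma mAct_mAct (v : E) (i j k l : Fin 2) (Φ : Pt F S → ℂ) :
    mAct hE hn v i j (mAct hE hn v k l Φ) = if j = k then mAct hE hn v i l Φ else 0 := by
  funext p
  rw [mAct, mAct, ← locAct_comp]
  split_ifs with h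
  · rw [mAct, locAct_congr fun a b => (mKer_comp _ _ i j k l a b).trans (if_pos h)]
  · rw [locAct_linear 0 0 (k₁ := LKer.one S v.1) (k₂ := LKer.one S v.1)
      (fun a b => by rw [mKer_comp, if_neg h]; simp)]
    simp

/-- Matrix units at different places commute. -/
lemma mAct_comm {v u : E} (h : v ≠ u) (i j k l : Fin 2) (Φ : Pt F S → ℂ) :
    mAct hE hn v i j (mAct hE hn u k l Φ) = mAct hE hn u k l (mAct hE hn v i j Φ) :=
  funext fun p => locAct_comm (fun e => h (Subtype.ext e)) _ _ Φ p

/-- The matrix units commute with scalars. -/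
lemma mAct_smul (v : E) (i j : Fin 2) (c : ℂ) (Φ : Pt F S → ℂ) :
    mAct hE hn v i j (fun q => c * Φ q) = fun q => c * mAct hE hn v i j Φ q :=
  funext fun p => locAct_smul_fun _ c Φ p

/-- The matrix units commute with finite sums. -/
lemma mAct_sum {ι : Type*} (s : Finset ι) (v : E) (i j : Fin 2) (Φ : ι → Pt F S → ℂ) :
    mAct hE hn v i j (fun q => ∑ a ∈ s, Φ a q) = fun q => ∑ a ∈ s, mAct hE hn v i j (Φ a) q :=
  funext fun p => locAct_sum_fun s _ Φ p

/-- The matrix units kill zero. -/
lemma mAct_zero (v : E) (i j : Fin 2) : mAct (S := S) hE hn v i j 0 = 0 := by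
  funext p
  simp [mAct, locAct]

variable [Finite S] {eg : {v : Place F // v ∉ S} → ℝ} {ea : InfinitePlace F × Rad → ℝ}
  {Φ : Pt F S → ℂ}

/-- The matrix units preserve the joint eigenfunctions. -/
lemma Joint.mAct (h : Joint hE hn eg ea Φ) (v : E) (i j : Fin 2) :
    Joint hE hn eg ea (mAct hE hn v i j Φ) :=
  h.locAct (hE v.2) _ fun _ => eKer_comp_mKer _ _ i j

omit [Finite S] in
/-- A joint eigenfunction is the sum of its two diagonal components. -/
lemma Joint.eq_add (h : Joint hE hn eg ea Φ) (v : E) (p : Pt F S) :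
    Φ p = Sys.mAct hE hn v 0 0 Φ p + Sys.mAct hE hn v 1 1 Φ p := by
  conv_lhs => rw [← h.fixE v.1 v.2 p]
  rw [locAct_linear 1 1 (k₁ := mKer (hn v.1 v.2) (hE v.2) 0 0)
    (k₂ := mKer (hn v.1 v.2) (hE v.2) 1 1)
    fun a b => by rw [eKer_eq_add, one_mul, one_mul], one_mul, one_mul]
  rfl

omit [Finite S] in
/-- A nonzero function in the image of the first projector. -/
lemma Joint.pick (h : Joint hE hn eg ea Φ) (v : E) (h0 : Φ ≠ 0) :
    ∃ (k : Fin 2), Sys.mAct hE hn v 0 k Φ ≠ 0 := by
  by_contra! hne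
  refine h0 (funext fun p => ?_)
  rw [h.eq_add v p, hne 0,
    show Sys.mAct hE hn v 1 1 Φ = Sys.mAct hE hn v 1 0 (Sys.mAct hE hn v 0 1 Φ) by
      rw [mAct_mAct, if_pos rfl],
    hne 1, mAct_zero]
  simp

omit [Finite S] in
/-- The translates by the matrix units do not all lie on the line of `Φ`. -/
lemma Joint.not_line (h : Joint hE hn eg ea Φ) (v : E) (h0 : Φ ≠ 0) :
    ¬ ∀ i j, ∃ c : ℂ, Sys.mAct hE hn v i j Φ = fun q => c * Φ q := by
  intro hc
  choose c hc using hc
  obtain ⟨p, hp⟩ := Function.ne_iff.1 h0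
  have key : ∀ i j k l, c i j * c k l = if j = k then c i l else 0 := fun i j k l => by
    have h1 := congrFun (mAct_mAct (hE := hE) (hn := hn) v i j k l Φ) p
    rw [hc k l, mAct_smul, hc i j] at h1
    split_ifs at h1 ⊢ with hjk
    · rw [hc i l] at h1
      exact mul_right_cancel₀ hp (by linear_combination h1)
    · exact mul_right_cancel₀ hp (by simp only [Pi.zero_apply] at h1; linear_combination h1)
  have hadd : c 0 0 + c 1 1 = 1 := by
    have h1 := h.eq_add v p
    rw [hc 0 0, hc 1 1] at h1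
    exact mul_right_cancel₀ hp (by linear_combination -h1)
  have h01 := key 0 1 1 0
  have h10 := key 1 0 0 1
  rw [if_pos rfl] at h01 h10
  have h00 := key 0 0 0 0
  rw [if_pos rfl] at h00
  have he : c 0 0 = c 1 1 := by rw [← h01, ← h10, mul_comm]
  have hh : c 0 0 = 1 / 2 := by linear_combination (hadd + he) / 2
  rw [hh] at h00
  norm_num at h00

end Fermat.LT.Sys
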